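/-
Program J (S30), chapter J3 (HEQ), shared leaf (helper27): the double-coset operator `T_p^{dc}` on
homomorphisms `Γ₀(N) → A` (`p` prime, `p ∤ N`), in the explicit form used by BOTH consumers:

* representatives `beta p i`, `i : Option (ZMod p)`: `β_j = !![1, j; 0, p]` (`j : ZMod p`),
  `β_∞ = !![p, 0; 0, 1]` (= the prelude's `heckeMatrix p j`, `heckeDiagMatrix p`);
* for `γ : SL(2, ℤ)`: `β_i * γ = coc γ i * β_{perm γ i}` with `coc γ i : SL(2, ℤ)`, uniquely;
* `(tdcAdd φ) γ = ∑ i, φ (coc γ i)` and `(tdcMul χ) γ = ∏ i, χ (coc γ i)`.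

Mathlib + prelude only.
-/
import Mathlib
import Fermat.Prelude.Def_ModularCurve_PeriodHomPair
import Fermat.Prelude.Def_ModularForm_HeckeOperator

set_option autoImplicit false

open Matrix CongruenceSubgroup
open scoped MatrixGroups

namespace Fermat.Agent.ES.HEQ.DoubleCoset27

/-! ### The representatives -/

/-- The `p + 1` representatives of `SL(2,ℤ) \ {M : det M = p}`. -/
def beta (p : ℕ) : Option (ZMod p) → Matrix (Fin 2) (Fin 2) ℤ
  | some j => !![1, (j.val : ℤ); 0, (p : ℤ)]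
  | none => !![(p : ℤ), 0; 0, 1]

@[simp] theorem beta_some (p : ℕ) (j : ZMod p) :
    beta p (some j) = !![1, (j.val : ℤ); 0, (p : ℤ)] := rfl

@[simp] theorem beta_none (p : ℕ) : beta p none = !![(p : ℤ), 0; 0, 1] := rfl

theorem det_beta (p : ℕ) (i : Option (ZMod p)) : (beta p i).det = p := by
  cases i <;> simp [beta, Matrix.det_fin_two_of]

theorem beta_one_zero (p : ℕ) (i : Option (ZMod p)) : beta p i 1 0 = 0 := by
  cases i <;> simp [beta]

variable {p : ℕ} [hp : Fact p.Prime]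

private theorem p_ne_zero : (p : ℤ) ≠ 0 := by exact_mod_cast hp.out.ne_zero

/-! ### Existence and uniqueness of the decomposition `M = g * β_k` -/

theorem exists_decomp (M : Matrix (Fin 2) (Fin 2) ℤ) (hM : M.det = p) :
    ∃ (k : Option (ZMod p)) (g : SL(2, ℤ)), M = (g : Matrix (Fin 2) (Fin 2) ℤ) * beta p k := by
  have hdet : M 0 0 * M 1 1 - M 0 1 * M 1 0 = p := by rw [← Matrix.det_fin_two]; exact hM
  by_cases h : (p : ℤ) ∣ M 0 0 ∧ (p : ℤ) ∣ M 1 0
  · obtain ⟨⟨x', hx⟩, ⟨z', hz⟩⟩ := h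
    have hd : x' * M 1 1 - M 0 1 * z' = 1 := by
      have : (p : ℤ) * (x' * M 1 1 - M 0 1 * z') = p * 1 := by
        rw [hx, hz] at hdet; linarith
      exact mul_left_cancel₀ p_ne_zero this
    refine ⟨none, ⟨!![x', M 0 1; z', M 1 1], by rw [Matrix.det_fin_two_of]; exact hd⟩, ?_⟩
    ext i j
    fin_cases i <;> fin_cases j <;>
      simp [beta, Matrix.mul_apply, Fin.sum_univ_two, hx, hz, mul_comm]
  · -- find `j`
    have hcast : ((M 0 0 : ℤ) : ZMod p) * (M 1 1 : ZMod p) = (M 0 1 : ZMod p) * (M 1 0 : ZMod p) := by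
      have := congrArg (Int.cast : ℤ → ZMod p) hdet
      push_cast at this
      rw [ZMod.natCast_self] at this
      exact sub_eq_zero.mp this
    obtain ⟨j, hj1, hj2⟩ : ∃ j : ZMod p, j * (M 0 0 : ZMod p) = (M 0 1 : ZMod p) ∧
        j * (M 1 0 : ZMod p) = (M 1 1 : ZMod p) := by
      by_cases hx : ((M 0 0 : ℤ) : ZMod p) = 0
      · have hz : ((M 1 0 : ℤ) : ZMod p) ≠ 0 := by
          intro hz
          exact h ⟨(ZMod.intCast_zmod_eq_zero_iff_dvd _ p).mp hx,
            (ZMod.intCast_zmod_eq_zero_iff_dvd _ p).mp hz⟩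
        refine ⟨(M 1 1 : ZMod p) * ((M 1 0 : ℤ) : ZMod p)⁻¹, ?_, ?_⟩
        · rw [hx, mul_zero]
          rw [hx, zero_mul] at hcast
          exact ((mul_eq_zero.mp hcast.symm).resolve_right hz).symm
        · rw [mul_assoc, inv_mul_cancel₀ hz, mul_one]
      · refine ⟨(M 0 1 : ZMod p) * ((M 0 0 : ℤ) : ZMod p)⁻¹, ?_, ?_⟩
        · rw [mul_assoc, inv_mul_cancel₀ hx, mul_one]
        · have : ((M 0 0 : ℤ) : ZMod p) * ((M 0 1 : ZMod p) * ((M 0 0 : ℤ) : ZMod p)⁻¹ * (M 1 0 : ZMod p))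
              = ((M 0 0 : ℤ) : ZMod p) * (M 1 1 : ZMod p) := by
            rw [hcast]; field_simp
          exact mul_left_cancel₀ hx this
    have hjv : ((j.val : ℤ) : ZMod p) = j := by
      rw [Int.cast_natCast, ZMod.natCast_zmod_val]
    obtain ⟨y', hy⟩ : (p : ℤ) ∣ M 0 1 - j.val * M 0 0 := by
      rw [← ZMod.intCast_zmod_eq_zero_iff_dvd]
      push_cast
      rw [ZMod.natCast_zmod_val, hj1, sub_self]
    obtain ⟨w', hw⟩ : (p : ℤ) ∣ M 1 1 - j.val * M 1 0 := by
      rw [← ZMod.intCast_zmod_eq_zero_iff_dvd]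
      push_cast
      rw [ZMod.natCast_zmod_val, hj2, sub_self]
    have hd : M 0 0 * w' - y' * M 1 0 = 1 := by
      have : (p : ℤ) * (M 0 0 * w' - y' * M 1 0) = p * 1 := by
        have e1 : M 0 0 * ((p : ℤ) * w') = M 0 0 * (M 1 1 - j.val * M 1 0) := by rw [hw]
        have e2 : ((p : ℤ) * y') * M 1 0 = (M 0 1 - j.val * M 0 0) * M 1 0 := by rw [hy]
        linear_combination e1 - e2 + hdet
      exact mul_left_cancel₀ p_ne_zero this
    refine ⟨some j, ⟨!![M 0 0, y'; M 1 0, w'], by rw [Matrix.det_fin_two_of]; exact hd⟩, ?_⟩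
    ext a b
    fin_cases a <;> fin_cases b <;>
      simp [beta, Matrix.mul_apply, Fin.sum_univ_two, -ZMod.natCast_val]
    · linear_combination hy
    · linear_combination hw


private theorem sl_det_entries (g : SL(2, ℤ)) :
    (g : Matrix (Fin 2) (Fin 2) ℤ) 0 0 * (g : Matrix (Fin 2) (Fin 2) ℤ) 1 1
      - (g : Matrix (Fin 2) (Fin 2) ℤ) 0 1 * (g : Matrix (Fin 2) (Fin 2) ℤ) 1 0 = 1 := by
  rw [← Matrix.det_fin_two]; exact g.2

private theorem not_dvd_both (g : SL(2, ℤ))
    (h0 : (p : ℤ) ∣ (g : Matrix (Fin 2) (Fin 2) ℤ) 0 0)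
    (h1 : (p : ℤ) ∣ (g : Matrix (Fin 2) (Fin 2) ℤ) 1 0) : False := by
  have hd := sl_det_entries g
  have : (p : ℤ) ∣ 1 := by
    rw [← hd]
    exact dvd_sub (Dvd.dvd.mul_right h0 _) (Dvd.dvd.mul_left h1 _)
  have h1' : (p : ℤ) = 1 ∨ (p : ℤ) = -1 := Int.isUnit_iff.mp (isUnit_of_dvd_one this)
  have hp2 : (2 : ℤ) ≤ p := by exact_mod_cast hp.out.two_le
  rcases h1' with h | h <;> omega

/-- Right cancellation of `β_k` (its determinant `p` is a non-zero-divisor). -/
theorem mul_beta_cancel {A B : Matrix (Fin 2) (Fin 2) ℤ} (k : Option (ZMod p))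
    (h : A * beta p k = B * beta p k) : A = B := by
  have h2 := congrArg (· * (beta p k).adjugate) h
  simp only [Matrix.mul_assoc, Matrix.mul_adjugate, det_beta] at h2
  ext a b
  have h3 := congrFun (congrFun h2 a) b
  simp only [Matrix.mul_smul, Matrix.mul_one, Matrix.smul_apply, smul_eq_mul] at h3
  exact mul_left_cancel₀ p_ne_zero h3

theorem decomp_unique {k k' : Option (ZMod p)} {g g' : SL(2, ℤ)}
    (h : (g : Matrix (Fin 2) (Fin 2) ℤ) * beta p k = (g' : Matrix (Fin 2) (Fin 2) ℤ) * beta p k') :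
    k = k' ∧ g = g' := by
  have hk : k = k' := by
    have e00 := congrFun (congrFun h 0) 0
    have e10 := congrFun (congrFun h 1) 0
    have e01 := congrFun (congrFun h 0) 1
    have e11 := congrFun (congrFun h 1) 1
    cases k with
    | none =>
      cases k' with
      | none => rfl
      | some j' =>
        exfalso
        simp [beta, Matrix.mul_apply, Fin.sum_univ_two, -ZMod.natCast_val] at e00 e10
        exact not_dvd_both g' ⟨_, by rw [← e00]; ring⟩ ⟨_, by rw [← e10]; ring⟩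
    | some j =>
      cases k' with
      | none =>
        exfalso
        simp [beta, Matrix.mul_apply, Fin.sum_univ_two, -ZMod.natCast_val] at e00 e10
        exact not_dvd_both g ⟨_, by rw [e00]; ring⟩ ⟨_, by rw [e10]; ring⟩
      | some j' =>
        simp [beta, Matrix.mul_apply, Fin.sum_univ_two, -ZMod.natCast_val] at e00 e10 e01 e11
        by_contra hne
        have hjj : j - j' ≠ 0 := fun h0 => hne (by rw [sub_eq_zero.mp h0])
        have c01 := congrArg (Int.cast : ℤ → ZMod p) e01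
        have c11 := congrArg (Int.cast : ℤ → ZMod p) e11
        push_cast at c01 c11
        simp only [ZMod.natCast_zmod_val, ZMod.natCast_self, mul_zero, add_zero] at c01 c11
        rw [← e00] at c01
        rw [← e10] at c11
        have z0 : (((g : Matrix (Fin 2) (Fin 2) ℤ) 0 0 : ℤ) : ZMod p) = 0 := by
          have : (((g : Matrix (Fin 2) (Fin 2) ℤ) 0 0 : ℤ) : ZMod p) * (j - j') = 0 := by
            rw [mul_sub, c01, sub_self]
          exact (mul_eq_zero.mp this).resolve_right hjj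
        have z1 : (((g : Matrix (Fin 2) (Fin 2) ℤ) 1 0 : ℤ) : ZMod p) = 0 := by
          have : (((g : Matrix (Fin 2) (Fin 2) ℤ) 1 0 : ℤ) : ZMod p) * (j - j') = 0 := by
            rw [mul_sub, c11, sub_self]
          exact (mul_eq_zero.mp this).resolve_right hjj
        exact not_dvd_both g ((ZMod.intCast_zmod_eq_zero_iff_dvd _ p).mp z0)
          ((ZMod.intCast_zmod_eq_zero_iff_dvd _ p).mp z1)
  subst hk
  exact ⟨rfl, Subtype.ext (mul_beta_cancel k h)⟩

/-! ### `perm` and `coc` -/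

omit hp in
theorem det_beta_mul (i : Option (ZMod p)) (γ : SL(2, ℤ)) :
    (beta p i * (γ : Matrix (Fin 2) (Fin 2) ℤ)).det = p := by
  rw [Matrix.det_mul, det_beta, γ.2, mul_one]

/-- The index `k` with `β_i γ ∈ SL(2,ℤ) β_k`. -/
noncomputable def perm (γ : SL(2, ℤ)) (i : Option (ZMod p)) : Option (ZMod p) :=
  (exists_decomp _ (det_beta_mul i γ)).choose

/-- The element `coc γ i ∈ SL(2,ℤ)` with `β_i γ = coc γ i * β_{perm γ i}`. -/
noncomputable def coc (γ : SL(2, ℤ)) (i : Option (ZMod p)) : SL(2, ℤ) :=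
  (exists_decomp _ (det_beta_mul i γ)).choose_spec.choose

/-- (DC2) the defining identity. -/
theorem beta_mul (γ : SL(2, ℤ)) (i : Option (ZMod p)) :
    beta p i * (γ : Matrix (Fin 2) (Fin 2) ℤ)
      = (coc γ i : Matrix (Fin 2) (Fin 2) ℤ) * beta p (perm γ i) :=
  (exists_decomp _ (det_beta_mul i γ)).choose_spec.choose_spec

/-- (DC2) uniqueness. -/
theorem eq_of_beta_mul {γ : SL(2, ℤ)} {i k : Option (ZMod p)} {g : SL(2, ℤ)}
    (h : beta p i * (γ : Matrix (Fin 2) (Fin 2) ℤ) = (g : Matrix (Fin 2) (Fin 2) ℤ) * beta p k) :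
    perm γ i = k ∧ coc γ i = g :=
  decomp_unique ((beta_mul γ i).symm.trans h)

@[simp] theorem perm_one (i : Option (ZMod p)) : perm (1 : SL(2, ℤ)) i = i :=
  (eq_of_beta_mul (g := 1) (by simp)).1

@[simp] theorem coc_one (i : Option (ZMod p)) : coc (1 : SL(2, ℤ)) i = 1 :=
  (eq_of_beta_mul (k := i) (by simp)).2

private theorem beta_mul_mul (γ δ : SL(2, ℤ)) (i : Option (ZMod p)) :
    beta p i * ((γ * δ : SL(2, ℤ)) : Matrix (Fin 2) (Fin 2) ℤ)
      = ((coc γ i * coc δ (perm γ i) : SL(2, ℤ)) : Matrix (Fin 2) (Fin 2) ℤ)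
        * beta p (perm δ (perm γ i)) := by
  rw [Matrix.SpecialLinearGroup.coe_mul, Matrix.SpecialLinearGroup.coe_mul, ← Matrix.mul_assoc,
    beta_mul, Matrix.mul_assoc, beta_mul, ← Matrix.mul_assoc]

/-- (DC3) -/
theorem perm_mul (γ δ : SL(2, ℤ)) (i : Option (ZMod p)) :
    perm (γ * δ) i = perm δ (perm γ i) :=
  (eq_of_beta_mul (beta_mul_mul γ δ i)).1

/-- (DC3) -/
theorem coc_mul (γ δ : SL(2, ℤ)) (i : Option (ZMod p)) :
    coc (γ * δ) i = coc γ i * coc δ (perm γ i) :=
  (eq_of_beta_mul (beta_mul_mul γ δ i)).2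

/-- `perm γ` as a permutation of `Option (ZMod p) = P¹(F_p)`. -/
noncomputable def permEquiv (γ : SL(2, ℤ)) : Equiv.Perm (Option (ZMod p)) where
  toFun := perm γ
  invFun := perm γ⁻¹
  left_inv i := by rw [← perm_mul, mul_inv_cancel, perm_one]
  right_inv i := by rw [← perm_mul, inv_mul_cancel, perm_one]

@[simp] theorem permEquiv_apply (γ : SL(2, ℤ)) (i : Option (ZMod p)) : permEquiv γ i = perm γ i := rfl

theorem perm_pow (γ : SL(2, ℤ)) (m : ℕ) (i : Option (ZMod p)) :
    perm (γ ^ m) i = (perm γ)^[m] i := by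
  induction m generalizing i with
  | zero => simp
  | succ m ih => rw [pow_succ', perm_mul, ih, Function.iterate_succ_apply]


/-! ### `Γ₀(N)` -/

theorem coc_mem_Gamma0 {N : ℕ} (hpN : ¬ p ∣ N) {γ : SL(2, ℤ)} (hγ : γ ∈ Gamma0 N)
    (i : Option (ZMod p)) : coc γ i ∈ Gamma0 N := by
  rw [Gamma0_mem] at hγ ⊢
  have e10 := congrFun (congrFun (beta_mul γ i) 1) 0
  simp only [Matrix.mul_apply, Fin.sum_univ_two, beta_one_zero, zero_mul, zero_add, mul_zero,
    add_zero] at e10
  -- `β_i 1 1 * γ 1 0 = coc 1 0 * β_k 0 0`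
  have hc := congrArg (Int.cast : ℤ → ZMod N) e10
  push_cast at hc
  rw [hγ, mul_zero] at hc
  have hcop : Nat.Coprime p N := (Nat.Prime.coprime_iff_not_dvd hp.out).mpr hpN
  have hunit : IsUnit (((beta p (perm γ i)) 0 0 : ℤ) : ZMod N) := by
    cases perm γ i with
    | none =>
      simp only [beta_none, Matrix.of_apply, Matrix.cons_val', Matrix.cons_val_zero,
        Matrix.cons_val_fin_one, Int.cast_natCast]
      exact (ZMod.unitOfCoprime p hcop).isUnit
    | some j => simp
  exact (hunit.mul_left_eq_zero).mp hc.symm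

/-- `coc` on `Γ₀(N)`. -/
noncomputable def cocG {N : ℕ} (hpN : ¬ p ∣ N) (γ : Gamma0 N) (i : Option (ZMod p)) : Gamma0 N :=
  ⟨coc (γ : SL(2, ℤ)) i, coc_mem_Gamma0 hpN γ.2 i⟩

/-- `perm` on `Γ₀(N)`. -/
noncomputable def permG {N : ℕ} (γ : Gamma0 N) : Equiv.Perm (Option (ZMod p)) :=
  permEquiv (γ : SL(2, ℤ))

section Gamma0

variable {N : ℕ} (hpN : ¬ p ∣ N)

@[simp] theorem coe_cocG (γ : Gamma0 N) (i : Option (ZMod p)) :
    ((cocG hpN γ i : Gamma0 N) : SL(2, ℤ)) = coc (γ : SL(2, ℤ)) i := rfl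

@[simp] theorem permG_apply (γ : Gamma0 N) (i : Option (ZMod p)) :
    permG γ i = perm (γ : SL(2, ℤ)) i := rfl

@[simp] theorem cocG_one (i : Option (ZMod p)) : cocG hpN (1 : Gamma0 N) i = 1 :=
  Subtype.ext (by simp)

theorem cocG_mul (γ δ : Gamma0 N) (i : Option (ZMod p)) :
    cocG hpN (γ * δ) i = cocG hpN γ i * cocG hpN δ (permG γ i) :=
  Subtype.ext (by simp [coc_mul])

theorem permG_mul (γ δ : Gamma0 N) (i : Option (ZMod p)) :
    permG (γ * δ) i = permG δ (permG γ i) := by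
  simp [perm_mul]

theorem permG_one (i : Option (ZMod p)) : permG (1 : Gamma0 N) i = i := by simp

theorem permG_pow (γ : Gamma0 N) (m : ℕ) (i : Option (ZMod p)) :
    permG (γ ^ m) i = ((permG γ) ^ m) i := by
  rw [permG_apply, Subgroup.coe_pow, perm_pow, ← Equiv.Perm.iterate_eq_pow]
  rfl

/-! ### The operators -/

/-- (DC4) the double-coset operator on additive homomorphisms `Γ₀(N) → A`. -/
noncomputable def tdcAdd {A : Type*} [AddCommGroup A] (φ : Additive (Gamma0 N) →+ A) :
    Additive (Gamma0 N) →+ A where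
  toFun γ := ∑ i : Option (ZMod p), φ (Additive.ofMul (cocG hpN (Additive.toMul γ) i))
  map_zero' := by simp
  map_add' γ δ := by
    have h1 : ∀ i : Option (ZMod p),
        φ (Additive.ofMul (cocG hpN (Additive.toMul (γ + δ)) i))
          = φ (Additive.ofMul (cocG hpN (Additive.toMul γ) i))
            + φ (Additive.ofMul (cocG hpN (Additive.toMul δ) (permG (Additive.toMul γ) i))) := by
      intro i
      rw [toMul_add, cocG_mul, ofMul_mul, map_add]
    simp only [h1, Finset.sum_add_distrib]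
    congr 1
    exact Equiv.sum_comp (permG (Additive.toMul γ))
      (fun i => φ (Additive.ofMul (cocG hpN (Additive.toMul δ) i)))

theorem tdcAdd_apply {A : Type*} [AddCommGroup A] (φ : Additive (Gamma0 N) →+ A) (γ : Gamma0 N) :
    tdcAdd hpN φ (Additive.ofMul γ) = ∑ i : Option (ZMod p), φ (Additive.ofMul (cocG hpN γ i)) := rfl

/-- (DC4) the double-coset operator on characters `Γ₀(N) →* M`. -/
noncomputable def tdcMul {M : Type*} [CommGroup M] (χ : Gamma0 N →* M) : Gamma0 N →* M where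
  toFun γ := ∏ i : Option (ZMod p), χ (cocG hpN γ i)
  map_one' := by simp
  map_mul' γ δ := by
    simp only [cocG_mul, map_mul, Finset.prod_mul_distrib]
    congr 1
    exact Equiv.prod_comp (permG γ) (fun i => χ (cocG hpN δ i))

theorem tdcMul_apply {M : Type*} [CommGroup M] (χ : Gamma0 N →* M) (γ : Gamma0 N) :
    tdcMul hpN χ γ = ∏ i : Option (ZMod p), χ (cocG hpN γ i) := rfl

theorem tdcAdd_add {A : Type*} [AddCommGroup A] (φ ψ : Additive (Gamma0 N) →+ A) :
    tdcAdd hpN (φ + ψ) = tdcAdd hpN φ + tdcAdd hpN ψ := by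
  ext γ
  simp [tdcAdd, Finset.sum_add_distrib]

theorem tdcAdd_comp {A B : Type*} [AddCommGroup A] [AddCommGroup B] (f : A →+ B)
    (φ : Additive (Gamma0 N) →+ A) : tdcAdd hpN (f.comp φ) = f.comp (tdcAdd hpN φ) := by
  ext γ
  simp [tdcAdd]

theorem tdcMul_comp {M M' : Type*} [CommGroup M] [CommGroup M'] (f : M →* M')
    (χ : Gamma0 N →* M) : tdcMul hpN (f.comp χ) = f.comp (tdcMul hpN χ) := by
  ext γ
  simp [tdcMul]

end Gamma0


/-! ### The action on the upper half plane -/

/-- The representatives as elements of `GL(2, ℝ)` (the prelude's Hecke matrices). -/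
noncomputable def glBeta (p : ℕ) : Option (ZMod p) → GL (Fin 2) ℝ
  | some j => ModularForm.heckeMatrix p j.val
  | none => ModularForm.heckeDiagMatrix p

omit hp in
@[simp] theorem glBeta_some (j : ZMod p) : glBeta p (some j) = ModularForm.heckeMatrix p j.val := rfl

omit hp in
@[simp] theorem glBeta_none : glBeta p none = ModularForm.heckeDiagMatrix p := rfl

theorem coe_glBeta (i : Option (ZMod p)) :
    ((glBeta p i : GL (Fin 2) ℝ) : Matrix (Fin 2) (Fin 2) ℝ)
      = (beta p i).map (Int.cast : ℤ → ℝ) := by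
  have hp0 : p ≠ 0 := hp.out.ne_zero
  cases i with
  | none =>
    rw [glBeta_none, ModularForm.val_heckeDiagMatrix hp0]
    ext a b
    fin_cases a <;> fin_cases b <;> simp [beta]
  | some j =>
    rw [glBeta_some, ModularForm.val_heckeMatrix hp0]
    ext a b
    fin_cases a <;> fin_cases b <;> simp [beta, -ZMod.natCast_val]

/-- (DC2) in `GL(2, ℝ)`. -/
theorem glBeta_mul (γ : SL(2, ℤ)) (i : Option (ZMod p)) :
    glBeta p i * Matrix.SpecialLinearGroup.mapGL ℝ γ
      = Matrix.SpecialLinearGroup.mapGL ℝ (coc γ i) * glBeta p (perm γ i) := by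
  apply Matrix.GeneralLinearGroup.ext
  intro a b
  have h := congrArg (fun M : Matrix (Fin 2) (Fin 2) ℤ => M.map (Int.cast : ℤ → ℝ)) (beta_mul γ i)
  simp only [Matrix.map_mul_intCast] at h
  simp only [Matrix.GeneralLinearGroup.coe_mul, coe_glBeta,
    Matrix.SpecialLinearGroup.mapGL_coe_matrix]
  exact congrFun (congrFun h a) b

/-- (DC2) on `ℍ`: `β_i • (γ • z) = coc γ i • (β_{perm γ i} • z)`. -/
theorem glBeta_smul_smul (γ : SL(2, ℤ)) (i : Option (ZMod p)) (z : UpperHalfPlane) :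
    glBeta p i • (γ • z) = coc γ i • (glBeta p (perm γ i) • z) := by
  show glBeta p i • (Matrix.SpecialLinearGroup.mapGL ℝ γ • z)
    = Matrix.SpecialLinearGroup.mapGL ℝ (coc γ i) • (glBeta p (perm γ i) • z)
  rw [← mul_smul, ← mul_smul, glBeta_mul]


/-! ### (DC5) cycles -/

/-- If the sums of `x` along all closed `σ`-paths vanish, then the sum of `x` over any `σ`-stable finite
set vanishes. -/
theorem sum_eq_zero_of_cycle_sums {I A : Type*} [DecidableEq I] [Finite I] [AddCommMonoid A]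
    (σ : Equiv.Perm I) (x : I → A)
    (h : ∀ (i : I) (m : ℕ), 0 < m → (σ ^ m) i = i → ∑ s ∈ Finset.range m, x ((σ ^ s) i) = 0)
    (S : Finset I) (hS : ∀ i ∈ S, σ i ∈ S) : ∑ i ∈ S, x i = 0 := by
  classical
  induction S using Finset.strongInduction with
  | H S ih =>
    rcases S.eq_empty_or_nonempty with rfl | ⟨i₀, hi₀⟩
    · simp
    · -- a positive period of `i₀`
      have hex : ∃ m : ℕ, 0 < m ∧ (σ ^ m) i₀ = i₀ := by
        have : Fintype I := Fintype.ofFinite I
        exact ⟨orderOf σ, orderOf_pos σ, by rw [pow_orderOf_eq_one]; rfl⟩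
      let m := Nat.find hex
      have hm0 : 0 < m := (Nat.find_spec hex).1
      have hm : (σ ^ m) i₀ = i₀ := (Nat.find_spec hex).2
      have hmin : ∀ k, 0 < k → k < m → (σ ^ k) i₀ ≠ i₀ := fun k hk0 hkm hk =>
        Nat.find_min hex hkm ⟨hk0, hk⟩
      -- the orbit
      let O : Finset I := (Finset.range m).image fun s => (σ ^ s) i₀
      have hinj : Set.InjOn (fun s => (σ ^ s) i₀) (Finset.range m : Set ℕ) := by
        intro s hs t ht hst
        simp only [Finset.coe_range, Set.mem_Iio] at hs ht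
        by_contra hne
        rcases Nat.lt_or_gt_of_ne hne with hlt | hlt
        · have : (σ ^ (t - s)) i₀ = i₀ := by
            have : (σ ^ s) ((σ ^ (t - s)) i₀) = (σ ^ s) i₀ := by
              rw [← Equiv.Perm.mul_apply, ← pow_add, Nat.add_sub_cancel' hlt.le]; exact hst.symm
            exact (σ ^ s).injective this
          exact hmin (t - s) (Nat.sub_pos_of_lt hlt) (by omega) this
        · have : (σ ^ (s - t)) i₀ = i₀ := by
            have : (σ ^ t) ((σ ^ (s - t)) i₀) = (σ ^ t) i₀ := by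
              rw [← Equiv.Perm.mul_apply, ← pow_add, Nat.add_sub_cancel' hlt.le]; exact hst
            exact (σ ^ t).injective this
          exact hmin (s - t) (Nat.sub_pos_of_lt hlt) (by omega) this
      have hOsum : ∑ i ∈ O, x i = 0 := by
        rw [Finset.sum_image hinj]
        exact h i₀ m hm0 hm
      have hpowS : ∀ s : ℕ, (σ ^ s) i₀ ∈ S := by
        intro s
        induction s with
        | zero => simpa using hi₀
        | succ s ihs => rw [pow_succ', Equiv.Perm.mul_apply]; exact hS _ ihs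
      have hOS : O ⊆ S := by
        intro i hi
        obtain ⟨s, -, rfl⟩ := Finset.mem_image.mp hi
        exact hpowS s
      have hi₀O : i₀ ∈ O := Finset.mem_image.mpr ⟨0, Finset.mem_range.mpr hm0, by simp⟩
      -- `S \ O` is stable
      have hT : ∀ i ∈ S \ O, σ i ∈ S \ O := by
        intro i hi
        rw [Finset.mem_sdiff] at hi ⊢
        refine ⟨hS i hi.1, fun hσ => hi.2 ?_⟩
        obtain ⟨s, hs, hsi⟩ := Finset.mem_image.mp hσ
        rw [Finset.mem_range] at hs
        rcases Nat.eq_zero_or_pos s with rfl | hs0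
        · -- `σ i = i₀ = σ^m i₀`
          have : σ i = σ ((σ ^ (m - 1)) i₀) := by
            rw [← hsi, ← Equiv.Perm.mul_apply, ← pow_succ', Nat.sub_add_cancel hm0, hm]; simp
          rw [σ.injective this]
          exact Finset.mem_image.mpr ⟨m - 1, Finset.mem_range.mpr (by omega), rfl⟩
        · have : σ i = σ ((σ ^ (s - 1)) i₀) := by
            rw [← hsi, ← Equiv.Perm.mul_apply, ← pow_succ', Nat.sub_add_cancel hs0]
          rw [σ.injective this]
          exact Finset.mem_image.mpr ⟨s - 1, Finset.mem_range.mpr (by omega), rfl⟩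
      have hTS : S \ O ⊂ S := by
        refine Finset.ssubset_iff_subset_ne.mpr ⟨Finset.sdiff_subset, fun heq => ?_⟩
        have : i₀ ∈ S \ O := by rw [heq]; exact hi₀
        exact (Finset.mem_sdiff.mp this).2 hi₀O
      rw [← Finset.sum_sdiff hOS, ih _ hTS hT, hOsum, add_zero]

section Gamma0

variable {N : ℕ} (hpN : ¬ p ∣ N)

/-- The cocycle of a power is the sum along the path. -/
theorem map_cocG_pow {A : Type*} [AddCommGroup A] (φ : Additive (Gamma0 N) →+ A) (γ : Gamma0 N)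
    (m : ℕ) (i : Option (ZMod p)) :
    φ (Additive.ofMul (cocG hpN (γ ^ m) i))
      = ∑ s ∈ Finset.range m, φ (Additive.ofMul (cocG hpN γ (((permG γ) ^ s) i))) := by
  induction m with
  | zero => simp
  | succ m ih =>
    rw [pow_succ, cocG_mul, ofMul_mul, map_add, ih, Finset.sum_range_succ, permG_pow]

/-- (DC5), general form: `tdcAdd φ γ = 0` as soon as `φ` kills all `coc (γ^m) i` with `i` fixed by
`perm (γ^m)` (these are the `β_i γ^m β_i⁻¹`). -/
theorem tdcAdd_apply_eq_zero {A : Type*} [AddCommGroup A] (φ : Additive (Gamma0 N) →+ A)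
    (γ : Gamma0 N)
    (h : ∀ (m : ℕ) (i : Option (ZMod p)), 0 < m → permG (γ ^ m) i = i →
      φ (Additive.ofMul (cocG hpN (γ ^ m) i)) = 0) :
    tdcAdd hpN φ (Additive.ofMul γ) = 0 := by
  classical
  rw [tdcAdd_apply]
  refine sum_eq_zero_of_cycle_sums (permG γ)
    (fun i => φ (Additive.ofMul (cocG hpN γ i))) ?_ Finset.univ (fun i _ => Finset.mem_univ _)
  intro i m hm hfix
  rw [← map_cocG_pow]
  exact h m i hm (by rw [permG_pow]; exact hfix)

end Gamma0


/-! ### Consumer forms -/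

open scoped ModularForm in
/-- The prelude's `heckeT` as a sum over the representatives. -/
theorem heckeT_eq_sum (k : ℤ) (g : UpperHalfPlane → ℂ) :
    ModularForm.heckeT k p g = ∑ i : Option (ZMod p), g ∣[k] glBeta p i := by
  rw [Fintype.sum_option, ModularForm.heckeT_def, add_comm]
  congr 1
  have hp0 : p ≠ 0 := hp.out.ne_zero
  obtain ⟨n, rfl⟩ := Nat.exists_eq_succ_of_ne_zero hp0
  rw [Finset.sum_range]
  rfl

/-- (DC2) on `ℍ` for `γ ∈ Γ₀(N)`. -/
theorem glBeta_smul_smul_G {N : ℕ} (hpN : ¬ p ∣ N) (γ : Gamma0 N) (i : Option (ZMod p))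
    (z : UpperHalfPlane) :
    glBeta p i • ((γ : SL(2, ℤ)) • z)
      = ((cocG hpN γ i : Gamma0 N) : SL(2, ℤ)) • (glBeta p (permG γ i) • z) :=
  glBeta_smul_smul (γ : SL(2, ℤ)) i z

/-- `tdcMul` is `tdcAdd` read multiplicatively. -/
theorem tdcMul_eq_toMul_tdcAdd {N : ℕ} (hpN : ¬ p ∣ N) {M : Type*} [CommGroup M]
    (χ : Gamma0 N →* M) (γ : Gamma0 N) :
    tdcMul hpN χ γ = Additive.toMul (tdcAdd hpN (MonoidHom.toAdditive χ) (Additive.ofMul γ)) := by
  rw [tdcAdd_apply, toMul_sum, tdcMul_apply]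
  rfl

end Fermat.Agent.ES.HEQ.DoubleCoset27
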