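/-
Program J (S30), chapter J3 (HEQ), shared leaf, part 2 (helper27): the double-coset operator
`tdcAdd` of `DoubleCoset27` preserves parabolic homomorphisms (and homomorphisms killing the elements
of finite order), and commutes with the prelude's `charInvolution` (conjugation by `diag(1,-1)`).
Mathlib + prelude only.
-/
import Mathlib
import Fermat.Agent.ES.HEQ.DoubleCoset27

set_option autoImplicit false

open Matrix CongruenceSubgroup ModularCurve.Period
open scoped MatrixGroups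

namespace Fermat.Agent.ES.HEQ.DoubleCosetPar27

open Fermat.Agent.ES.HEQ.DoubleCoset27

/-! ### Traces -/

/-- Cayley–Hamilton for `2 × 2` matrices of determinant one. -/
theorem mul_self_eq (g : Matrix (Fin 2) (Fin 2) ℤ) (hd : g.det = 1) :
    g * g = g.trace • g - 1 := by
  rw [Matrix.det_fin_two] at hd
  ext i j
  rw [Matrix.sub_apply, Matrix.smul_apply, smul_eq_mul, Matrix.mul_apply, Fin.sum_univ_two,
    Matrix.trace_fin_two]
  fin_cases i <;> fin_cases j
  · simp only [Fin.zero_eta, Fin.isValue, Matrix.one_apply_eq]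
    linear_combination (-1 : ℤ) * hd
  · simp only [Fin.zero_eta, Fin.isValue, Fin.mk_one, ne_eq, zero_ne_one, not_false_eq_true,
      Matrix.one_apply_ne]
    ring
  · simp only [Fin.mk_one, Fin.isValue, Fin.zero_eta, ne_eq, one_ne_zero, not_false_eq_true,
      Matrix.one_apply_ne]
    ring
  · simp only [Fin.mk_one, Fin.isValue, Matrix.one_apply_eq]
    linear_combination (-1 : ℤ) * hd

/-- If `tr g = 2` and `det g = 1` then `g^(m+1) = (m+1) g - m`. -/
theorem pow_succ_eq_of_trace_two (g : Matrix (Fin 2) (Fin 2) ℤ) (hd : g.det = 1)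
    (ht : g.trace = 2) (m : ℕ) : g ^ (m + 1) = ((m : ℤ) + 1) • g - (m : ℤ) • 1 := by
  have hsq : g * g = (2 : ℤ) • g - 1 := by rw [mul_self_eq g hd, ht]
  induction m with
  | zero => simp
  | succ m ih =>
    rw [pow_succ, ih, Matrix.sub_mul, Matrix.smul_mul, hsq, Matrix.smul_mul, Matrix.one_mul]
    push_cast
    module

theorem trace_pow_of_trace_two (g : Matrix (Fin 2) (Fin 2) ℤ) (hd : g.det = 1)
    (ht : g.trace = 2) (m : ℕ) : (g ^ m).trace = 2 := by
  rcases m with _ | m
  · simp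
  · rw [pow_succ_eq_of_trace_two g hd ht, Matrix.trace_sub, Matrix.trace_smul, Matrix.trace_smul, ht,
      Matrix.trace_one]
    simp
    ring

/-- `tr² = 4` is stable under powers in `SL(2, ℤ)`. -/
theorem trace_pow_sq_eq_four (g : SL(2, ℤ))
    (h : (g : Matrix (Fin 2) (Fin 2) ℤ).trace ^ 2 = 4) (m : ℕ) :
    ((g ^ m : SL(2, ℤ)) : Matrix (Fin 2) (Fin 2) ℤ).trace ^ 2 = 4 := by
  rw [Matrix.SpecialLinearGroup.coe_pow]
  have h2 : (g : Matrix (Fin 2) (Fin 2) ℤ).trace = 2 ∨ (g : Matrix (Fin 2) (Fin 2) ℤ).trace = -2 := by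
    have : ((g : Matrix (Fin 2) (Fin 2) ℤ).trace - 2) * ((g : Matrix (Fin 2) (Fin 2) ℤ).trace + 2) = 0 := by
      linear_combination h
    rcases mul_eq_zero.mp this with h1 | h1
    · left; linarith
    · right; linarith
  rcases h2 with h2 | h2
  · rw [trace_pow_of_trace_two _ g.2 h2]; norm_num
  · have hneg : (-(g : Matrix (Fin 2) (Fin 2) ℤ)).trace = 2 := by rw [Matrix.trace_neg, h2]; norm_num
    have hdet : (-(g : Matrix (Fin 2) (Fin 2) ℤ)).det = 1 := by
      rw [Matrix.det_neg, g.2]; simp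
    have h3 := trace_pow_of_trace_two _ hdet hneg m
    have hnegs : -(g : Matrix (Fin 2) (Fin 2) ℤ) = (-1 : ℤ) • (g : Matrix (Fin 2) (Fin 2) ℤ) := by
      simp
    rw [hnegs, smul_pow, Matrix.trace_smul] at h3
    have h4 : ((-1 : ℤ) ^ m) ^ 2 = 1 := by rw [← pow_mul, mul_comm, pow_mul]; simp
    have : ((g : Matrix (Fin 2) (Fin 2) ℤ) ^ m).trace ^ 2
        = ((-1 : ℤ) ^ m • ((g : Matrix (Fin 2) (Fin 2) ℤ) ^ m).trace) ^ 2 := by
      rw [smul_eq_mul, mul_pow, h4, one_mul]
    rw [this, h3]; norm_num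

variable {p : ℕ} [hp : Fact p.Prime]

/-- A fixed index: `coc δ i = β_i δ β_i⁻¹` has the same trace as `δ`. -/
theorem trace_coc_of_fixed {δ : SL(2, ℤ)} {i : Option (ZMod p)} (h : perm δ i = i) :
    ((coc δ i : SL(2, ℤ)) : Matrix (Fin 2) (Fin 2) ℤ).trace
      = (δ : Matrix (Fin 2) (Fin 2) ℤ).trace := by
  have hb := beta_mul δ i
  rw [h] at hb
  -- multiply by the adjugate on the right
  have h2 := congrArg (fun M => (M * (beta p i).adjugate).trace) hb
  simp only [Matrix.mul_assoc, Matrix.mul_adjugate, det_beta] at h2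
  rw [Matrix.trace_mul_comm, Matrix.mul_assoc, Matrix.adjugate_mul, det_beta] at h2
  simp only [Matrix.mul_smul, Matrix.mul_one, Matrix.trace_smul, smul_eq_mul] at h2
  have hp0 : (p : ℤ) ≠ 0 := by exact_mod_cast hp.out.ne_zero
  exact (mul_left_cancel₀ hp0 h2).symm

/-- A fixed index: `coc δ i` has finite order if `δ` has. -/
theorem coc_pow_eq_one_of_fixed {δ : SL(2, ℤ)} {i : Option (ZMod p)} (h : perm δ i = i) {r : ℕ}
    (hr : δ ^ r = 1) : coc δ i ^ r = 1 := by
  have hfix : ∀ r : ℕ, perm (δ ^ r) i = i := by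
    intro r
    rw [perm_pow]
    exact Function.iterate_fixed h r
  have hpow : ∀ r : ℕ, coc (δ ^ r) i = coc δ i ^ r := by
    intro r
    induction r with
    | zero => simp
    | succ r ih => rw [pow_succ, coc_mul, ih, hfix r, pow_succ]
  rw [← hpow, hr, coc_one]

section Gamma0

variable {N : ℕ} (hpN : ¬ p ∣ N)

/-- (DC5) `tdcAdd` preserves parabolic homomorphisms. -/
theorem isParabolicHom_tdcAdd {A : Type*} [AddCommGroup A] {φ : Additive (Gamma0 N) →+ A}
    (hφ : IsParabolicHom (Gamma0 N) φ) : IsParabolicHom (Gamma0 N) (tdcAdd hpN φ) := by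
  intro γ hγ
  refine tdcAdd_apply_eq_zero hpN φ γ ?_
  intro m i _ hfix
  refine hφ _ ?_
  rw [coe_cocG, trace_coc_of_fixed (by simpa using hfix), Subgroup.coe_pow]
  exact trace_pow_sq_eq_four _ hγ m

/-- (DC5) `tdcAdd` preserves the homomorphisms killing all elements of finite order. -/
theorem tdcAdd_apply_eq_zero_of_pow_eq_one {A : Type*} [AddCommGroup A]
    {φ : Additive (Gamma0 N) →+ A}
    (hφ : ∀ (δ : Gamma0 N) (r : ℕ), 0 < r → δ ^ r = 1 → φ (Additive.ofMul δ) = 0)
    (γ : Gamma0 N) {r : ℕ} (hr0 : 0 < r) (hr : γ ^ r = 1) :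
    tdcAdd hpN φ (Additive.ofMul γ) = 0 := by
  refine tdcAdd_apply_eq_zero hpN φ γ ?_
  intro m i _ hfix
  refine hφ _ r hr0 ?_
  apply Subtype.ext
  rw [Subgroup.coe_pow, coe_cocG, Subgroup.coe_one]
  refine coc_pow_eq_one_of_fixed (by simpa using hfix) ?_
  rw [← Subgroup.coe_pow, ← pow_mul, mul_comm, pow_mul, hr, one_pow, Subgroup.coe_one]

/-- The double-coset operator on `parabolicHoms R Γ₀(N) A`. -/
noncomputable def tdcPar (R : Type*) [Semiring R] (A : Type*) [AddCommGroup A] [Module R A] :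
    parabolicHoms R (Gamma0 N) A →ₗ[R] parabolicHoms R (Gamma0 N) A where
  toFun φ := ⟨tdcAdd hpN φ.1, isParabolicHom_tdcAdd hpN φ.2⟩
  map_add' φ ψ := Subtype.ext (tdcAdd_add hpN φ.1 ψ.1)
  map_smul' c φ := Subtype.ext <| by
    ext γ
    show tdcAdd hpN (c • φ.1) γ = c • tdcAdd hpN φ.1 γ
    simp [tdcAdd, Finset.smul_sum]

@[simp] theorem coe_tdcPar (R : Type*) [Semiring R] (A : Type*) [AddCommGroup A] [Module R A]
    (φ : parabolicHoms R (Gamma0 N) A) :
    ((tdcPar hpN R A φ : parabolicHoms R (Gamma0 N) A) : Additive (Gamma0 N) →+ A)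
      = tdcAdd hpN φ.1 := rfl

end Gamma0


/-! ### (DC6) compatibility with `charInvolution` (conjugation by `diag(1,-1)`) -/

section JConj

omit hp in
theorem det_jConjMat_beta (i : Option (ZMod p)) : (jConjMat (beta p i)).det = p := by
  rw [jConjMat_det, det_beta]

/-- `jConj β_i = nuU i * β_{nu i}`. -/
noncomputable def nu (i : Option (ZMod p)) : Option (ZMod p) :=
  (exists_decomp _ (det_jConjMat_beta i)).choose

noncomputable def nuU (i : Option (ZMod p)) : SL(2, ℤ) :=
  (exists_decomp _ (det_jConjMat_beta i)).choose_spec.choose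

theorem jConjMat_beta (i : Option (ZMod p)) :
    jConjMat (beta p i) = (nuU i : Matrix (Fin 2) (Fin 2) ℤ) * beta p (nu i) :=
  (exists_decomp _ (det_jConjMat_beta i)).choose_spec.choose_spec

theorem nu_nu (i : Option (ZMod p)) : nu (nu i) = i := by
  have h := congrArg jConjMat (jConjMat_beta i)
  rw [jConjMat_jConjMat, jConjMat_mul, jConjMat_beta (nu i), ← Matrix.mul_assoc] at h
  have h' : ((1 : SL(2, ℤ)) : Matrix (Fin 2) (Fin 2) ℤ) * beta p i
      = ((jConjSL (nuU i) * nuU (nu i) : SL(2, ℤ)) : Matrix (Fin 2) (Fin 2) ℤ) * beta p (nu (nu i)) := by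
    rw [Matrix.SpecialLinearGroup.coe_one, Matrix.one_mul, Matrix.SpecialLinearGroup.coe_mul,
      jConjSL_coe]
    exact h
  exact (decomp_unique h').1.symm

/-- `nu` as a permutation. -/
noncomputable def nuEquiv : Equiv.Perm (Option (ZMod p)) where
  toFun := nu
  invFun := nu
  left_inv := nu_nu
  right_inv := nu_nu

theorem nuU_mem_Gamma0 (N : ℕ) (i : Option (ZMod p)) : nuU i ∈ Gamma0 N := by
  rw [Gamma0_mem]
  have e10 := congrFun (congrFun (jConjMat_beta i) 1) 0
  rw [jConjMat_apply_one_zero, beta_one_zero, neg_zero] at e10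
  simp only [Matrix.mul_apply, Fin.sum_univ_two, beta_one_zero, mul_zero, add_zero] at e10
  have hne : beta p (nu i) 0 0 ≠ 0 := by
    cases nu i <;> simp [beta, hp.out.ne_zero]
  have : (nuU i : Matrix (Fin 2) (Fin 2) ℤ) 1 0 = 0 :=
    (mul_eq_zero.mp e10.symm).resolve_right hne
  rw [this, Int.cast_zero]

/-- the transport of `perm`/`coc` along `jConj`. -/
theorem perm_coc_jConj (γ : SL(2, ℤ)) (i : Option (ZMod p)) :
    perm (jConjSL γ) (nu i) = nu (perm γ i) ∧
      coc (jConjSL γ) (nu i) = (nuU i)⁻¹ * jConjSL (coc γ i) * nuU (perm γ i) := by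
  apply eq_of_beta_mul
  have h := congrArg jConjMat (beta_mul γ i)
  rw [jConjMat_mul, jConjMat_mul, jConjMat_beta i, jConjMat_beta (perm γ i)] at h
  -- `u_i β_{νi} γ' = c' u_k β_{νk}`
  have h2 : (nuU i : Matrix (Fin 2) (Fin 2) ℤ) * (beta p (nu i) * jConjMat (γ : Matrix (Fin 2) (Fin 2) ℤ))
      = (nuU i : Matrix (Fin 2) (Fin 2) ℤ) *
        ((((nuU i)⁻¹ * jConjSL (coc γ i) * nuU (perm γ i) : SL(2, ℤ)) : Matrix (Fin 2) (Fin 2) ℤ)
          * beta p (nu (perm γ i))) := by
    have hX : nuU i * ((nuU i)⁻¹ * jConjSL (coc γ i) * nuU (perm γ i))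
        = jConjSL (coc γ i) * nuU (perm γ i) := by group
    rw [← Matrix.mul_assoc, h, ← Matrix.mul_assoc (nuU i : Matrix (Fin 2) (Fin 2) ℤ),
      ← Matrix.SpecialLinearGroup.coe_mul, hX, Matrix.SpecialLinearGroup.coe_mul, jConjSL_coe,
      Matrix.mul_assoc]
  have hu : IsUnit (nuU i : Matrix (Fin 2) (Fin 2) ℤ) := by
    rw [Matrix.isUnit_iff_isUnit_det, (nuU i).2]; exact isUnit_one
  rw [jConjSL_coe]
  exact hu.mul_left_cancel h2

variable {N : ℕ} (hpN : ¬ p ∣ N)

/-- (DC6), pointwise form. -/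
theorem tdcAdd_charInvolution_apply (R : Type*) [Semiring R] {A : Type*} [AddCommGroup A]
    [Module R A] (ψ : Additive (Gamma0 N) →+ A) (γ : Gamma0 N) :
    tdcAdd hpN (charInvolution N R A ψ) (Additive.ofMul γ)
      = charInvolution N R A (tdcAdd hpN ψ) (Additive.ofMul γ) := by
  rw [charInvolution_apply, toMul_ofMul, tdcAdd_apply, tdcAdd_apply]
  -- reindex the right-hand side by `nu`
  rw [← Equiv.sum_comp (nuEquiv (p := p))
    (fun i => ψ (Additive.ofMul (cocG hpN (jConjGamma0 N γ) i)))]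
  -- the elements `u_i ∈ Γ₀(N)`
  let u : Option (ZMod p) → Gamma0 N := fun i => ⟨nuU i, nuU_mem_Gamma0 N i⟩
  have hterm : ∀ i : Option (ZMod p),
      ψ (Additive.ofMul (cocG hpN (jConjGamma0 N γ) (nuEquiv i)))
        = ψ (Additive.ofMul (jConjGamma0 N (cocG hpN γ i)))
          + (ψ (Additive.ofMul (u (permG γ i))) - ψ (Additive.ofMul (u i))) := by
    intro i
    have hc : cocG hpN (jConjGamma0 N γ) (nuEquiv i)
        = (u i)⁻¹ * jConjGamma0 N (cocG hpN γ i) * u (permG γ i) := by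
      apply Subtype.ext
      rw [coe_cocG, jConjGamma0_coe]
      exact (perm_coc_jConj (γ : SL(2, ℤ)) i).2
    rw [hc, ofMul_mul, ofMul_mul, ofMul_inv, map_add, map_add, map_neg]
    abel
  simp only [hterm, charInvolution_apply, toMul_ofMul, Finset.sum_add_distrib,
    Finset.sum_sub_distrib]
  rw [Equiv.sum_comp (permG γ) (fun i => ψ (Additive.ofMul (u i))), sub_self, add_zero]

/-- (DC6) `tdcAdd` commutes with the prelude's `charInvolution`. -/
theorem tdcAdd_charInvolution (R : Type*) [Semiring R] {A : Type*} [AddCommGroup A] [Module R A]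
    (ψ : Additive (Gamma0 N) →+ A) :
    tdcAdd hpN (charInvolution N R A ψ) = charInvolution N R A (tdcAdd hpN ψ) :=
  AddMonoidHom.ext fun γ' => tdcAdd_charInvolution_apply hpN R ψ (Additive.toMul γ')

end JConj

end Fermat.Agent.ES.HEQ.DoubleCosetPar27
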