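/-
Program J (S30), chapter J3b (helper26): **transport of a Hecke algebra to a lattice** (abstract
half of FAITH).

`V`, `P` complex vector spaces, `Φ : V × V ≃ₗ[ℂ] P` (the period isomorphism), `c : Λ →ₗ[ℤ] P` an
injective map from a `ℤ`-module whose image spans `P` over `ℂ` (the lattice of integral parabolic
homs).  If every generator `T ∈ G ⊆ End_ℂ V` preserves `c(Λ)` (`Φ (T f, T g) ∈ c(Λ)` whenever
`Φ (f, g) ∈ c(Λ)`), then the whole `ℤ`-algebra generated by `G` acts faithfully on `Λ`:

* `latticeHom … : ↥(Algebra.adjoin ℤ G) →ₐ[ℤ] Module.End ℤ Λ`, with `latticeHom_injective`,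
  `latticeHom_eq_of` (`θ x = D` when `D` describes `x` on the lattice) and `c_latticeHom`.
-/
import Mathlib

set_option autoImplicit false

noncomputable section

namespace Fermat.Agent.ES.HEQ.Faith26

variable {V P Λ : Type*} [AddCommGroup V] [Module ℂ V] [AddCommGroup P] [Module ℂ P]
  [AddCommGroup Λ]

section Conj

variable (Φ : (V × V) ≃ₗ[ℂ] P)

/-- the diagonal action `x ↦ Φ ∘ (x × x) ∘ Φ⁻¹` on `P`. -/
def conjHom : Module.End ℂ V →ₐ[ℤ] Module.End ℂ P :=
  RingHom.toIntAlgHom
    { toFun := fun x => Φ.conj (x.prodMap x)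
      map_one' := by
        show Φ.conj ((LinearMap.id : V →ₗ[ℂ] V).prodMap LinearMap.id) = 1
        rw [LinearMap.prodMap_id]
        exact LinearEquiv.conj_id Φ
      map_mul' := fun x y => by
        show Φ.conj ((x ∘ₗ y).prodMap (x ∘ₗ y)) = Φ.conj (x.prodMap x) * Φ.conj (y.prodMap y)
        rw [← LinearMap.prodMap_comp]
        exact LinearEquiv.conj_comp Φ _ _
      map_zero' := by
        show Φ.conj ((0 : V →ₗ[ℂ] V).prodMap 0) = 0
        rw [LinearMap.prodMap_zero, map_zero]
      map_add' := fun x y => by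
        show Φ.conj ((x + y).prodMap (x + y)) = Φ.conj (x.prodMap x) + Φ.conj (y.prodMap y)
        rw [LinearMap.prodMap_add, map_add] }

theorem conjHom_apply (x : Module.End ℂ V) (w : P) :
    conjHom Φ x w = Φ ((x (Φ.symm w).1, x (Φ.symm w).2)) := rfl

theorem conjHom_apply_apply (x : Module.End ℂ V) (f g : V) :
    conjHom Φ x (Φ (f, g)) = Φ (x f, x g) := by
  rw [conjHom_apply, LinearEquiv.symm_apply_apply]

theorem conjHom_injective : Function.Injective (conjHom Φ) := by
  intro x y h
  ext v
  have h1 := congrArg (fun z : Module.End ℂ P => z (Φ (v, 0))) h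
  simp only [conjHom_apply_apply] at h1
  have h2 := congrArg Prod.fst (Φ.injective h1)
  exact h2

end Conj

section Stab

variable (c : Λ →ₗ[ℤ] P)

/-- the endomorphisms of `P` preserving the lattice `c(Λ)`. -/
def stab : Subalgebra ℤ (Module.End ℂ P) where
  carrier := {y | ∀ l : Λ, ∃ m : Λ, c m = y (c l)}
  mul_mem' := by
    intro a b ha hb l
    obtain ⟨m, hm⟩ := hb l
    obtain ⟨m', hm'⟩ := ha m
    exact ⟨m', by rw [hm', hm]; rfl⟩
  one_mem' := fun l => ⟨l, rfl⟩
  add_mem' := by
    intro a b ha hb l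
    obtain ⟨m, hm⟩ := ha l
    obtain ⟨m', hm'⟩ := hb l
    exact ⟨m + m', by rw [map_add, hm, hm']; rfl⟩
  zero_mem' := fun l => ⟨0, by rw [map_zero]; rfl⟩
  algebraMap_mem' := by
    intro n l
    refine ⟨n • l, ?_⟩
    rw [map_zsmul, Algebra.algebraMap_eq_smul_one]
    rfl

theorem mem_stab_iff (y : Module.End ℂ P) : y ∈ stab c ↔ ∀ l : Λ, ∃ m : Λ, c m = y (c l) :=
  Iff.rfl

variable {c} (hc : Function.Injective c)

/-- the action of a lattice-preserving endomorphism on the lattice. -/
def resFun (y : ↥(stab c)) (l : Λ) : Λ := (y.2 l).choose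

theorem c_resFun (y : ↥(stab c)) (l : Λ) : c (resFun y l) = (y : Module.End ℂ P) (c l) :=
  (y.2 l).choose_spec

include hc in
theorem resFun_unique (y : ↥(stab c)) (l m : Λ) (h : c m = (y : Module.End ℂ P) (c l)) :
    resFun y l = m := hc ((c_resFun y l).trans h.symm)

/-- restriction to the lattice, as a `ℤ`-linear endomorphism. -/
def resLin (y : ↥(stab c)) : Module.End ℤ Λ where
  toFun := resFun y
  map_add' := fun l m => resFun_unique hc y _ _ (by
    rw [map_add, map_add, map_add, c_resFun, c_resFun])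
  map_smul' := fun n l => resFun_unique hc y _ _ (by
    rw [RingHom.id_apply, map_zsmul, map_zsmul, map_zsmul, c_resFun])

theorem c_resLin (y : ↥(stab c)) (l : Λ) : c (resLin hc y l) = (y : Module.End ℂ P) (c l) :=
  c_resFun y l

/-- restriction to the lattice, as a `ℤ`-algebra hom. -/
def resHom : ↥(stab c) →ₐ[ℤ] Module.End ℤ Λ :=
  RingHom.toIntAlgHom
    { toFun := resLin hc
      map_one' := by
        ext l
        apply hc
        rw [c_resLin]
        rfl
      map_mul' := fun y z => by
        ext l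
        apply hc
        rw [c_resLin, Module.End.mul_apply, c_resLin, c_resLin]
        rfl
      map_zero' := by
        ext l
        apply hc
        rw [c_resLin, LinearMap.zero_apply, map_zero]
        rfl
      map_add' := fun y z => by
        ext l
        apply hc
        rw [c_resLin, LinearMap.add_apply, map_add, c_resLin, c_resLin]
        rfl }

theorem c_resHom (y : ↥(stab c)) (l : Λ) : c (resHom hc y l) = (y : Module.End ℂ P) (c l) :=
  c_resFun y l

end Stab

section Main

variable (Φ : (V × V) ≃ₗ[ℂ] P) {c : Λ →ₗ[ℤ] P} (hc : Function.Injective c)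
  (hspan : Submodule.span ℂ (Set.range c) = ⊤)
  (G : Set (Module.End ℂ V))
  (H : ∀ T ∈ G, ∀ l : Λ, ∃ m : Λ, c m = conjHom Φ T (c l))

include H in
theorem conjHom_mem_stab {x : Module.End ℂ V} (hx : x ∈ Algebra.adjoin ℤ G) :
    conjHom Φ x ∈ stab c := by
  have hle : Algebra.adjoin ℤ G ≤ (stab c).comap (conjHom Φ) := by
    apply Algebra.adjoin_le
    intro T hT
    show conjHom Φ T ∈ stab c
    exact H T hT
  exact hle hx

/-- **The action of the algebra generated by `G` on the lattice.** -/
def latticeHom : ↥(Algebra.adjoin ℤ G) →ₐ[ℤ] Module.End ℤ Λ :=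
  (resHom hc).comp
    (((conjHom Φ).comp (Algebra.adjoin ℤ G).val).codRestrict (stab c)
      (fun x => conjHom_mem_stab Φ G H x.2))

/-- the characterisation: `c (θ x λ) = Φ ((x × x) (Φ⁻¹ (c λ)))`. -/
theorem c_latticeHom (x : ↥(Algebra.adjoin ℤ G)) (l : Λ) :
    c (latticeHom Φ hc G H x l) = conjHom Φ (x : Module.End ℂ V) (c l) :=
  c_resHom hc _ l

theorem c_latticeHom' (x : ↥(Algebra.adjoin ℤ G)) (l : Λ) (f g : V) (h : Φ (f, g) = c l) :
    c (latticeHom Φ hc G H x l) = Φ ((x : Module.End ℂ V) f, (x : Module.End ℂ V) g) := by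
  rw [c_latticeHom, ← h, conjHom_apply_apply]

/-- `θ x = D` as soon as `D` describes the action of `x` on the lattice. -/
theorem latticeHom_eq_of (x : ↥(Algebra.adjoin ℤ G)) (D : Module.End ℤ Λ)
    (h : ∀ l : Λ, conjHom Φ (x : Module.End ℂ V) (c l) = c (D l)) :
    latticeHom Φ hc G H x = D := by
  ext l
  apply hc
  rw [c_latticeHom]
  exact h l

include hspan in
/-- **FAITH**: the action on the lattice is faithful. -/
theorem latticeHom_injective : Function.Injective (latticeHom Φ hc G H) := by
  rw [injective_iff_map_eq_zero]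
  intro x hx
  have h1 : ∀ l : Λ, conjHom Φ (x : Module.End ℂ V) (c l) = 0 := by
    intro l
    rw [← c_latticeHom Φ hc G H x l, hx, LinearMap.zero_apply, map_zero]
  have h2 : conjHom Φ (x : Module.End ℂ V) = 0 := by
    apply LinearMap.ext_on hspan
    rintro _ ⟨l, rfl⟩
    rw [h1 l, LinearMap.zero_apply]
  have h3 : (x : Module.End ℂ V) = 0 := conjHom_injective Φ (by rw [h2, map_zero])
  exact Subtype.ext h3

end Main

end Fermat.Agent.ES.HEQ.Faith26
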