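/-
Program J (S30), chapter J3b (helper26): **FAITH** — the anemic Hecke algebra `heckeAlgebra N 2 S`
(`S ⊇ primes of N`) acts faithfully on the lattice `Λ = parabolicHoms ℤ Γ₀(N) ℤ`, a generator `T_l`
acting as the double coset operator.

Inputs (`DCData N`): for every prime `l ∤ N` a `ℂ`-linear operator `dC l` on `Hom(Γ, ℂ)` commuting with
the `charInvolution` and an endomorphism `dZ l` of `Λ` compatible with `dC l` under `ℤ → ℂ`, such that
`periodMap (T_l f) = dC l (periodMap f)` (Hecke equivariance of the period map), and the fact that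
`Λ` spans the complex parabolic homs.  With S21 (Eichler–Shimura) and `Faith26`:

* `heckeLatticeHom D S hS : ↥(heckeAlgebra N 2 S) →ₐ[ℤ] Module.End ℤ Λ`, `heckeLatticeHom_injective`,
  `heckeLatticeHom_T` (`θ T_l = dZ l`), `castParC_heckeLatticeHom` (the characterisation).
-/
import Mathlib
import Fermat.Agent.ES.HEQ.Faith26
import Fermat.Agent.S21.Assembly
import Fermat.Agent.S21.Primitive
import Fermat.Agent.S20.LowerBound
import Fermat.Prelude.Def_CuspForm_HeckeAlgebra

set_option autoImplicit false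
set_option linter.unusedSectionVars false

noncomputable section

namespace Fermat.Agent.ES.HEQ.FaithInst26

open ModularCurve ModularCurve.Period CongruenceSubgroup CuspForm Fermat.Agent.ES.HEQ.Faith26

variable (N : ℕ) [NeZero N]

/-- the complex parabolic homs. -/
abbrev ParC : Submodule ℂ (Additive (Gamma0 N) →+ ℂ) := parabolicHoms ℂ (Gamma0 N) ℂ

/-- the lattice of integral parabolic homs. -/
abbrev Lam : Submodule ℤ (Additive (Gamma0 N) →+ ℤ) := parabolicHoms ℤ (Gamma0 N) ℤ

/-- Eichler–Shimura (S21). -/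
theorem eichlerShimura :
    Function.Injective (periodHomPair N) ∧ LinearMap.range (periodHomPair N) = ParC N :=
  Fermat.Agent.S21.Assembly.eichlerShimura_of_le N
    (Fermat.Agent.S20.LowerBound.genusFormula_le_finrank N)

/-- **the period isomorphism** `S₂ × S₂ ≃ Par ℂ ℂ`. -/
def periodEquiv :
    (CuspForm (Gamma0 N) 2 × CuspForm (Gamma0 N) 2) ≃ₗ[ℂ] ↥(ParC N) :=
  (LinearEquiv.ofInjective (periodHomPair N) (eichlerShimura N).1).trans
    (LinearEquiv.ofEq _ _ (eichlerShimura N).2)

@[simp] theorem coe_periodEquiv (f g : CuspForm (Gamma0 N) 2) :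
    ((periodEquiv N (f, g) : ↥(ParC N)) : Additive (Gamma0 N) →+ ℂ) = periodHomPair N (f, g) :=
  rfl

/-- `ℤ → ℂ` on parabolic homs. -/
def castParC : ↥(Lam N) →ₗ[ℤ] ↥(ParC N) where
  toFun φ := ⟨(Int.castAddHom ℂ).comp (φ : Additive (Gamma0 N) →+ ℤ), by
    have h := φ.2
    rw [mem_parabolicHoms_iff] at h ⊢
    intro γ hγ
    show ((φ : Additive (Gamma0 N) →+ ℤ) (Additive.ofMul γ) : ℂ) = 0
    rw [h γ hγ, Int.cast_zero]⟩
  map_add' φ ψ := by
    apply Subtype.ext
    ext γ
    simp
  map_smul' n φ := by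
    apply Subtype.ext
    ext γ
    simp

@[simp] theorem castParC_apply (φ : ↥(Lam N)) (γ : Additive (Gamma0 N)) :
    ((castParC N φ : ↥(ParC N)) : Additive (Gamma0 N) →+ ℂ) γ =
      (((φ : Additive (Gamma0 N) →+ ℤ) γ : ℤ) : ℂ) := rfl

theorem castParC_injective : Function.Injective (castParC N) := by
  intro φ ψ h
  apply Subtype.ext
  ext γ
  have h1 := congrArg (fun z : ↥(ParC N) => (z : Additive (Gamma0 N) →+ ℂ) γ) h
  simp only [castParC_apply] at h1
  exact_mod_cast h1

/-- **The double coset data** (outputs of J3b-CORE, DoubleCoset, ParLattice). -/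
structure DCData where
  /-- the double coset operator of `T_l` on `Hom(Γ, ℂ)` -/
  dC : ∀ l : ℕ, l.Prime → ¬ l ∣ N → Module.End ℂ (Additive (Gamma0 N) →+ ℂ)
  /-- the double coset operator of `T_l` on the lattice -/
  dZ : ∀ l : ℕ, l.Prime → ¬ l ∣ N → Module.End ℤ ↥(Lam N)
  /-- compatibility with `z ↦ -z̄` -/
  comm_inv : ∀ (l : ℕ) (hl : l.Prime) (hlN : ¬ l ∣ N) (φ : Additive (Gamma0 N) →+ ℂ),
    dC l hl hlN (charInvolution N ℂ ℂ φ) = charInvolution N ℂ ℂ (dC l hl hlN φ)
  /-- Hecke equivariance of the period map -/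
  period : ∀ (l : ℕ) (hl : l.Prime) (hlN : ¬ l ∣ N) (f : CuspForm (Gamma0 N) 2),
    periodMap N (heckeTLin 2 hl hlN f) = dC l hl hlN (periodMap N f)
  /-- compatibility of the two operators -/
  cast : ∀ (l : ℕ) (hl : l.Prime) (hlN : ¬ l ∣ N) (φ : ↥(Lam N)),
    ((castParC N (dZ l hl hlN φ) : ↥(ParC N)) : Additive (Gamma0 N) →+ ℂ) =
      dC l hl hlN ((castParC N φ : ↥(ParC N)) : Additive (Gamma0 N) →+ ℂ)
  /-- the lattice spans -/
  span : Submodule.span ℂ (Set.range (castParC N)) = ⊤

variable {N} (D : DCData N)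

/-- Hecke equivariance of `periodHomPair`. -/
theorem periodHomPair_hecke (l : ℕ) (hl : l.Prime) (hlN : ¬ l ∣ N) (f g : CuspForm (Gamma0 N) 2) :
    periodHomPair N (heckeTLin 2 hl hlN f, heckeTLin 2 hl hlN g) =
      D.dC l hl hlN (periodHomPair N (f, g)) := by
  rw [Fermat.Agent.S21.Primitive.periodHomPair_apply, Fermat.Agent.S21.Primitive.periodHomPair_apply,
    D.period, D.period, map_add, map_add, map_sub, D.comm_inv, D.comm_inv]

variable (S : Set ℕ) (hS : ∀ q : ℕ, q.Prime → q ∣ N → q ∈ S)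

include D hS in
theorem stab_of_mem_heckeGenerators :
    ∀ T ∈ heckeGenerators N 2 S, ∀ φ : ↥(Lam N),
      ∃ m : ↥(Lam N), castParC N m = conjHom (periodEquiv N) T (castParC N φ) := by
  rintro T (⟨l, hl, hlN, -, rfl⟩ | ⟨q, hqN, hq, hqS, rfl⟩) φ
  · refine ⟨D.dZ l hl hlN φ, ?_⟩
    apply Subtype.ext
    rw [D.cast, conjHom_apply, coe_periodEquiv, periodHomPair_hecke D, ← coe_periodEquiv,
      Prod.mk.eta, LinearEquiv.apply_symm_apply]
  · exact absurd (hS q hq hqN) hqS

/-- **The action of the anemic Hecke algebra on the lattice of integral parabolic homs.** -/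
def heckeLatticeHom : ↥(heckeAlgebra N 2 S) →ₐ[ℤ] Module.End ℤ ↥(Lam N) :=
  latticeHom (periodEquiv N) (castParC_injective N) (heckeGenerators N 2 S)
    (stab_of_mem_heckeGenerators D S hS)

/-- **FAITH**: the action is faithful. -/
theorem heckeLatticeHom_injective : Function.Injective (heckeLatticeHom D S hS) :=
  latticeHom_injective (periodEquiv N) (castParC_injective N) D.span (heckeGenerators N 2 S)
    (stab_of_mem_heckeGenerators D S hS)

/-- the characterisation of the action through the period isomorphism. -/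
theorem castParC_heckeLatticeHom (x : ↥(heckeAlgebra N 2 S)) (φ : ↥(Lam N))
    (f g : CuspForm (Gamma0 N) 2)
    (h : periodHomPair N (f, g) = ((castParC N φ : ↥(ParC N)) : Additive (Gamma0 N) →+ ℂ)) :
    ((castParC N (heckeLatticeHom D S hS x φ) : ↥(ParC N)) : Additive (Gamma0 N) →+ ℂ) =
      periodHomPair N ((x : Module.End ℂ (CuspForm (Gamma0 N) 2)) f,
        (x : Module.End ℂ (CuspForm (Gamma0 N) 2)) g) := by
  have h' : periodEquiv N (f, g) = castParC N φ := Subtype.ext h
  have := c_latticeHom' (periodEquiv N) (castParC_injective N) (heckeGenerators N 2 S)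
    (stab_of_mem_heckeGenerators D S hS) x φ f g h'
  exact congrArg Subtype.val this

/-- `T_l` acts as the double coset operator. -/
theorem heckeLatticeHom_T (l : ℕ) (hl : l.Prime) (hlN : ¬ l ∣ N) (hlS : l ∉ S) :
    heckeLatticeHom D S hS (heckeAlgebra.T hl hlN hlS) = D.dZ l hl hlN := by
  refine latticeHom_eq_of (periodEquiv N) (castParC_injective N) (heckeGenerators N 2 S)
    (stab_of_mem_heckeGenerators D S hS) _ _ (fun φ => ?_)
  apply Subtype.ext
  rw [D.cast, conjHom_apply, coe_periodEquiv]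
  show periodHomPair N (heckeTLin 2 hl hlN _, heckeTLin 2 hl hlN _) = _
  rw [periodHomPair_hecke D, ← coe_periodEquiv, Prod.mk.eta, LinearEquiv.apply_symm_apply]

end Fermat.Agent.ES.HEQ.FaithInst26
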