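-- Program J, chapter J3b (LATTICE): the rational structure of the parabolic homs.
-- `Λ := parabolicHoms ℤ Γ ℤ` is a free `ℤ`-module of finite rank `r`, with a `ℤ`-basis `lam i` and
-- dual elements `gen i : Γ`, and for EVERY torsion-free abelian group `A` a parabolic hom
-- `φ : Additive Γ →+ A` is determined by its values at the `gen i`: `φ γ = ∑ i, lam i γ • φ (gen i)`.
import Mathlib
import Fermat.Prelude.Def_ModularCurve_PeriodMap
import Fermat.Agent.S22.CocycleFG

set_option autoImplicit false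

namespace Fermat.Agent.ES.HEQ.ParLattice11

open ModularCurve.Period
open scoped MatrixGroups

variable (Γ : Subgroup SL(2, ℤ))

/-- The abelianisation of `Γ`, written additively. -/
abbrev Ab : Type := Additive (Abelianization Γ)

/-- The canonical map `Γ → Γ^ab`, additively. -/
def toAb : Additive Γ →+ Ab Γ := MonoidHom.toAdditive Abelianization.of

theorem toAb_surjective : Function.Surjective (toAb Γ) := by
  intro x
  obtain ⟨g, hg⟩ := QuotientGroup.mk_surjective (Additive.toMul x)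
  exact ⟨Additive.ofMul g, congrArg Additive.ofMul hg⟩

/-- The `ℤ`-submodule of `Γ^ab` spanned by the classes of the parabolic elements (trace² = 4). -/
def parSub : Submodule ℤ (Ab Γ) :=
  Submodule.span ℤ {x | ∃ γ : Γ, ((γ : SL(2, ℤ)) : Matrix (Fin 2) (Fin 2) ℤ).trace ^ 2 = 4 ∧
    x = toAb Γ (Additive.ofMul γ)}

/-- `Γ^ab` modulo parabolic classes. -/
abbrev Gpar : Type := Ab Γ ⧸ parSub Γ

/-- `Γ^ab` modulo parabolic classes modulo torsion. -/
abbrev Q : Type := Gpar Γ ⧸ Submodule.torsion ℤ (Gpar Γ)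

/-- The canonical projection `Γ → Q`. -/
def proj : Additive Γ →+ Q Γ :=
  ((Submodule.torsion ℤ (Gpar Γ)).mkQ.toAddMonoidHom.comp (parSub Γ).mkQ.toAddMonoidHom).comp
    (toAb Γ)

theorem proj_surjective : Function.Surjective (proj Γ) := by
  intro x
  obtain ⟨y, rfl⟩ := Submodule.mkQ_surjective _ x
  obtain ⟨z, rfl⟩ := Submodule.mkQ_surjective _ y
  obtain ⟨g, rfl⟩ := toAb_surjective Γ z
  exact ⟨g, rfl⟩

theorem proj_parabolic (γ : Γ)
    (hγ : ((γ : SL(2, ℤ)) : Matrix (Fin 2) (Fin 2) ℤ).trace ^ 2 = 4) :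
    proj Γ (Additive.ofMul γ) = 0 := by
  have h : (parSub Γ).mkQ (toAb Γ (Additive.ofMul γ)) = 0 := by
    rw [Submodule.mkQ_apply, Submodule.Quotient.mk_eq_zero]
    exact Submodule.subset_span ⟨γ, hγ, rfl⟩
  show (Submodule.torsion ℤ (Gpar Γ)).mkQ ((parSub Γ).mkQ (toAb Γ (Additive.ofMul γ))) = 0
  rw [h, map_zero]

section Factor

variable {Γ}
variable {A : Type*} [AddCommGroup A]

/-- The map induced on `Γ^ab` by an additive character of `Γ`. -/
def abLift (φ : Additive Γ →+ A) : Ab Γ →ₗ[ℤ] A :=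
  (MonoidHom.toAdditiveLeft
    (Abelianization.lift (AddMonoidHom.toMultiplicativeRight φ))).toIntLinearMap

theorem abLift_toAb (φ : Additive Γ →+ A) (g : Additive Γ) : abLift φ (toAb Γ g) = φ g := by
  show Multiplicative.toAdd (Abelianization.lift (AddMonoidHom.toMultiplicativeRight φ)
    (Abelianization.of (Additive.toMul g))) = φ g
  rw [Abelianization.lift_apply_of]
  rfl

theorem parSub_le_ker_abLift {φ : Additive Γ →+ A} (hφ : IsParabolicHom Γ φ) :
    parSub Γ ≤ LinearMap.ker (abLift φ) := by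
  unfold parSub
  rw [Submodule.span_le]
  rintro x ⟨γ, hγ, rfl⟩
  rw [SetLike.mem_coe, LinearMap.mem_ker, abLift_toAb]
  exact hφ γ hγ

/-- The map induced on `Γ^ab / parabolic` by a parabolic character. -/
def gparLift (φ : Additive Γ →+ A) (hφ : IsParabolicHom Γ φ) : Gpar Γ →ₗ[ℤ] A :=
  (parSub Γ).liftQ (abLift φ) (parSub_le_ker_abLift hφ)

theorem torsion_le_ker_gparLift [IsAddTorsionFree A] (φ : Additive Γ →+ A)
    (hφ : IsParabolicHom Γ φ) :
    Submodule.torsion ℤ (Gpar Γ) ≤ LinearMap.ker (gparLift φ hφ) := by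
  intro x hx
  rw [Submodule.mem_torsion_iff] at hx
  obtain ⟨a, ha⟩ := hx
  rw [LinearMap.mem_ker]
  have h : (a : ℤ) • gparLift φ hφ x = 0 := by
    rw [← map_smul]
    have : (a : ℤ) • x = 0 := ha
    rw [this, map_zero]
  have ha0 : (a : ℤ) ≠ 0 := nonZeroDivisors.coe_ne_zero a
  exact (smul_eq_zero_iff_right ha0).mp h

/-- The map induced on `Q` by a parabolic character with torsion-free values. -/
def qLift [IsAddTorsionFree A] (φ : Additive Γ →+ A) (hφ : IsParabolicHom Γ φ) : Q Γ →ₗ[ℤ] A :=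
  (Submodule.torsion ℤ (Gpar Γ)).liftQ (gparLift φ hφ) (torsion_le_ker_gparLift φ hφ)

theorem qLift_proj [IsAddTorsionFree A] (φ : Additive Γ →+ A) (hφ : IsParabolicHom Γ φ)
    (g : Additive Γ) : qLift φ hφ (proj Γ g) = φ g := by
  show (Submodule.torsion ℤ (Gpar Γ)).liftQ (gparLift φ hφ) (torsion_le_ker_gparLift φ hφ)
    ((Submodule.torsion ℤ (Gpar Γ)).mkQ ((parSub Γ).mkQ (toAb Γ g))) = φ g
  rw [Submodule.mkQ_apply, Submodule.liftQ_apply, gparLift, Submodule.mkQ_apply,
    Submodule.liftQ_apply, abLift_toAb]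

end Factor

section Finite

variable {Γ}

theorem finite_ab (hΓ : Γ.FG) : Module.Finite ℤ (Ab Γ) := by
  have : Group.FG Γ := (Group.fg_iff_subgroup_fg Γ).mpr hΓ
  have : Group.FG (Abelianization Γ) :=
    Group.fg_of_surjective (f := Abelianization.of) (QuotientGroup.mk_surjective)
  exact Module.Finite.iff_addGroup_fg.mpr inferInstance

theorem finite_Q (hΓ : Γ.FG) : Module.Finite ℤ (Q Γ) := by
  have := finite_ab hΓ
  infer_instance

theorem free_Q (hΓ : Γ.FG) : Module.Free ℤ (Q Γ) := by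
  have := finite_Q hΓ
  infer_instance

end Finite

/-- The rank of `Λ = parabolicHoms ℤ Γ ℤ`. -/
noncomputable def rk : ℕ := Module.finrank ℤ (Q Γ)

variable {Γ}

/-- A `ℤ`-basis of `Q`. -/
noncomputable def qBasis (hΓ : Γ.FG) : Module.Basis (Fin (rk Γ)) ℤ (Q Γ) :=
  haveI := finite_Q hΓ
  haveI := free_Q hΓ
  Module.finBasis ℤ (Q Γ)

/-- The coordinate characters: a `ℤ`-basis of `Λ`. -/
noncomputable def lamHom (hΓ : Γ.FG) (i : Fin (rk Γ)) : Additive Γ →+ ℤ :=
  ((qBasis hΓ).coord i).toAddMonoidHom.comp (proj Γ)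

theorem lamHom_apply (hΓ : Γ.FG) (i : Fin (rk Γ)) (g : Additive Γ) :
    lamHom hΓ i g = (qBasis hΓ).repr (proj Γ g) i := rfl

theorem lamHom_isParabolic (hΓ : Γ.FG) (i : Fin (rk Γ)) : IsParabolicHom Γ (lamHom hΓ i) := by
  intro γ hγ
  rw [lamHom_apply, proj_parabolic Γ γ hγ, map_zero]
  rfl

/-- The coordinate characters as elements of `Λ`. -/
noncomputable def lam (hΓ : Γ.FG) (i : Fin (rk Γ)) : parabolicHoms ℤ Γ ℤ :=
  ⟨lamHom hΓ i, lamHom_isParabolic hΓ i⟩

/-- Elements of `Γ` dual to the `lam i`. -/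
noncomputable def gen (hΓ : Γ.FG) (i : Fin (rk Γ)) : Γ :=
  Additive.toMul (Classical.choose (proj_surjective Γ (qBasis hΓ i)))

theorem proj_gen (hΓ : Γ.FG) (i : Fin (rk Γ)) :
    proj Γ (Additive.ofMul (gen hΓ i)) = qBasis hΓ i :=
  Classical.choose_spec (proj_surjective Γ (qBasis hΓ i))

theorem lamHom_gen (hΓ : Γ.FG) (i j : Fin (rk Γ)) :
    lamHom hΓ i (Additive.ofMul (gen hΓ j)) = if i = j then 1 else 0 := by
  rw [lamHom_apply, proj_gen, Module.Basis.repr_self, Finsupp.single_apply]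
  simp only [eq_comm]

/-- **Expansion** of a parabolic character with torsion-free values. -/
theorem expand (hΓ : Γ.FG) {A : Type*} [AddCommGroup A] [IsAddTorsionFree A]
    (φ : Additive Γ →+ A) (hφ : IsParabolicHom Γ φ) (g : Additive Γ) :
    φ g = ∑ i, lamHom hΓ i g • φ (Additive.ofMul (gen hΓ i)) := by
  have h1 : φ g = qLift φ hφ (proj Γ g) := (qLift_proj φ hφ g).symm
  have h2 : proj Γ g = ∑ i, (qBasis hΓ).repr (proj Γ g) i • qBasis hΓ i :=
    ((qBasis hΓ).sum_repr (proj Γ g)).symm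
  rw [h1, h2, map_sum]
  refine Finset.sum_congr rfl fun i _ => ?_
  rw [map_smul, ← proj_gen hΓ i, qLift_proj, lamHom_apply]

section Eval

variable (R : Type*) [Ring R] (A : Type*) [AddCommGroup A] [Module R A]

/-- The character `g ↦ n(g) • a` attached to an integral character `n` and a value `a`. -/
def smulHom (ψ : Additive Γ →+ ℤ) (a : A) : Additive Γ →+ A :=
  ((smulAddHom ℤ A).flip a).comp ψ

omit [Module R A] in
theorem smulHom_apply (ψ : Additive Γ →+ ℤ) (a : A) (g : Additive Γ) :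
    smulHom A ψ a g = ψ g • a := rfl

omit [Module R A] in
theorem smulHom_isParabolic {ψ : Additive Γ →+ ℤ} (hψ : IsParabolicHom Γ ψ) (a : A) :
    IsParabolicHom Γ (smulHom A ψ a) := by
  intro γ hγ
  rw [smulHom_apply, hψ γ hγ, zero_smul]

/-- **Evaluation at the dual elements** identifies the parabolic characters with values in a
torsion-free `A` with `A ^ r`. -/
noncomputable def evalEquiv (hΓ : Γ.FG) [IsAddTorsionFree A] :
    parabolicHoms R Γ A ≃ₗ[R] (Fin (rk Γ) → A) where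
  toFun φ i := (φ : Additive Γ →+ A) (Additive.ofMul (gen hΓ i))
  map_add' _ _ := rfl
  map_smul' _ _ := rfl
  invFun a := ⟨∑ i, smulHom A (lamHom hΓ i) (a i),
    Submodule.sum_mem _ fun i _ => smulHom_isParabolic A (lamHom_isParabolic hΓ i) (a i)⟩
  left_inv φ := by
    apply Subtype.ext
    refine AddMonoidHom.ext fun g => ?_
    rw [AddMonoidHom.finsetSum_apply, expand hΓ (φ : Additive Γ →+ A) φ.2 g]
    rfl
  right_inv a := by
    funext j
    show (∑ i, smulHom A (lamHom hΓ i) (a i)) (Additive.ofMul (gen hΓ j)) = a j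
    rw [AddMonoidHom.finsetSum_apply]
    simp only [smulHom_apply, lamHom_gen]
    rw [Finset.sum_eq_single j]
    · rw [if_pos rfl, one_smul]
    · intro i _ hij
      rw [if_neg hij, zero_smul]
    · intro h
      exact absurd (Finset.mem_univ j) h

theorem evalEquiv_apply (hΓ : Γ.FG) [IsAddTorsionFree A] (φ : parabolicHoms R Γ A)
    (i : Fin (rk Γ)) :
    evalEquiv R A hΓ φ i = (φ : Additive Γ →+ A) (Additive.ofMul (gen hΓ i)) := rfl

theorem evalEquiv_symm_apply (hΓ : Γ.FG) [IsAddTorsionFree A] (a : Fin (rk Γ) → A)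
    (g : Additive Γ) :
    (((evalEquiv R A hΓ).symm a : parabolicHoms R Γ A) : Additive Γ →+ A) g
      = ∑ i, lamHom hΓ i g • a i := by
  show (∑ i, smulHom A (lamHom hΓ i) (a i)) g = _
  rw [AddMonoidHom.finsetSum_apply]
  rfl

/-- Two parabolic characters with torsion-free values agreeing at the `gen i` are equal. -/
theorem ext_gen (hΓ : Γ.FG) [IsAddTorsionFree A] {φ ψ : Additive Γ →+ A}
    (hφ : IsParabolicHom Γ φ) (hψ : IsParabolicHom Γ ψ)
    (h : ∀ i, φ (Additive.ofMul (gen hΓ i)) = ψ (Additive.ofMul (gen hΓ i))) : φ = ψ := by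
  refine AddMonoidHom.ext fun g => ?_
  rw [expand hΓ φ hφ g, expand hΓ ψ hψ g]
  exact Finset.sum_congr rfl fun i _ => by rw [h i]

end Eval

section Cast

variable (Γ)
variable (R : Type*) [Ring R]

/-- Scalar extension `Λ → Par R R`, `φ ↦ (ℤ → R) ∘ φ`. -/
def castPar : parabolicHoms ℤ Γ ℤ →ₗ[ℤ] parabolicHoms R Γ R where
  toFun φ := ⟨(Int.castAddHom R).comp (φ : Additive Γ →+ ℤ), fun γ hγ => by
    show ((((φ : Additive Γ →+ ℤ) (Additive.ofMul γ)) : ℤ) : R) = 0
    rw [φ.2 γ hγ, Int.cast_zero]⟩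
  map_add' φ ψ := by
    apply Subtype.ext
    refine AddMonoidHom.ext fun g => ?_
    show (((φ + ψ : parabolicHoms ℤ Γ ℤ) : Additive Γ →+ ℤ) g : R) = _
    rw [Submodule.coe_add, AddMonoidHom.add_apply, Int.cast_add]
    rfl
  map_smul' n φ := by
    apply Subtype.ext
    refine AddMonoidHom.ext fun g => ?_
    show (((n • φ : parabolicHoms ℤ Γ ℤ) : Additive Γ →+ ℤ) g : R) = _
    rw [Submodule.coe_smul, AddMonoidHom.smul_apply, smul_eq_mul, Int.cast_mul]
    show _ = (n • ((Int.castAddHom R).comp (φ : Additive Γ →+ ℤ))) g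
    rw [AddMonoidHom.smul_apply, zsmul_eq_mul]
    rfl

variable {Γ}

theorem castPar_apply (φ : parabolicHoms ℤ Γ ℤ) (g : Additive Γ) :
    ((castPar Γ R φ : parabolicHoms R Γ R) : Additive Γ →+ R) g
      = (((φ : Additive Γ →+ ℤ) g : ℤ) : R) := rfl

theorem castPar_injective [CharZero R] : Function.Injective (castPar Γ R) := by
  intro φ ψ h
  apply Subtype.ext
  refine AddMonoidHom.ext fun g => ?_
  have := congrArg (fun χ : parabolicHoms R Γ R => (χ : Additive Γ →+ R) g) h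
  simp only [castPar_apply] at this
  exact Int.cast_injective this

/-- The `R`-basis `castPar R (lam i)` of `Par R R`, for a ring `R` with torsion-free additive
group. -/
noncomputable def parBasis (hΓ : Γ.FG) [IsAddTorsionFree R] :
    Module.Basis (Fin (rk Γ)) R (parabolicHoms R Γ R) :=
  Module.Basis.ofEquivFun (evalEquiv R R hΓ)

theorem parBasis_apply (hΓ : Γ.FG) [IsAddTorsionFree R] (i : Fin (rk Γ)) :
    parBasis R hΓ i = castPar Γ R (lam hΓ i) := by
  classical
  apply Subtype.ext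
  refine AddMonoidHom.ext fun g => ?_
  rw [parBasis, Module.Basis.coe_ofEquivFun, evalEquiv_symm_apply, castPar_apply]
  rw [Finset.sum_eq_single i]
  · rw [Pi.single_eq_same, zsmul_eq_mul, mul_one]
    rfl
  · intro j _ hji
    rw [Pi.single_eq_of_ne hji, smul_zero]
  · intro h
    exact absurd (Finset.mem_univ i) h

theorem parBasis_repr (hΓ : Γ.FG) [IsAddTorsionFree R] (φ : parabolicHoms R Γ R)
    (i : Fin (rk Γ)) :
    (parBasis R hΓ).repr φ i = (φ : Additive Γ →+ R) (Additive.ofMul (gen hΓ i)) := by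
  rw [parBasis, Module.Basis.ofEquivFun_repr_apply, evalEquiv_apply]

theorem span_range_castPar (hΓ : Γ.FG) [IsAddTorsionFree R] :
    Submodule.span R (Set.range (castPar Γ R)) = ⊤ := by
  rw [eq_top_iff, ← (parBasis R hΓ).span_eq]
  refine Submodule.span_mono ?_
  rintro _ ⟨i, rfl⟩
  exact ⟨lam hΓ i, (parBasis_apply R hΓ i).symm⟩

end Cast

section Lattice

/-- The `ℤ`-basis `lam i` of `Λ`. -/
noncomputable def lamBasis (hΓ : Γ.FG) : Module.Basis (Fin (rk Γ)) ℤ (parabolicHoms ℤ Γ ℤ) :=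
  parBasis ℤ hΓ

theorem lamBasis_apply (hΓ : Γ.FG) (i : Fin (rk Γ)) : lamBasis hΓ i = lam hΓ i := by
  rw [lamBasis, parBasis_apply]
  apply Subtype.ext
  refine AddMonoidHom.ext fun g => ?_
  rw [castPar_apply, Int.cast_id]

theorem lamBasis_repr (hΓ : Γ.FG) (φ : parabolicHoms ℤ Γ ℤ) (i : Fin (rk Γ)) :
    (lamBasis hΓ).repr φ i = (φ : Additive Γ →+ ℤ) (Additive.ofMul (gen hΓ i)) :=
  parBasis_repr ℤ hΓ φ i

/-- (L1) `Λ` is a finitely generated free `ℤ`-module. -/
theorem finite_par (hΓ : Γ.FG) : Module.Finite ℤ (parabolicHoms ℤ Γ ℤ) :=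
  Module.Finite.of_basis (lamBasis hΓ)

theorem free_par (hΓ : Γ.FG) : Module.Free ℤ (parabolicHoms ℤ Γ ℤ) :=
  Module.Free.of_basis (lamBasis hΓ)

theorem finrank_par (hΓ : Γ.FG) : Module.finrank ℤ (parabolicHoms ℤ Γ ℤ) = rk Γ := by
  rw [Module.finrank_eq_card_basis (lamBasis hΓ), Fintype.card_fin]

end Lattice

section Transfer

variable (R : Type*) [Ring R] [IsAddTorsionFree R] [CharZero R]

/-- (L4) **Transfer**: an endomorphism of `Λ` vanishes iff its scalar extension to `Par R R`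
does. -/
theorem transfer (hΓ : Γ.FG) (tZ : parabolicHoms ℤ Γ ℤ →ₗ[ℤ] parabolicHoms ℤ Γ ℤ)
    (tR : parabolicHoms R Γ R →ₗ[R] parabolicHoms R Γ R)
    (h : ∀ φ, tR (castPar Γ R φ) = castPar Γ R (tZ φ)) : tZ = 0 ↔ tR = 0 := by
  constructor
  · intro hZ
    refine (parBasis R hΓ).ext fun i => ?_
    rw [parBasis_apply, h, hZ, LinearMap.zero_apply, map_zero, LinearMap.zero_apply]
  · intro hR
    refine LinearMap.ext fun φ => ?_
    apply castPar_injective R
    rw [← h, hR, LinearMap.zero_apply, LinearMap.zero_apply, map_zero]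

end Transfer

/-! ### Specialisation to `Γ₀(N)` -/

section Gamma0

open CongruenceSubgroup

variable (N : ℕ) [NeZero N]

/-- `Γ₀(N)` is finitely generated (from `S22/CocycleFG`). -/
theorem fg_Gamma0 : (Gamma0 N).FG := Fermat.Agent.S22.gamma0_fg N

/-- (L1) for `Γ₀(N)`. -/
instance finite_par_Gamma0 : Module.Finite ℤ (parabolicHoms ℤ (Gamma0 N) ℤ) :=
  finite_par (fg_Gamma0 N)

instance free_par_Gamma0 : Module.Free ℤ (parabolicHoms ℤ (Gamma0 N) ℤ) :=
  free_par (fg_Gamma0 N)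

/-- (L3) for `Γ₀(N)` and `R = ℂ`: `Par ℂ ℂ` is spanned by the image of `Λ`. -/
theorem span_range_castPar_complex :
    Submodule.span ℂ (Set.range (castPar (Gamma0 N) ℂ)) = ⊤ :=
  span_range_castPar ℂ (fg_Gamma0 N)

omit [NeZero N] in
theorem castPar_complex_injective : Function.Injective (castPar (Gamma0 N) ℂ) :=
  castPar_injective ℂ

end Gamma0

end Fermat.Agent.ES.HEQ.ParLattice11
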