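/-
Program J, chapter J3b (helper1): **Hecke equivariance of the period map, analytic core.**

`f` a weight-2 cusp form on `Γ₀(N)`, `p ∤ N` prime, `F = prim f` its primitive.  The function
`G z = ∑ᵢ F (mᵢ z)`, `mᵢ` the affine maps `z ↦ (aᵢ z + bᵢ)/dᵢ` of the Hecke double coset, is a
primitive of `T_p f` (weight 2: `(aᵢ/dᵢ) f(mᵢ z) = (f ∣[2] βᵢ) z`), hence equals `prim (T_p f)` up
to a constant (no cusp analysis needed), and its periods telescope along the coset identity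
`mᵢ (γ z) = cᵢ • m_{π i} z`:

  `periodMap N (T_p f) γ = ∑ᵢ periodMap N f (cᵢ)`   (`= tdcAdd (periodMap N f) γ`).
-/
import Mathlib
import Fermat.Agent.S21.Primitive
import Fermat.Prelude.Def_ModularForm_HeckeOperatorForms

set_option autoImplicit false

open UpperHalfPlane hiding I
open Complex Filter Topology CongruenceSubgroup ModularCurve ModularCurve.Period
open scoped MatrixGroups ModularForm

noncomputable section

namespace Fermat.Agent.ES.HEQ.PeriodHecke1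

open Fermat.Agent.S21.Primitive

/-- The derivative of `F ∘ m` for an affine self-map `m z = (a z + b)/d` of `ℍ`. -/
theorem hasDerivAt_comp_affine {F : ℍ → ℂ} {φ : ℍ → ℂ}
    (hF : ∀ τ : ℍ, HasDerivAt (F ∘ ofComplex) (φ τ) (τ : ℂ))
    (m : ℍ → ℍ) (a b d : ℂ)
    (hm : ∀ τ : ℍ, ((m τ : ℍ) : ℂ) = (a * (τ : ℂ) + b) / d) (τ : ℍ) :
    HasDerivAt ((fun z : ℍ => F (m z)) ∘ ofComplex) (a / d * φ (m τ)) (τ : ℂ) := by
  -- the affine map on `ℂ`
  have haff : HasDerivAt (fun w : ℂ => (a * w + b) / d) (a / d) (τ : ℂ) := by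
    have h1 : HasDerivAt (fun w : ℂ => a * w + b) a (τ : ℂ) := by
      have := ((hasDerivAt_id (τ : ℂ)).const_mul a).add_const b
      simpa using this
    exact h1.div_const d
  have hFm : HasDerivAt (F ∘ ofComplex) (φ (m τ)) ((a * (τ : ℂ) + b) / d) := by
    rw [← hm τ]
    exact hF (m τ)
  have hcomp : HasDerivAt ((F ∘ ofComplex) ∘ fun w : ℂ => (a * w + b) / d)
      (φ (m τ) * (a / d)) (τ : ℂ) := hFm.comp (τ : ℂ) haff
  have hev : ((fun z : ℍ => F (m z)) ∘ ofComplex) =ᶠ[𝓝 (τ : ℂ)]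
      ((F ∘ ofComplex) ∘ fun w : ℂ => (a * w + b) / d) := by
    have hopen : upperHalfPlaneSet ∈ 𝓝 (τ : ℂ) := isOpen_upperHalfPlaneSet.mem_nhds τ.im_pos
    filter_upwards [hopen] with w hw
    show F (m (ofComplex w)) = F (ofComplex ((a * w + b) / d))
    have h1 : ofComplex w = ⟨w, hw⟩ := ofComplex_apply_of_im_pos hw
    rw [h1]
    have h2 : (a * w + b) / d = ((m ⟨w, hw⟩ : ℍ) : ℂ) := (hm ⟨w, hw⟩).symm
    rw [h2, ofComplex_apply]
  rw [mul_comm]
  exact hcomp.congr_of_eventuallyEq hev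

variable {N : ℕ} [NeZero N]

/-- **Hecke equivariance of the period map** (analytic core, abstract in the coset data). -/
theorem periodMap_heckeT_apply {p : ℕ} (hp : p.Prime) (hpN : ¬ p ∣ N)
    (f : CuspForm (Gamma0 N) 2) (γ : Gamma0 N)
    {I : Type*} [Fintype I] (m : I → ℍ → ℍ) (a b d : I → ℂ)
    (hm : ∀ (i : I) (τ : ℍ), ((m i τ : ℍ) : ℂ) = (a i * (τ : ℂ) + b i) / d i)
    (hT : ∀ τ : ℍ, ModularForm.heckeT 2 p ⇑f τ = ∑ i, a i / d i * f (m i τ))
    (π : Equiv.Perm I) (c : I → Gamma0 N)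
    (h : ∀ (i : I) (z : ℍ),
      m i (((γ : Gamma0 N) : SL(2, ℤ)) • z) = (((c i : Gamma0 N) : SL(2, ℤ))) • m (π i) z) :
    periodMap N (CuspForm.heckeTLin 2 hp hpN f) (Additive.ofMul γ) =
      ∑ i, periodMap N f (Additive.ofMul (c i)) := by
  classical
  set F : ℍ → ℂ := prim f with hF
  set G : ℍ → ℂ := fun z => ∑ i, F (m i z) with hG
  -- `G` is a primitive of `T_p f`
  have hGder : ∀ τ : ℍ, HasDerivAt (G ∘ ofComplex) ((CuspForm.heckeTLin 2 hp hpN f) τ) (τ : ℂ) := by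
    intro τ
    have h1 : (CuspForm.heckeTLin 2 hp hpN f) τ = ∑ i, a i / d i * f (m i τ) := hT τ
    rw [h1]
    have h2 : G ∘ ofComplex = fun w : ℂ => ∑ i, ((fun z : ℍ => F (m i z)) ∘ ofComplex) w := by
      funext w
      rfl
    rw [h2]
    exact HasDerivAt.fun_sum fun i _ =>
      hasDerivAt_comp_affine (prim_hasDerivAt f) (m i) (a i) (b i) (d i) (hm i) τ
  obtain ⟨c₀, hc₀⟩ := sub_const_of_hasDerivAt hGder
    (prim_hasDerivAt (CuspForm.heckeTLin 2 hp hpN f))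
  -- periods
  have hper : ∀ z : ℍ, periodMap N (CuspForm.heckeTLin 2 hp hpN f) (Additive.ofMul γ) =
      G (((γ : Gamma0 N) : SL(2, ℤ)) • z) - G z := by
    intro z
    rw [periodMap_apply_prim (CuspForm.heckeTLin 2 hp hpN f) γ z]
    have e1 := hc₀ (((γ : Gamma0 N) : SL(2, ℤ)) • z)
    have e2 := hc₀ z
    linear_combination e2 - e1
  rw [hper UpperHalfPlane.I]
  show ∑ i, F (m i (((γ : Gamma0 N) : SL(2, ℤ)) • UpperHalfPlane.I)) -
      ∑ i, F (m i UpperHalfPlane.I) = _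
  have h3 : ∀ i, F (m i (((γ : Gamma0 N) : SL(2, ℤ)) • UpperHalfPlane.I)) =
      F (m (π i) UpperHalfPlane.I) + periodMap N f (Additive.ofMul (c i)) := by
    intro i
    rw [h i, periodMap_apply_prim f (c i) (m (π i) UpperHalfPlane.I)]
    ring
  rw [Finset.sum_congr rfl fun i _ => h3 i, Finset.sum_add_distrib,
    Equiv.sum_comp π fun i => F (m i UpperHalfPlane.I)]
  ring

end Fermat.Agent.ES.HEQ.PeriodHecke1
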