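/-
Program J / J3b: the period map intertwines the Hecke operator `T_p` on weight-2 cusp forms with
helper27's double-coset operator `tdcAdd` on `Hom(Γ₀(N), ℂ)`:

  `periodMap N (T_p f) = tdcAdd hpN (periodMap N f)`.

Concrete instantiation of `PeriodHecke1.periodMap_heckeT_apply` with the representatives
`glBeta p i`, `i : Option (ZMod p)`, of `DoubleCoset27`.
-/
import Mathlib
import Fermat.Agent.ES.HEQ.PeriodHecke1
import Fermat.Agent.ES.HEQ.DoubleCoset27

set_option autoImplicit false

open CongruenceSubgroup UpperHalfPlane ModularCurve ModularCurve.Period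
open scoped MatrixGroups ModularForm

namespace Fermat.Agent.ES.HEQ.PeriodHeckeDC1

open Fermat.Agent.ES.HEQ.DoubleCoset27 Fermat.Agent.ES.HEQ.PeriodHecke1

variable {p : ℕ} [hp : Fact p.Prime]

/-- numerator slope of the representative `β_i`. -/
noncomputable def aC (p : ℕ) : Option (ZMod p) → ℂ
  | some _ => 1
  | none => (p : ℂ)

/-- numerator shift of the representative `β_i`. -/
noncomputable def bC (p : ℕ) : Option (ZMod p) → ℂ
  | some j => (j.val : ℂ)
  | none => 0

/-- denominator of the representative `β_i`. -/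
noncomputable def dC (p : ℕ) : Option (ZMod p) → ℂ
  | some _ => (p : ℂ)
  | none => 1

theorem coe_glBeta_smul (i : Option (ZMod p)) (τ : ℍ) :
    ((glBeta p i • τ : ℍ) : ℂ) = (aC p i * (τ : ℂ) + bC p i) / dC p i := by
  have hp0 : p ≠ 0 := hp.out.ne_zero
  cases i with
  | none =>
    rw [glBeta_none, ModularForm.coe_heckeDiagMatrix_smul hp0]
    simp [aC, bC, dC]
  | some j =>
    rw [glBeta_some, ModularForm.coe_heckeMatrix_smul hp0]
    simp [aC, bC, dC]

theorem heckeT_two_apply (g : ℍ → ℂ) (τ : ℍ) :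
    ModularForm.heckeT 2 p g τ = ∑ i : Option (ZMod p), aC p i / dC p i * g (glBeta p i • τ) := by
  have hp0 : p ≠ 0 := hp.out.ne_zero
  rw [heckeT_eq_sum, Finset.sum_apply]
  refine Finset.sum_congr rfl fun i _ => ?_
  cases i with
  | none =>
    rw [glBeta_none, ModularForm.slash_heckeDiagMatrix_apply 2 hp0]
    simp [aC, dC]
  | some j =>
    rw [glBeta_some, ModularForm.slash_heckeMatrix_apply 2 hp0]
    simp [aC, dC]

variable {N : ℕ} [NeZero N]

/-- **(J3b, E)** The period map intertwines `T_p` with the double-coset operator. -/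
theorem periodMap_heckeTLin (hpN : ¬ p ∣ N) (f : CuspForm (Gamma0 N) 2) :
    periodMap N (CuspForm.heckeTLin 2 hp.out hpN f) = tdcAdd hpN (periodMap N f) := by
  refine AddMonoidHom.ext fun γ' => ?_
  obtain ⟨γ, rfl⟩ := Additive.ofMul.surjective γ'
  rw [tdcAdd_apply]
  exact periodMap_heckeT_apply hp.out hpN f γ (fun i τ => glBeta p i • τ) (aC p) (bC p) (dC p)
    (fun i τ => coe_glBeta_smul i τ) (fun τ => heckeT_two_apply (⇑f) τ) (permG γ)
    (fun i => cocG hpN γ i) (fun i z => glBeta_smul_smul_G hpN γ i z)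

omit [NeZero N] in
theorem tdcAdd_sub (hpN : ¬ p ∣ N) {A : Type*} [AddCommGroup A] (φ ψ : Additive (Gamma0 N) →+ A) :
    tdcAdd hpN (φ - ψ) = tdcAdd hpN φ - tdcAdd hpN ψ := by
  rw [eq_sub_iff_add_eq, ← tdcAdd_add, sub_add_cancel]

/-- **(J3b, E2)** The pair period map `periodHomPair` intertwines `T_p × T_p` with the double-coset
operator, as soon as the latter commutes with the involution `charInvolution` (helper27's (DC6)). -/
theorem periodHomPair_heckeTLin (hpN : ¬ p ∣ N)
    (hJ : ∀ φ : Additive (Gamma0 N) →+ ℂ,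
      tdcAdd hpN (charInvolution N ℂ ℂ φ) = charInvolution N ℂ ℂ (tdcAdd hpN φ))
    (f g : CuspForm (Gamma0 N) 2) :
    periodHomPair N (CuspForm.heckeTLin 2 hp.out hpN f, CuspForm.heckeTLin 2 hp.out hpN g)
      = tdcAdd hpN (periodHomPair N (f, g)) := by
  rw [Fermat.Agent.S21.Primitive.periodHomPair_apply, Fermat.Agent.S21.Primitive.periodHomPair_apply,
    periodMap_heckeTLin, periodMap_heckeTLin, tdcAdd_add, tdcAdd_add, tdcAdd_sub, hJ, hJ]

end Fermat.Agent.ES.HEQ.PeriodHeckeDC1
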