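/-
Program J (S30), chapter J3b (helper26): **FAITH, unconditional**.

`dcData N : DCData N` is built from helper27's double coset operators (`DoubleCoset27`,
`DoubleCosetPar27`), helper1's Hecke equivariance of the period map (`PeriodHeckeDC1`) and helper11's
lattice (`ParLattice11`).  Consequently, for `S ⊇ primes of N`:

* `heckeLam S hS : ↥(heckeAlgebra N 2 S) →ₐ[ℤ] Module.End ℤ ↥(Lam N)` — the action of the anemic Hecke
  algebra on `Λ = parabolicHoms ℤ Γ₀(N) ℤ`;
* `heckeLam_injective` (**FAITH**);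
* `heckeLam_T` : `T_l ↦ tdcPar hlN ℤ ℤ` (the double coset operator), `coe_heckeLam_T_apply`
  (`(T_l φ) γ = ∑ i, φ (coc γ i)`);
* `heckeLam_period` (the characterisation through the period map);
* `Lam N` is a finite free `ℤ`-module (`ParLattice11`), so `heckeAlgebra N 2 S` is a finite free
  `ℤ`-module (`heckeAlgebra_finite`, `heckeAlgebra_free`);
* `dcAlgebra S` := the subalgebra of `End_ℤ Λ` generated by the double coset operators `T_l`, `l ∤ N`,
  `l ∉ S`; `range_heckeLam`, `tsEquiv S hS : ↥(heckeAlgebra N 2 S) ≃ₐ[ℤ] ↥(dcAlgebra N S)`, `tsEquiv_T`;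
* (FAITH + J4) `exists_eigenvector S hS χ` : every character `χ : heckeAlgebra N 2 S →+* K`
  (`K` a field of characteristic `0`) has a nonzero eigenvector in `K ⊗[ℤ] Λ`.
-/
import Mathlib
import Fermat.Agent.ES.HEQ.FaithInst26
import Fermat.Agent.ES.HEQ.DoubleCosetPar27
import Fermat.Agent.ES.HEQ.PeriodHeckeDC1
import Fermat.Agent.ES.HEQ.ParLattice11
import Fermat.Agent.ES.GAL.EigenExists10

set_option autoImplicit false
set_option linter.unusedSectionVars false

noncomputable section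

namespace Fermat.Agent.ES.HEQ.FaithFinal26

open ModularCurve ModularCurve.Period CongruenceSubgroup CuspForm
open Fermat.Agent.ES.HEQ.Faith26 Fermat.Agent.ES.HEQ.FaithInst26
open Fermat.Agent.ES.HEQ.DoubleCoset27 Fermat.Agent.ES.HEQ.DoubleCosetPar27
open Fermat.Agent.ES.HEQ.PeriodHeckeDC1 Fermat.Agent.ES.HEQ.ParLattice11

variable (N : ℕ) [NeZero N]

/-- the double coset operator of `T_l` on `Hom(Γ₀(N), ℂ)`, as a `ℂ`-linear map. -/
def dcC (l : ℕ) (hl : l.Prime) (hlN : ¬ l ∣ N) : Module.End ℂ (Additive (Gamma0 N) →+ ℂ) :=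
  haveI : Fact l.Prime := ⟨hl⟩
  { toFun := tdcAdd hlN
    map_add' := tdcAdd_add hlN
    map_smul' := fun c φ => by
      ext γ
      simp [tdcAdd, Finset.mul_sum, mul_add] }

theorem dcC_apply (l : ℕ) (hl : l.Prime) (hlN : ¬ l ∣ N) (φ : Additive (Gamma0 N) →+ ℂ) :
    dcC N l hl hlN φ = (haveI : Fact l.Prime := ⟨hl⟩; tdcAdd hlN φ) := rfl

/-- the double coset operator of `T_l` on the lattice `Λ`. -/
def dcZ (l : ℕ) (hl : l.Prime) (hlN : ¬ l ∣ N) : Module.End ℤ ↥(Lam N) :=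
  haveI : Fact l.Prime := ⟨hl⟩
  tdcPar hlN ℤ ℤ

theorem dcZ_eq (l : ℕ) [Fact l.Prime] (hl : l.Prime) (hlN : ¬ l ∣ N) :
    dcZ N l hl hlN = tdcPar hlN ℤ ℤ := rfl

theorem castParC_eq_castPar : castParC N = castPar (Gamma0 N) ℂ := by
  apply LinearMap.ext
  intro φ
  apply Subtype.ext
  rfl

/-- **the double coset data**. -/
def dcData : DCData N where
  dC := dcC N
  dZ := dcZ N
  comm_inv := fun l hl hlN φ => by
    have : Fact l.Prime := ⟨hl⟩
    exact tdcAdd_charInvolution hlN ℂ φ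
  period := fun l hl hlN f => by
    have : Fact l.Prime := ⟨hl⟩
    exact periodMap_heckeTLin hlN f
  cast := fun l hl hlN φ => by
    have : Fact l.Prime := ⟨hl⟩
    exact (tdcAdd_comp hlN (Int.castAddHom ℂ) (φ : Additive (Gamma0 N) →+ ℤ)).symm
  span := by
    rw [castParC_eq_castPar]
    exact span_range_castPar_complex N

variable {N}
variable (S : Set ℕ) (hS : ∀ q : ℕ, q.Prime → q ∣ N → q ∈ S)

/-- **The action of the anemic Hecke algebra on the lattice `Λ = parabolicHoms ℤ Γ₀(N) ℤ`.** -/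
def heckeLam : ↥(heckeAlgebra N 2 S) →ₐ[ℤ] Module.End ℤ ↥(Lam N) :=
  heckeLatticeHom (dcData N) S hS

/-- **FAITH**: the anemic Hecke algebra acts faithfully on `Λ`. -/
theorem heckeLam_injective : Function.Injective (heckeLam S hS) :=
  heckeLatticeHom_injective (dcData N) S hS

/-- `T_l` acts on `Λ` as the double coset operator `tdcPar`. -/
theorem heckeLam_T (l : ℕ) [Fact l.Prime] (hl : l.Prime) (hlN : ¬ l ∣ N) (hlS : l ∉ S) :
    heckeLam S hS (heckeAlgebra.T hl hlN hlS) = tdcPar hlN ℤ ℤ :=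
  heckeLatticeHom_T (dcData N) S hS l hl hlN hlS

/-- `(T_l φ) γ = ∑ i, φ (coc γ i)`. -/
theorem coe_heckeLam_T_apply (l : ℕ) [Fact l.Prime] (hl : l.Prime) (hlN : ¬ l ∣ N) (hlS : l ∉ S)
    (φ : ↥(Lam N)) (γ : Gamma0 N) :
    ((heckeLam S hS (heckeAlgebra.T hl hlN hlS) φ : ↥(Lam N)) : Additive (Gamma0 N) →+ ℤ)
        (Additive.ofMul γ) =
      ∑ i : Option (ZMod l), (φ : Additive (Gamma0 N) →+ ℤ) (Additive.ofMul (cocG hlN γ i)) := by
  rw [heckeLam_T S hS l hl hlN hlS, coe_tdcPar, tdcAdd_apply]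

/-- the characterisation of the action through the period map: if `(f, g) ↦ φ ⊗ 1` then
`(x f, x g) ↦ (x φ) ⊗ 1`. -/
theorem heckeLam_period (x : ↥(heckeAlgebra N 2 S)) (φ : ↥(Lam N))
    (f g : CuspForm (Gamma0 N) 2)
    (h : periodHomPair N (f, g) = ((castParC N φ : ↥(ParC N)) : Additive (Gamma0 N) →+ ℂ)) :
    ((castParC N (heckeLam S hS x φ) : ↥(ParC N)) : Additive (Gamma0 N) →+ ℂ) =
      periodHomPair N ((x : Module.End ℂ (CuspForm (Gamma0 N) 2)) f,
        (x : Module.End ℂ (CuspForm (Gamma0 N) 2)) g) :=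
  castParC_heckeLatticeHom (dcData N) S hS x φ f g h

include hS in
/-- the anemic Hecke algebra is a finite `ℤ`-module. -/
theorem heckeAlgebra_finite : Module.Finite ℤ ↥(heckeAlgebra N 2 S) := by
  have : Module.Finite ℤ (Module.End ℤ ↥(Lam N)) := Module.Finite.linearMap ℤ ℤ _ _
  exact Module.Finite.of_injective (heckeLam S hS).toLinearMap (heckeLam_injective S hS)

include hS in
/-- the anemic Hecke algebra is a free `ℤ`-module. -/
theorem heckeAlgebra_free : Module.Free ℤ ↥(heckeAlgebra N 2 S) := by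
  have := heckeAlgebra_finite (N := N) S hS
  have : Module.Free ℤ (Module.End ℤ ↥(Lam N)) := Module.Free.linearMap ℤ ℤ _ _
  have : Module.IsTorsionFree ℤ ↥(heckeAlgebra N 2 S) :=
    (heckeLam_injective S hS).moduleIsTorsionFree (heckeLam S hS)
      (fun c x => map_smul (heckeLam S hS) c x)
  infer_instance

/-! ### the image: the algebra of double coset operators -/

variable (N) in
/-- the double coset operators `T_l`, `l ∤ N`, `l ∉ S`, on `Λ`. -/
def dcGenerators : Set (Module.End ℤ ↥(Lam N)) :=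
  {t | ∃ (l : ℕ) (hl : l.Prime) (hlN : ¬ l ∣ N), l ∉ S ∧ t = dcZ N l hl hlN}

variable (N) in
/-- the algebra `𝕋_S ⊆ End_ℤ Λ` generated by the double coset operators. -/
def dcAlgebra : Subalgebra ℤ (Module.End ℤ ↥(Lam N)) := Algebra.adjoin ℤ (dcGenerators N S)

include hS in
theorem heckeGenerators_eq :
    heckeGenerators N 2 S =
      {T | ∃ (l : ℕ) (hl : l.Prime) (hlN : ¬ l ∣ N), l ∉ S ∧ T = heckeTLin 2 hl hlN} := by
  ext T
  constructor
  · rintro (h | ⟨q, hqN, hq, hqS, rfl⟩)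
    · exact h
    · exact absurd (hS q hq hqN) hqS
  · intro h
    exact Or.inl h

theorem heckeLam_T' (l : ℕ) (hl : l.Prime) (hlN : ¬ l ∣ N) (hlS : l ∉ S) :
    heckeLam S hS (heckeAlgebra.T hl hlN hlS) = dcZ N l hl hlN :=
  heckeLatticeHom_T (dcData N) S hS l hl hlN hlS

/-- the image of the Hecke algebra is the algebra of double coset operators. -/
theorem range_heckeLam : (heckeLam S hS).range = dcAlgebra N S := by
  have h1 : (⊤ : Subalgebra ℤ ↥(heckeAlgebra N 2 S)) =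
      Algebra.adjoin ℤ ((↑) ⁻¹' (heckeGenerators N 2 S) :
        Set ↥(heckeAlgebra N 2 S)) := by
    have := Algebra.adjoin_adjoin_coe_preimage (R := ℤ) (s := heckeGenerators N 2 S)
    exact this.symm
  rw [← Algebra.map_top, h1, AlgHom.map_adjoin]
  unfold dcAlgebra
  congr 1
  ext t
  constructor
  · rintro ⟨x, hx, rfl⟩
    have hx' : (x : Module.End ℂ (CuspForm (Gamma0 N) 2)) ∈ heckeGenerators N 2 S := hx
    rw [heckeGenerators_eq S hS] at hx'
    obtain ⟨l, hl, hlN, hlS, hxl⟩ := hx'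
    refine ⟨l, hl, hlN, hlS, ?_⟩
    have : x = heckeAlgebra.T hl hlN hlS := Subtype.ext hxl
    rw [this]
    exact heckeLam_T' S hS l hl hlN hlS
  · rintro ⟨l, hl, hlN, hlS, rfl⟩
    refine ⟨heckeAlgebra.T hl hlN hlS, ?_, heckeLam_T' S hS l hl hlN hlS⟩
    show ((heckeAlgebra.T hl hlN hlS : ↥(heckeAlgebra N 2 S)) :
      Module.End ℂ (CuspForm (Gamma0 N) 2)) ∈ heckeGenerators N 2 S
    exact heckeTLin_mem_heckeGenerators hl hlN hlS

/-- **`T_S ≃ 𝕋_S`**: the anemic Hecke algebra is the algebra of double coset operators on `Λ`. -/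
def tsEquiv : ↥(heckeAlgebra N 2 S) ≃ₐ[ℤ] ↥(dcAlgebra N S) :=
  (AlgEquiv.ofInjective (heckeLam S hS) (heckeLam_injective S hS)).trans
    (Subalgebra.equivOfEq _ _ (range_heckeLam S hS))

theorem coe_tsEquiv (x : ↥(heckeAlgebra N 2 S)) :
    ((tsEquiv S hS x : ↥(dcAlgebra N S)) : Module.End ℤ ↥(Lam N)) = heckeLam S hS x := rfl

theorem tsEquiv_T (l : ℕ) (hl : l.Prime) (hlN : ¬ l ∣ N) (hlS : l ∉ S) :
    ((tsEquiv S hS (heckeAlgebra.T hl hlN hlS) : ↥(dcAlgebra N S)) : Module.End ℤ ↥(Lam N)) =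
      dcZ N l hl hlN := by
  rw [coe_tsEquiv, heckeLam_T']

/-! ### FAITH + J4: eigenvectors -/

open TensorProduct in
/-- **every character of the anemic Hecke algebra with values in a field of characteristic zero has a
nonzero eigenvector in `K ⊗ Λ`.** -/
theorem exists_eigenvector {K : Type*} [Field K] [CharZero K] (χ : ↥(heckeAlgebra N 2 S) →+* K) :
    ∃ v : K ⊗[ℤ] ↥(Lam N), v ≠ 0 ∧
      ∀ x : ↥(heckeAlgebra N 2 S), (heckeLam S hS x).baseChange K v = χ x • v :=
  Fermat.Agent.ES.GAL.EigenExists10.exists_eigenvector_baseChange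
    ((heckeLam S hS : ↥(heckeAlgebra N 2 S) →ₐ[ℤ] Module.End ℤ ↥(Lam N)) :
      ↥(heckeAlgebra N 2 S) →+* Module.End ℤ ↥(Lam N))
    (heckeLam_injective S hS) χ

end Fermat.Agent.ES.HEQ.FaithFinal26
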