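/-
Program J, chapter J3a (helper19): precomposition with elements of `GL(2, ℝ)` of positive
determinant on holomorphic / meromorphic functions on `ℍ`, and the double coset relation
`(h ∘ β_i) ∘ γ = (h ∘ coc γ i) ∘ β_{perm γ i}` in `MerH`.
-/
import Fermat.Agent.ES.KUM.CReal5
import Fermat.Agent.ES.HEQ.DoubleCoset27

set_option autoImplicit false
set_option linter.style.haveILetI false

open UpperHalfPlane hiding I
open scoped Manifold MatrixGroups

noncomputable section

namespace Fermat.Agent.ES.HEQ.BetaMer19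

open Fermat.Agent.X0 Fermat.Agent.X0.SurjPoint Fermat.Agent.ES.KUM
open Fermat.Agent.ES.HEQ.DoubleCoset27

/-! ### `GL(2, ℝ)⁺` acting on `HolH` -/

/-- precomposition with `g ∈ GL(2, ℝ)`, `det g > 0`, on holomorphic functions. -/
def glHom (g : GL (Fin 2) ℝ) (hg : 0 < g.det.val) : HolH →+* HolH where
  toFun f := ⟨fun z => f.1 (g • z), MDifferentiable.comp (g := f.1) f.2 (mdifferentiable_smul hg)⟩
  map_one' := rfl
  map_mul' _ _ := rfl
  map_zero' := rfl
  map_add' _ _ := rfl

@[simp] theorem coe_glHom (g : GL (Fin 2) ℝ) (hg : 0 < g.det.val) (f : HolH) (z : ℍ) :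
    ((glHom g hg f : HolH) : ℍ → ℂ) z = f.1 (g • z) := rfl

theorem det_inv_pos {g : GL (Fin 2) ℝ} (hg : 0 < g.det.val) : 0 < (g⁻¹).det.val := by
  rw [map_inv, Units.val_inv_eq_inv_val]
  exact inv_pos.mpr hg

theorem det_mul_pos {g h : GL (Fin 2) ℝ} (hg : 0 < g.det.val) (hh : 0 < h.det.val) :
    0 < (g * h).det.val := by
  rw [map_mul, Units.val_mul]
  exact mul_pos hg hh

theorem glHom_mul (g h : GL (Fin 2) ℝ) (hg : 0 < g.det.val) (hh : 0 < h.det.val) (f : HolH) :
    glHom (g * h) (det_mul_pos hg hh) f = glHom h hh (glHom g hg f) := by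
  apply Subtype.ext
  funext z
  show f.1 ((g * h) • z) = f.1 (g • (h • z))
  rw [mul_smul]

theorem glHom_injective (g : GL (Fin 2) ℝ) (hg : 0 < g.det.val) :
    Function.Injective (glHom g hg) := by
  intro f f' h
  apply Subtype.ext
  funext z
  have := congrFun (congrArg Subtype.val h) (g⁻¹ • z)
  simpa using this

theorem glHom_const (g : GL (Fin 2) ℝ) (hg : 0 < g.det.val) (c : ℂ) :
    glHom g hg (algebraMap ℂ HolH c) = algebraMap ℂ HolH c := rfl

theorem det_mapGL_pos (γ : SL(2, ℤ)) :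
    0 < (Matrix.SpecialLinearGroup.mapGL ℝ γ : GL (Fin 2) ℝ).det.val := by
  simp

theorem glHom_mapGL (γ : SL(2, ℤ)) (f : HolH) :
    glHom (Matrix.SpecialLinearGroup.mapGL ℝ γ) (det_mapGL_pos γ) f = compSLHom γ f := rfl

/-! ### `GL(2, ℝ)⁺` acting on `MerH` -/

/-- precomposition with `g` on meromorphic functions: `a / b ↦ (a ∘ g) / (b ∘ g)`. -/
def glMer (g : GL (Fin 2) ℝ) (hg : 0 < g.det.val) : MerH →+* MerH :=
  IsFractionRing.lift (A := HolH) (K := MerH)
    (g := (algebraMap HolH MerH).comp (glHom g hg))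
    ((IsFractionRing.injective HolH MerH).comp (glHom_injective g hg))

theorem glMer_algebraMap (g : GL (Fin 2) ℝ) (hg : 0 < g.det.val) (a : HolH) :
    glMer g hg (algebraMap HolH MerH a) = algebraMap HolH MerH (glHom g hg a) :=
  IsFractionRing.lift_algebraMap _ a

theorem glMer_div (g : GL (Fin 2) ℝ) (hg : 0 < g.det.val) (a b : HolH) :
    glMer g hg (algebraMap HolH MerH a / algebraMap HolH MerH b) =
      algebraMap HolH MerH (glHom g hg a) / algebraMap HolH MerH (glHom g hg b) := by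
  rw [map_div₀, glMer_algebraMap, glMer_algebraMap]

theorem glMer_mul (g h : GL (Fin 2) ℝ) (hg : 0 < g.det.val) (hh : 0 < h.det.val) (x : MerH) :
    glMer (g * h) (det_mul_pos hg hh) x = glMer h hh (glMer g hg x) := by
  obtain ⟨a, b, -, rfl⟩ := exists_div_MerH x
  rw [glMer_div, glMer_div, glMer_div, glHom_mul g h hg hh, glHom_mul g h hg hh]

theorem glMer_congr {g h : GL (Fin 2) ℝ} (e : g = h) (hg : 0 < g.det.val) (x : MerH) :
    glMer g hg x = glMer h (e ▸ hg) x := by
  subst e
  rfl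

theorem glMer_mapGL (γ : SL(2, ℤ)) (x : MerH) :
    glMer (Matrix.SpecialLinearGroup.mapGL ℝ γ) (det_mapGL_pos γ) x = slMer γ x := by
  obtain ⟨a, b, -, rfl⟩ := exists_div_MerH x
  rw [glMer_div, slMer_div, glHom_mapGL, glHom_mapGL]

theorem glMer_const (g : GL (Fin 2) ℝ) (hg : 0 < g.det.val) (c : ℂ) :
    glMer g hg (algebraMap HolH MerH (algebraMap ℂ HolH c)) =
      algebraMap HolH MerH (algebraMap ℂ HolH c) := by
  rw [glMer_algebraMap, glHom_const]

/-! ### The Hecke representatives -/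

variable {p : ℕ} [hp : Fact p.Prime]

theorem det_glBeta (i : Option (ZMod p)) : (glBeta p i).det.val = (p : ℝ) := by
  rw [Matrix.GeneralLinearGroup.val_det_apply, coe_glBeta]
  have h := congrArg (Int.cast : ℤ → ℝ) (det_beta p i)
  rw [Int.cast_natCast] at h
  rw [← h]
  exact ((Int.castRingHom ℝ).map_det (beta p i)).symm

theorem det_glBeta_pos (i : Option (ZMod p)) : 0 < (glBeta p i).det.val := by
  rw [det_glBeta]
  exact_mod_cast hp.out.pos

/-- `h ↦ h ∘ β_i` on meromorphic functions. -/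
def betaMer (p : ℕ) [Fact p.Prime] (i : Option (ZMod p)) : MerH →+* MerH :=
  glMer (glBeta p i) (det_glBeta_pos i)

theorem betaMer_const (i : Option (ZMod p)) (c : ℂ) :
    betaMer p i (algebraMap HolH MerH (algebraMap ℂ HolH c)) =
      algebraMap HolH MerH (algebraMap ℂ HolH c) :=
  glMer_const _ _ c

/-- **The double coset relation in `MerH`**: `(h ∘ β_i) ∘ γ = (h ∘ coc γ i) ∘ β_{perm γ i}`. -/
theorem slMer_betaMer (γ : SL(2, ℤ)) (i : Option (ZMod p)) (h : MerH) :
    slMer γ (betaMer p i h) = betaMer p (perm γ i) (slMer (coc γ i) h) := by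
  unfold betaMer
  rw [← glMer_mapGL γ, ← glMer_mapGL (coc γ i), ← glMer_mul, ← glMer_mul]
  exact glMer_congr (glBeta_mul γ i) _ h

end Fermat.Agent.ES.HEQ.BetaMer19
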