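/-
Program J, chapter J3b (helper1): **(FAITH), abstract algebra.**

`X` a `K`-vector space (`S₂(Γ)`), `V` a `K`-vector space (`Hom_par(Γ, ℂ)`), `Λ` an abelian group
(`Hom_par(Γ, ℤ)`) with an injective additive map `c : Λ → V` whose image spans `V`, and a `K`-linear
isomorphism `Ψ : X × X ≃ V` (`periodHomPair`).  Families `T i ∈ End_K X`, `D i ∈ End_ℤ Λ`,
`D' i ∈ End_K V` with `D' i ∘ c = c ∘ D i` and `Ψ ∘ (T i × T i) = D' i ∘ Ψ`.

Then a noncommutative polynomial in the `T i` vanishes iff the same polynomial in the `D i`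
vanishes, and the `ℤ`-subalgebras generated by the two families are isomorphic, `D i ↦ T i`.
-/
import Mathlib

set_option autoImplicit false

noncomputable section

namespace Fermat.Agent.ES.HEQ.FaithAbstract1

variable {ι K X V Λ : Type*} [Field K] [AddCommGroup X] [Module K X] [AddCommGroup V]
  [Module K V] [AddCommGroup Λ]
  (T : ι → Module.End K X) (D : ι → Module.End ℤ Λ) (D' : ι → Module.End K V)
  (c : Λ →+ V) (Ψ : (X × X) ≃ₗ[K] V)

/-- evaluation of noncommutative polynomials at the `T i`. -/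
def evX : FreeAlgebra ℤ ι →ₐ[ℤ] Module.End K X := FreeAlgebra.lift ℤ T

/-- evaluation at the `D i`. -/
def evL : FreeAlgebra ℤ ι →ₐ[ℤ] Module.End ℤ Λ := FreeAlgebra.lift ℤ D

/-- evaluation at the `D' i`. -/
def evV : FreeAlgebra ℤ ι →ₐ[ℤ] Module.End K V := FreeAlgebra.lift ℤ D'

@[simp] theorem evX_ι (i : ι) : evX T (FreeAlgebra.ι ℤ i) = T i := FreeAlgebra.lift_ι_apply _ _
@[simp] theorem evL_ι (i : ι) : evL D (FreeAlgebra.ι ℤ i) = D i := FreeAlgebra.lift_ι_apply _ _
@[simp] theorem evV_ι (i : ι) : evV D' (FreeAlgebra.ι ℤ i) = D' i := FreeAlgebra.lift_ι_apply _ _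

variable {T D D' c Ψ}

theorem evV_c (hD : ∀ i x, D' i (c x) = c (D i x)) (t : FreeAlgebra ℤ ι) (x : Λ) :
    evV D' t (c x) = c (evL D t x) := by
  induction t using FreeAlgebra.induction generalizing x with
  | grade0 r =>
    rw [AlgHom.commutes, AlgHom.commutes, Module.algebraMap_end_apply,
      Module.algebraMap_end_apply, map_zsmul]
  | grade1 i => rw [evV_ι, evL_ι, hD]
  | mul a b ha hb => rw [map_mul, map_mul, Module.End.mul_apply, Module.End.mul_apply, hb, ha]
  | add a b ha hb => rw [map_add, map_add, LinearMap.add_apply, LinearMap.add_apply, ha, hb, map_add]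

theorem Ψ_evX (hΨ : ∀ i x y, Ψ (T i x, T i y) = D' i (Ψ (x, y))) (t : FreeAlgebra ℤ ι)
    (x y : X) : Ψ (evX T t x, evX T t y) = evV D' t (Ψ (x, y)) := by
  induction t using FreeAlgebra.induction generalizing x y with
  | grade0 r =>
    rw [AlgHom.commutes, AlgHom.commutes, Module.algebraMap_end_apply,
      Module.algebraMap_end_apply, Module.algebraMap_end_apply, ← Prod.smul_mk, map_zsmul]
  | grade1 i => rw [evX_ι, evV_ι, hΨ]
  | mul a b ha hb =>
    rw [map_mul, map_mul, Module.End.mul_apply, Module.End.mul_apply, Module.End.mul_apply, ha, hb]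
  | add a b ha hb =>
    rw [map_add, map_add, LinearMap.add_apply, LinearMap.add_apply, LinearMap.add_apply,
      ← Prod.mk_add_mk, map_add, ha, hb]

/-- **(FAITH)**: a polynomial in the `T i` vanishes iff the polynomial in the `D i` vanishes. -/
theorem evX_eq_zero_iff (hc : Function.Injective c)
    (hspan : Submodule.span K (Set.range c) = ⊤)
    (hD : ∀ i x, D' i (c x) = c (D i x))
    (hΨ : ∀ i x y, Ψ (T i x, T i y) = D' i (Ψ (x, y))) (t : FreeAlgebra ℤ ι) :
    evX T t = 0 ↔ evL D t = 0 := by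
  have hV : evX T t = 0 ↔ evV D' t = 0 := by
    constructor
    · intro h
      apply LinearMap.ext
      intro v
      obtain ⟨⟨x, y⟩, rfl⟩ := Ψ.surjective v
      rw [← Ψ_evX hΨ, h, LinearMap.zero_apply, LinearMap.zero_apply]
      exact map_zero Ψ
    · intro h
      apply LinearMap.ext
      intro x
      have h1 := Ψ_evX hΨ t x 0
      rw [h, LinearMap.zero_apply] at h1
      have h2 := Ψ.injective (h1.trans (map_zero Ψ).symm)
      exact (Prod.ext_iff.mp h2).1
  rw [hV]
  constructor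
  · intro h
    apply LinearMap.ext
    intro x
    apply hc
    rw [← evV_c hD, h, LinearMap.zero_apply, LinearMap.zero_apply, map_zero]
  · intro h
    apply LinearMap.ext_on_range (v := fun x : Λ => c x)
    · exact hspan
    · intro x
      rw [evV_c hD, h, LinearMap.zero_apply, LinearMap.zero_apply, map_zero]

theorem range_evX : (evX T).range = Algebra.adjoin ℤ (Set.range T) := by
  rw [← Algebra.map_top, ← FreeAlgebra.adjoin_range_ι, AlgHom.map_adjoin, ← Set.range_comp]
  congr 2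
  funext i
  exact evX_ι T i

theorem range_evL : (evL D).range = Algebra.adjoin ℤ (Set.range D) := by
  rw [← Algebra.map_top, ← FreeAlgebra.adjoin_range_ι, AlgHom.map_adjoin, ← Set.range_comp]
  congr 2
  funext i
  exact evL_ι D i

/-- The isomorphism of the two Hecke algebras (as subalgebras of the endomorphism rings),
`D i ↦ T i`. -/
theorem exists_algEquiv (hc : Function.Injective c)
    (hspan : Submodule.span K (Set.range c) = ⊤)
    (hD : ∀ i x, D' i (c x) = c (D i x))
    (hΨ : ∀ i x y, Ψ (T i x, T i y) = D' i (Ψ (x, y))) :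
    ∃ θ : ↥(Algebra.adjoin ℤ (Set.range D)) ≃ₐ[ℤ] ↥(Algebra.adjoin ℤ (Set.range T)),
      ∀ i, θ ⟨D i, Algebra.subset_adjoin ⟨i, rfl⟩⟩ = ⟨T i, Algebra.subset_adjoin ⟨i, rfl⟩⟩ := by
  set rX := (evX T).rangeRestrict with hrX
  set rL := (evL D).rangeRestrict with hrL
  have hk : RingHom.ker rL = RingHom.ker rX := by
    ext t
    rw [RingHom.mem_ker, RingHom.mem_ker]
    have h1 : rL t = 0 ↔ evL D t = 0 :=
      ⟨fun h => congrArg Subtype.val h, fun h => Subtype.ext h⟩
    have h2 : rX t = 0 ↔ evX T t = 0 :=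
      ⟨fun h => congrArg Subtype.val h, fun h => Subtype.ext h⟩
    rw [h1, h2, evX_eq_zero_iff hc hspan hD hΨ]
  let θ₁ := Ideal.quotientKerAlgEquivOfSurjective (f := rX) (evX T).rangeRestrict_surjective
  let θ₂ := Ideal.quotientKerAlgEquivOfSurjective (f := rL) (evL D).rangeRestrict_surjective
  let θ₀ : ↥(evL D).range ≃ₐ[ℤ] ↥(evX T).range :=
    θ₂.symm.trans ((Ideal.quotientEquivAlgOfEq ℤ hk).trans θ₁)
  have hθ₀ : ∀ t, θ₀ (rL t) = rX t := by
    intro t
    show θ₁ ((Ideal.quotientEquivAlgOfEq ℤ hk) (θ₂.symm (rL t))) = rX t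
    have h1 : θ₂.symm (rL t) = Ideal.Quotient.mk _ t := by
      apply θ₂.injective
      rw [AlgEquiv.apply_symm_apply]
      exact (Ideal.quotientKerAlgEquivOfSurjective_mk _ t).symm
    rw [h1]
    have h2 : (Ideal.quotientEquivAlgOfEq ℤ hk) (Ideal.Quotient.mk _ t) =
        Ideal.Quotient.mk _ t := rfl
    rw [h2]
    exact Ideal.quotientKerAlgEquivOfSurjective_mk _ t
  let θ : ↥(Algebra.adjoin ℤ (Set.range D)) ≃ₐ[ℤ] ↥(Algebra.adjoin ℤ (Set.range T)) :=
    (Subalgebra.equivOfEq _ _ range_evL.symm).trans (θ₀.trans (Subalgebra.equivOfEq _ _ range_evX))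
  refine ⟨θ, fun i => ?_⟩
  apply Subtype.ext
  show ((θ₀ (Subalgebra.equivOfEq _ _ range_evL.symm
    ⟨D i, Algebra.subset_adjoin ⟨i, rfl⟩⟩) : ↥(evX T).range) : Module.End K X) = T i
  have h3 : Subalgebra.equivOfEq _ _ (range_evL (D := D)).symm
      ⟨D i, Algebra.subset_adjoin ⟨i, rfl⟩⟩ = rL (FreeAlgebra.ι ℤ i) := by
    apply Subtype.ext
    show D i = evL D (FreeAlgebra.ι ℤ i)
    rw [evL_ι]
  rw [h3, hθ₀]
  show evX T (FreeAlgebra.ι ℤ i) = T i
  rw [evX_ι]

end Fermat.Agent.ES.HEQ.FaithAbstract1
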