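/-
Program J, chapter J3a (analytic half), file 1: the precomposition action of `GL(2, ℝ)⁺` on
holomorphic and meromorphic functions on the upper half plane, extending `CReal5.slMer`, and the
operators `betaMer i` attached to the Hecke representatives `β_i` of `DoubleCoset27`.

Main results (namespace `Fermat.Agent.ES.HEQ.GlMer27`):
* `glMer g : MerH →+* MerH` for `g : GL(2, ℝ)⁺`, `glMer_mul`, `glMer_one`, `glMer_slPos` (`= slMer`);
* `betaMer i : MerH →+* MerH`, `slMer_betaMer : slMer γ (betaMer i h) = betaMer (perm γ i) (slMer (coc γ i) h)`;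
* `slMer_prod_betaMer` : if `slMer γ h = c(γ) h` for `γ ∈ Γ₀(N)` with `c = χ`, then
  `H := ∏ i, betaMer i h` satisfies `slMer γ H = (tdcMul χ γ) H`.
-/
import Fermat.Agent.ES.KUM.CReal5
import Fermat.Agent.ES.HEQ.DoubleCoset27

set_option autoImplicit false

open UpperHalfPlane CongruenceSubgroup
open scoped MatrixGroups Manifold
open Fermat.Agent.X0 Fermat.Agent.X0.SurjPoint Fermat.Agent.ES.KUM
open Fermat.Agent.ES.HEQ.DoubleCoset27

noncomputable section

namespace Fermat.Agent.ES.HEQ.GlMer27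

/-! ### Precomposition with `g ∈ GL(2, ℝ)⁺` on functions -/

/-- Precomposition with the action of `g ∈ GL(2, ℝ)`. -/
def compGL (f : ℍ → ℂ) (g : GL (Fin 2) ℝ) : ℍ → ℂ := fun z => f (g • z)

theorem compGL_apply (f : ℍ → ℂ) (g : GL (Fin 2) ℝ) (z : ℍ) : compGL f g z = f (g • z) := rfl

theorem compGL_mul (f : ℍ → ℂ) (g h : GL (Fin 2) ℝ) :
    compGL f (g * h) = compGL (compGL f g) h := by
  funext z
  simp only [compGL, mul_smul]

theorem compGL_one (f : ℍ → ℂ) : compGL f 1 = f := by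
  funext z
  simp only [compGL, one_smul]

theorem compGL_mapGL (f : ℍ → ℂ) (γ : SL(2, ℤ)) :
    compGL f (Matrix.SpecialLinearGroup.mapGL ℝ γ) = compSL f γ := rfl

theorem pos_det (g : GL(2, ℝ)⁺) : 0 < (g : GL (Fin 2) ℝ).det.val := g.2

theorem compGL_mem_HolH {f : ℍ → ℂ} (hf : f ∈ HolH) (g : GL(2, ℝ)⁺) :
    compGL f (g : GL (Fin 2) ℝ) ∈ HolH := by
  rw [mem_HolH] at hf ⊢
  exact hf.comp (mdifferentiable_smul (pos_det g))

/-- `compGL · g` as a ring homomorphism of `HolH`. -/
def compGLHom (g : GL(2, ℝ)⁺) : HolH →+* HolH where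
  toFun f := ⟨compGL f.1 g, compGL_mem_HolH f.2 g⟩
  map_one' := rfl
  map_mul' _ _ := rfl
  map_zero' := rfl
  map_add' _ _ := rfl

@[simp] theorem coe_compGLHom (g : GL(2, ℝ)⁺) (f : HolH) :
    ((compGLHom g f : HolH) : ℍ → ℂ) = compGL f.1 (g : GL (Fin 2) ℝ) := rfl

theorem compGLHom_mul (g h : GL(2, ℝ)⁺) (f : HolH) :
    compGLHom (g * h) f = compGLHom h (compGLHom g f) :=
  Subtype.ext (compGL_mul f.1 g h)

theorem compGLHom_one (f : HolH) : compGLHom 1 f = f :=
  Subtype.ext (compGL_one f.1)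

theorem compGLHom_cancel_inv (g : GL(2, ℝ)⁺) (f : HolH) :
    compGLHom g⁻¹ (compGLHom g f) = f := by
  rw [← compGLHom_mul, mul_inv_cancel, compGLHom_one]

theorem compGLHom_inv_cancel (g : GL(2, ℝ)⁺) (f : HolH) :
    compGLHom g (compGLHom g⁻¹ f) = f := by
  rw [← compGLHom_mul, inv_mul_cancel, compGLHom_one]

theorem compGLHom_injective (g : GL(2, ℝ)⁺) : Function.Injective (compGLHom g) := by
  intro f f' h
  rw [← compGLHom_cancel_inv g f, h, compGLHom_cancel_inv]

theorem compGLHom_const (g : GL(2, ℝ)⁺) (c : ℂ) :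
    compGLHom g (algebraMap ℂ HolH c) = algebraMap ℂ HolH c := rfl

/-! ### The action on meromorphic functions -/

/-- Precomposition with `g ∈ GL(2, ℝ)⁺` on the field of meromorphic functions on `ℍ`. -/
def glMer (g : GL(2, ℝ)⁺) : MerH →+* MerH :=
  IsFractionRing.lift (A := HolH) (K := MerH)
    (g := (algebraMap HolH MerH).comp (compGLHom g))
    ((IsFractionRing.injective HolH MerH).comp (compGLHom_injective g))

theorem glMer_algebraMap (g : GL(2, ℝ)⁺) (a : HolH) :
    glMer g (algebraMap HolH MerH a) = algebraMap HolH MerH (compGLHom g a) :=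
  IsFractionRing.lift_algebraMap _ a

theorem glMer_div (g : GL(2, ℝ)⁺) (a b : HolH) :
    glMer g (algebraMap HolH MerH a / algebraMap HolH MerH b) =
      algebraMap HolH MerH (compGLHom g a) / algebraMap HolH MerH (compGLHom g b) := by
  rw [map_div₀, glMer_algebraMap, glMer_algebraMap]

theorem glMer_mul (g h : GL(2, ℝ)⁺) (x : MerH) :
    glMer (g * h) x = glMer h (glMer g x) := by
  obtain ⟨a, b, -, rfl⟩ := exists_div_MerH x
  rw [glMer_div, glMer_div, glMer_div, compGLHom_mul, compGLHom_mul]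

theorem glMer_one (x : MerH) : glMer 1 x = x := by
  obtain ⟨a, b, -, rfl⟩ := exists_div_MerH x
  rw [glMer_div, compGLHom_one, compGLHom_one]

theorem glMer_cancel_inv (g : GL(2, ℝ)⁺) (x : MerH) : glMer g⁻¹ (glMer g x) = x := by
  rw [← glMer_mul, mul_inv_cancel, glMer_one]

theorem glMer_inv_cancel (g : GL(2, ℝ)⁺) (x : MerH) : glMer g (glMer g⁻¹ x) = x := by
  rw [← glMer_mul, inv_mul_cancel, glMer_one]

theorem glMer_injective (g : GL(2, ℝ)⁺) : Function.Injective (glMer g) :=
  (glMer g).injective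

/-- Constants are fixed. -/
theorem glMer_const (g : GL(2, ℝ)⁺) (c : ℂ) :
    glMer g (algebraMap HolH MerH (algebraMap ℂ HolH c)) =
      algebraMap HolH MerH (algebraMap ℂ HolH c) := by
  rw [glMer_algebraMap, compGLHom_const]

/-! ### `SL(2, ℤ)` inside `GL(2, ℝ)⁺` -/

/-- `SL(2, ℤ) → GL(2, ℝ)⁺`. -/
def slPos : SL(2, ℤ) →* GL(2, ℝ)⁺ where
  toFun γ := ⟨Matrix.SpecialLinearGroup.mapGL ℝ γ, by
    rw [Matrix.mem_glpos]
    simp⟩
  map_one' := Subtype.ext (map_one _)
  map_mul' γ δ := Subtype.ext (map_mul _ γ δ)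

@[simp] theorem coe_slPos (γ : SL(2, ℤ)) :
    ((slPos γ : GL(2, ℝ)⁺) : GL (Fin 2) ℝ) = Matrix.SpecialLinearGroup.mapGL ℝ γ := rfl

theorem compGLHom_slPos (γ : SL(2, ℤ)) (f : HolH) : compGLHom (slPos γ) f = compSLHom γ f := rfl

theorem glMer_slPos (γ : SL(2, ℤ)) (x : MerH) : glMer (slPos γ) x = slMer γ x := by
  obtain ⟨a, b, -, rfl⟩ := exists_div_MerH x
  rw [glMer_div, slMer_div, compGLHom_slPos, compGLHom_slPos]

/-! ### The Hecke representatives `β_i` -/

section Beta

variable {p : ℕ} [hp : Fact p.Prime]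

theorem det_glBeta (i : Option (ZMod p)) : ((glBeta p i).det : ℝ) = (p : ℝ) := by
  rw [Matrix.GeneralLinearGroup.val_det_apply, coe_glBeta]
  have h : ((beta p i).map (Int.cast : ℤ → ℝ)).det = (((beta p i).det : ℤ) : ℝ) := by
    rw [Int.cast_det]
  rw [h, det_beta]
  simp

/-- `β_i` as an element of `GL(2, ℝ)⁺`. -/
def betaPos (p : ℕ) [hp : Fact p.Prime] (i : Option (ZMod p)) : GL(2, ℝ)⁺ :=
  ⟨glBeta p i, by
    rw [Matrix.mem_glpos, det_glBeta]
    exact_mod_cast hp.out.pos⟩

@[simp] theorem coe_betaPos (i : Option (ZMod p)) :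
    ((betaPos p i : GL(2, ℝ)⁺) : GL (Fin 2) ℝ) = glBeta p i := rfl

/-- (DC2) in `GL(2, ℝ)⁺`. -/
theorem betaPos_mul (γ : SL(2, ℤ)) (i : Option (ZMod p)) :
    betaPos p i * slPos γ = slPos (coc γ i) * betaPos p (perm γ i) :=
  Subtype.ext (glBeta_mul γ i)

/-- Precomposition with `β_i` on meromorphic functions: `h ↦ h ∘ β_i`. -/
def betaMer (p : ℕ) [hp : Fact p.Prime] (i : Option (ZMod p)) : MerH →+* MerH :=
  glMer (betaPos p i)

theorem betaMer_algebraMap (i : Option (ZMod p)) (a : HolH) :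
    betaMer p i (algebraMap HolH MerH a) = algebraMap HolH MerH (compGLHom (betaPos p i) a) :=
  glMer_algebraMap _ a

theorem betaMer_const (i : Option (ZMod p)) (c : ℂ) :
    betaMer p i (algebraMap HolH MerH (algebraMap ℂ HolH c)) =
      algebraMap HolH MerH (algebraMap ℂ HolH c) :=
  glMer_const _ c

theorem betaMer_injective (i : Option (ZMod p)) : Function.Injective (betaMer p i) :=
  (betaMer p i).injective

/-- (DC2) on meromorphic functions: `(h ∘ β_i) ∘ γ = (h ∘ coc γ i) ∘ β_{perm γ i}`. -/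
theorem slMer_betaMer (γ : SL(2, ℤ)) (i : Option (ZMod p)) (h : MerH) :
    slMer γ (betaMer p i h) = betaMer p (perm γ i) (slMer (coc γ i) h) := by
  rw [← glMer_slPos, ← glMer_slPos, betaMer, betaMer, ← glMer_mul, ← glMer_mul, betaPos_mul]

/-- The Hecke transform of a meromorphic function: `H = ∏ i, h ∘ β_i`. -/
def heckeProd (p : ℕ) [hp : Fact p.Prime] (h : MerH) : MerH :=
  ∏ i : Option (ZMod p), betaMer p i h

theorem heckeProd_mul (h h' : MerH) : heckeProd p (h * h') = heckeProd p h * heckeProd p h' := by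
  simp only [heckeProd, map_mul, Finset.prod_mul_distrib]

theorem heckeProd_one : heckeProd p (1 : MerH) = 1 := by
  simp only [heckeProd, map_one, Finset.prod_const_one]

theorem heckeProd_pow (h : MerH) (n : ℕ) : heckeProd p (h ^ n) = heckeProd p h ^ n := by
  simp only [heckeProd, map_pow, Finset.prod_pow]

theorem heckeProd_ne_zero {h : MerH} (hh : h ≠ 0) : heckeProd p h ≠ 0 := by
  rw [heckeProd, Finset.prod_ne_zero_iff]
  intro i _
  exact (map_ne_zero_iff _ (betaMer_injective i)).mpr hh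

/-- constants of `MerH`. -/
abbrev constMer (c : ℂ) : MerH := algebraMap HolH MerH (algebraMap ℂ HolH c)

theorem constMer_mul (c d : ℂ) : constMer (c * d) = constMer c * constMer d := by
  simp only [constMer, map_mul]

theorem constMer_one : constMer 1 = 1 := by
  simp only [constMer, map_one]

theorem constMer_prod {ι : Type*} (s : Finset ι) (c : ι → ℂ) :
    constMer (∏ i ∈ s, c i) = ∏ i ∈ s, constMer (c i) := by
  simp only [constMer, map_prod]

theorem heckeProd_const (c : ℂ) : heckeProd p (constMer c) = constMer (c ^ (p + 1)) := by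
  simp only [heckeProd, betaMer_const, Finset.prod_const, Finset.card_univ, Fintype.card_option,
    ZMod.card]
  simp only [constMer, map_pow]

variable {N : ℕ} (hpN : ¬ p ∣ N)

/-- (A2) THE CHARACTER OF THE HECKE TRANSFORM.  If `h ∘ γ = χ(γ) h` for all `γ ∈ Γ₀(N)`, then
`H := ∏ i, h ∘ β_i` satisfies `H ∘ γ = (T^dc χ)(γ) H`. -/
theorem slMer_heckeProd (χ : Gamma0 N →* ℂˣ) (h : MerH)
    (hχ : ∀ γ : Gamma0 N, slMer (γ : SL(2, ℤ)) h = constMer (χ γ : ℂ) * h) (γ : Gamma0 N) :
    slMer (γ : SL(2, ℤ)) (heckeProd p h) = constMer (tdcMul hpN χ γ : ℂ) * heckeProd p h := by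
  have h1 : ∀ i : Option (ZMod p), slMer (γ : SL(2, ℤ)) (betaMer p i h)
      = constMer (χ (cocG hpN γ i) : ℂ) * betaMer p (permG γ i) h := by
    intro i
    rw [slMer_betaMer, permG_apply]
    have := hχ (cocG hpN γ i)
    rw [coe_cocG] at this
    rw [this, map_mul, betaMer_const]
  rw [heckeProd, map_prod]
  simp only [h1, Finset.prod_mul_distrib]
  rw [Equiv.prod_comp (permG γ) (fun i => betaMer p i h), tdcMul_apply, Units.coe_prod,
    constMer_prod]

end Beta

end Fermat.Agent.ES.HEQ.GlMer27
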