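/-
Program J, chapter J3a (Hecke equivariance of the Kummer map), analytic half, file (A) (helper28):
the right action of `GL(2, ℝ)⁺` on the field `MerH` of meromorphic functions on `ℍ`, extending
`CReal5.slMer`, and the transformation law of `∏ i, h ∘ β_i` (`β_i` the `l + 1` representatives of
`DoubleCoset27`) under `Γ₀(N)`.

* `compGLHom g : HolH →+* HolH`, `f ↦ f ∘ g`, for `g ∈ GL(2, ℝ)⁺`;
* `glMer g : MerH →+* MerH`, `a / b ↦ (a ∘ g) / (b ∘ g)`; `glMer (g * h) = glMer h ∘ glMer g`,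
  constants are fixed, `slMer γ = glMer (slPos γ)`;
* `betaPos p i : GL(2, ℝ)⁺` (the matrices `glBeta p i`), `betaPos_mul_slPos` (DC2);
* `heckeProd p h := ∏ i, glMer (betaPos p i) h` and (C): if `slMer γ h = c (χ γ) * h` for all
  `γ ∈ Γ₀(N)` then `slMer γ (heckeProd p h) = c (tdcMul χ γ) * heckeProd p h`.
-/
import Fermat.Agent.ES.KUM.CReal5
import Fermat.Agent.ES.HEQ.DoubleCoset27

set_option autoImplicit false
set_option linter.unusedSectionVars false

open UpperHalfPlane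
open scoped MatrixGroups Manifold

noncomputable section

namespace Fermat.Agent.ES.HEQ.GlMer28

open Fermat.Agent.X0 Fermat.Agent.X0.SurjPoint Fermat.Agent.ES.KUM
open Fermat.Agent.ES.HEQ.DoubleCoset27

/-! ### `GL(2, ℝ)⁺` acting on holomorphic functions -/

/-- Precomposition with `g ∈ GL(2, ℝ)`. -/
def compGL (f : ℍ → ℂ) (g : GL (Fin 2) ℝ) : ℍ → ℂ := fun z => f (g • z)

theorem compGL_apply (f : ℍ → ℂ) (g : GL (Fin 2) ℝ) (z : ℍ) : compGL f g z = f (g • z) := rfl

theorem compGL_mem_HolH {f : ℍ → ℂ} (hf : f ∈ HolH) {g : GL (Fin 2) ℝ}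
    (hg : 0 < (Matrix.GeneralLinearGroup.det g).val) : compGL f g ∈ HolH := by
  have h : MDifferentiable 𝓘(ℂ) 𝓘(ℂ) (fun τ : ℍ => g • τ) :=
    UpperHalfPlane.mdifferentiable_smul hg
  exact MDifferentiable.comp (g := f) hf h

theorem compGL_one (f : ℍ → ℂ) : compGL f 1 = f := by
  ext z; simp [compGL]

theorem compGL_mul (f : ℍ → ℂ) (g h : GL (Fin 2) ℝ) :
    compGL f (g * h) = compGL (compGL f g) h := by
  ext z; simp [compGL, mul_smul]

/-- `f ↦ f ∘ g` as a ring endomorphism of `HolH`, for `g ∈ GL(2, ℝ)⁺`. -/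
def compGLHom (g : GL(2, ℝ)⁺) : HolH →+* HolH where
  toFun f := ⟨compGL f.1 (g : GL (Fin 2) ℝ),
    compGL_mem_HolH f.2 ((Matrix.mem_glpos _).mp g.2)⟩
  map_one' := rfl
  map_mul' _ _ := rfl
  map_zero' := rfl
  map_add' _ _ := rfl

@[simp] theorem coe_compGLHom (g : GL(2, ℝ)⁺) (f : HolH) :
    ((compGLHom g f : HolH) : ℍ → ℂ) = compGL f.1 (g : GL (Fin 2) ℝ) := rfl

theorem compGLHom_apply (g : GL(2, ℝ)⁺) (f : HolH) (z : ℍ) :
    ((compGLHom g f : HolH) : ℍ → ℂ) z = (f : ℍ → ℂ) (g • z) := rfl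

theorem compGLHom_mul (g h : GL(2, ℝ)⁺) (f : HolH) :
    compGLHom (g * h) f = compGLHom h (compGLHom g f) :=
  Subtype.ext (compGL_mul f.1 g h)

theorem compGLHom_one (f : HolH) : compGLHom 1 f = f :=
  Subtype.ext (compGL_one f.1)

theorem compGLHom_cancel_inv (g : GL(2, ℝ)⁺) (f : HolH) :
    compGLHom g⁻¹ (compGLHom g f) = f := by
  rw [← compGLHom_mul, mul_inv_cancel, compGLHom_one]

theorem compGLHom_inv_cancel (g : GL(2, ℝ)⁺) (f : HolH) :
    compGLHom g (compGLHom g⁻¹ f) = f := by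
  rw [← compGLHom_mul, inv_mul_cancel, compGLHom_one]

theorem compGLHom_injective (g : GL(2, ℝ)⁺) : Function.Injective (compGLHom g) := by
  intro f f' h
  rw [← compGLHom_cancel_inv g f, h, compGLHom_cancel_inv]

theorem compGLHom_const (g : GL(2, ℝ)⁺) (c : ℂ) :
    compGLHom g (algebraMap ℂ HolH c) = algebraMap ℂ HolH c := rfl

/-! ### `GL(2, ℝ)⁺` acting on meromorphic functions -/

/-- Precomposition with `g ∈ GL(2, ℝ)⁺` on the field of meromorphic functions on `ℍ`: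
`a / b ↦ (a ∘ g) / (b ∘ g)`. -/
def glMer (g : GL(2, ℝ)⁺) : MerH →+* MerH :=
  IsFractionRing.lift (A := HolH) (K := MerH)
    (g := (algebraMap HolH MerH).comp (compGLHom g))
    ((IsFractionRing.injective HolH MerH).comp (compGLHom_injective g))

theorem glMer_algebraMap (g : GL(2, ℝ)⁺) (a : HolH) :
    glMer g (algebraMap HolH MerH a) = algebraMap HolH MerH (compGLHom g a) :=
  IsFractionRing.lift_algebraMap _ a

theorem glMer_div (g : GL(2, ℝ)⁺) (a b : HolH) :
    glMer g (algebraMap HolH MerH a / algebraMap HolH MerH b) =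
      algebraMap HolH MerH (compGLHom g a) / algebraMap HolH MerH (compGLHom g b) := by
  rw [map_div₀, glMer_algebraMap, glMer_algebraMap]

theorem glMer_mul (g h : GL(2, ℝ)⁺) (x : MerH) :
    glMer (g * h) x = glMer h (glMer g x) := by
  obtain ⟨a, b, -, rfl⟩ := exists_div_MerH x
  rw [glMer_div, glMer_div, glMer_div, compGLHom_mul, compGLHom_mul]

theorem glMer_one (x : MerH) : glMer 1 x = x := by
  obtain ⟨a, b, -, rfl⟩ := exists_div_MerH x
  rw [glMer_div, compGLHom_one, compGLHom_one]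

theorem glMer_cancel_inv (g : GL(2, ℝ)⁺) (x : MerH) : glMer g⁻¹ (glMer g x) = x := by
  rw [← glMer_mul, mul_inv_cancel, glMer_one]

theorem glMer_inv_cancel (g : GL(2, ℝ)⁺) (x : MerH) : glMer g (glMer g⁻¹ x) = x := by
  rw [← glMer_mul, inv_mul_cancel, glMer_one]

/-- Constants are fixed. -/
theorem glMer_const (g : GL(2, ℝ)⁺) (c : ℂ) :
    glMer g (algebraMap HolH MerH (algebraMap ℂ HolH c)) =
      algebraMap HolH MerH (algebraMap ℂ HolH c) := by
  rw [glMer_algebraMap, compGLHom_const]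

/-! ### `SL(2, ℤ)` inside `GL(2, ℝ)⁺` -/

/-- `SL(2, ℤ) → GL(2, ℝ)⁺`. -/
def slPos : SL(2, ℤ) →* GL(2, ℝ)⁺ where
  toFun γ := ⟨Matrix.SpecialLinearGroup.mapGL ℝ γ, by
    rw [Matrix.mem_glpos, Matrix.SpecialLinearGroup.det_mapGL]
    simp⟩
  map_one' := Subtype.ext (map_one _)
  map_mul' γ δ := Subtype.ext (map_mul _ γ δ)

@[simp] theorem coe_slPos (γ : SL(2, ℤ)) :
    ((slPos γ : GL(2, ℝ)⁺) : GL (Fin 2) ℝ) = Matrix.SpecialLinearGroup.mapGL ℝ γ := rfl

theorem slPos_smul (γ : SL(2, ℤ)) (z : ℍ) : slPos γ • z = γ • z := rfl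

theorem compGLHom_slPos (γ : SL(2, ℤ)) (f : HolH) : compGLHom (slPos γ) f = compSLHom γ f := rfl

/-- `slMer` is the restriction of `glMer` to `SL(2, ℤ)`. -/
theorem slMer_eq_glMer (γ : SL(2, ℤ)) (x : MerH) : slMer γ x = glMer (slPos γ) x := by
  obtain ⟨a, b, -, rfl⟩ := exists_div_MerH x
  rw [slMer_div, glMer_div, compGLHom_slPos, compGLHom_slPos]

/-! ### The representatives `β_i` inside `GL(2, ℝ)⁺` -/

section Beta

variable {p : ℕ} [hp : Fact p.Prime]

theorem det_glBeta_pos (i : Option (ZMod p)) :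
    0 < (Matrix.GeneralLinearGroup.det (glBeta p i)).val := by
  have h : (Matrix.GeneralLinearGroup.det (glBeta p i)).val
      = ((glBeta p i : GL (Fin 2) ℝ) : Matrix (Fin 2) (Fin 2) ℝ).det := rfl
  rw [h, coe_glBeta]
  have h2 : ((beta p i).map (Int.cast : ℤ → ℝ)).det = (((beta p i).det : ℤ) : ℝ) := by
    rw [Matrix.det_fin_two, Matrix.det_fin_two]
    simp
  rw [h2, det_beta]
  have : 0 < p := hp.out.pos
  exact_mod_cast this

/-- The representatives `β_i` as elements of `GL(2, ℝ)⁺`. -/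
def betaPos (p : ℕ) [Fact p.Prime] (i : Option (ZMod p)) : GL(2, ℝ)⁺ :=
  ⟨glBeta p i, (Matrix.mem_glpos _).mpr (det_glBeta_pos i)⟩

@[simp] theorem coe_betaPos (i : Option (ZMod p)) :
    ((betaPos p i : GL(2, ℝ)⁺) : GL (Fin 2) ℝ) = glBeta p i := rfl

theorem betaPos_smul (i : Option (ZMod p)) (z : ℍ) : betaPos p i • z = glBeta p i • z := rfl

/-- (DC2) in `GL(2, ℝ)⁺`: `β_i γ = coc γ i · β_{perm γ i}`. -/
theorem betaPos_mul_slPos (γ : SL(2, ℤ)) (i : Option (ZMod p)) :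
    betaPos p i * slPos γ = slPos (coc γ i) * betaPos p (perm γ i) :=
  Subtype.ext (glBeta_mul γ i)

/-- `(h ∘ β_i) ∘ γ = (h ∘ coc γ i) ∘ β_{perm γ i}`. -/
theorem slMer_glMer_betaPos (γ : SL(2, ℤ)) (i : Option (ZMod p)) (x : MerH) :
    slMer γ (glMer (betaPos p i) x) = glMer (betaPos p (perm γ i)) (slMer (coc γ i) x) := by
  rw [slMer_eq_glMer, ← glMer_mul, betaPos_mul_slPos, glMer_mul, ← slMer_eq_glMer]

/-- The product `∏ i, h ∘ β_i` over the `p + 1` representatives. -/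
def heckeProd (p : ℕ) [Fact p.Prime] (x : MerH) : MerH := ∏ i : Option (ZMod p), glMer (betaPos p i) x

theorem heckeProd_mul (x y : MerH) : heckeProd p (x * y) = heckeProd p x * heckeProd p y := by
  simp only [heckeProd, map_mul, Finset.prod_mul_distrib]

theorem heckeProd_one : heckeProd p (1 : MerH) = 1 := by
  simp only [heckeProd, map_one, Finset.prod_const_one]

theorem heckeProd_pow (x : MerH) (n : ℕ) : heckeProd p (x ^ n) = heckeProd p x ^ n := by
  simp only [heckeProd, map_pow, Finset.prod_pow]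

theorem heckeProd_inv (x : MerH) : heckeProd p x⁻¹ = (heckeProd p x)⁻¹ := by
  simp only [heckeProd, map_inv₀, Finset.prod_inv_distrib]

theorem heckeProd_ne_zero {x : MerH} (hx : x ≠ 0) : heckeProd p x ≠ 0 := by
  rw [heckeProd, Finset.prod_ne_zero_iff]
  intro i _
  exact (map_ne_zero _).mpr hx

theorem heckeProd_const (c : ℂ) :
    heckeProd p (algebraMap HolH MerH (algebraMap ℂ HolH c)) =
      algebraMap HolH MerH (algebraMap ℂ HolH (c ^ (p + 1))) := by
  simp only [heckeProd, glMer_const, Finset.prod_const, Finset.card_univ, Fintype.card_option,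
    ZMod.card, map_pow]

/-- **(C)** the transformation law of `heckeProd`: if `h ∘ γ = χ(γ) h` for `γ ∈ Γ₀(N)` with a
character `χ`, then `(∏ i, h ∘ β_i) ∘ γ = (tdcMul χ)(γ) ∏ i, h ∘ β_i`. -/
theorem slMer_heckeProd {N : ℕ} (hpN : ¬ p ∣ N) (χ : CongruenceSubgroup.Gamma0 N →* ℂˣ)
    (x : MerH)
    (hx : ∀ γ : CongruenceSubgroup.Gamma0 N, slMer (γ : SL(2, ℤ)) x =
      algebraMap HolH MerH (algebraMap ℂ HolH ((χ γ : ℂˣ) : ℂ)) * x)
    (γ : CongruenceSubgroup.Gamma0 N) :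
    slMer (γ : SL(2, ℤ)) (heckeProd p x) =
      algebraMap HolH MerH (algebraMap ℂ HolH ((tdcMul hpN χ γ : ℂˣ) : ℂ)) * heckeProd p x := by
  classical
  rw [heckeProd, map_prod]
  have h1 : ∀ i : Option (ZMod p), slMer (γ : SL(2, ℤ)) (glMer (betaPos p i) x) =
      algebraMap HolH MerH (algebraMap ℂ HolH ((χ (cocG hpN γ i) : ℂˣ) : ℂ)) *
        glMer (betaPos p (permG γ i)) x := by
    intro i
    rw [slMer_glMer_betaPos]
    have := hx (cocG hpN γ i)
    have hc : ((cocG hpN γ i : CongruenceSubgroup.Gamma0 N) : SL(2, ℤ)) = coc (γ : SL(2, ℤ)) i := rfl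
    rw [hc] at this
    rw [this, map_mul, glMer_const]
    rfl
  simp only [h1, Finset.prod_mul_distrib]
  congr 1
  · rw [tdcMul_apply, Units.coe_prod, map_prod, map_prod]
  · exact Equiv.prod_comp (permG γ) (fun i => glMer (betaPos p i) x)

end Beta

end Fermat.Agent.ES.HEQ.GlMer28
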