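/-
Program J, chapter J3a (helper19): the norm as a product over a complete family of embeddings.

`norm_eq_prod_of_embeddings`: let `E/F` be a finite separable field extension, `M` a field,
`ιF : F →+* M`, and `σ : I → (E →+* M)` an injective family of ring homomorphisms extending `ιF`
with `card I = [E : F]`.  Then `ιF (N_{E/F} x) = ∏ i, σ i x`.
-/
import Mathlib

set_option autoImplicit false
set_option linter.style.haveILetI false

namespace Fermat.Agent.ES.HEQ.NormEmb19

open scoped BigOperators

variable {F E M : Type*} [Field F] [Field E] [Field M] [Algebra F E]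
  [FiniteDimensional F E] [Algebra.IsSeparable F E] {I : Type*} [Fintype I]

/-- **Norm as a product over a complete family of embeddings.** -/
theorem norm_eq_prod_of_embeddings (ιF : F →+* M) (σ : I → (E →+* M))
    (hσ : ∀ (i : I) (x : F), σ i (algebraMap F E x) = ιF x)
    (hinj : Function.Injective σ) (hcard : Fintype.card I = Module.finrank F E) (x : E) :
    ιF (Algebra.norm F x) = ∏ i, σ i x := by
  classical
  let Ω := AlgebraicClosure M
  letI algFΩ : Algebra F Ω := ((algebraMap M Ω).comp ιF).toAlgebra
  let emb : I → (E →ₐ[F] Ω) := fun i =>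
    { ((algebraMap M Ω).comp (σ i)) with
      commutes' := fun a => by
        show algebraMap M Ω (σ i (algebraMap F E a)) = algebraMap M Ω (ιF a)
        rw [hσ] }
  have emb_apply : ∀ (i : I) (y : E), emb i y = algebraMap M Ω (σ i y) := fun i y => rfl
  have emb_inj : Function.Injective emb := by
    intro i k h
    apply hinj
    ext y
    have := DFunLike.congr_fun h y
    rw [emb_apply, emb_apply] at this
    exact (algebraMap M Ω).injective this
  have hc : Fintype.card I = Fintype.card (E →ₐ[F] Ω) := by
    rw [AlgHom.card F E Ω, hcard]
  have emb_bij : Function.Bijective emb :=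
    (Fintype.bijective_iff_injective_and_card emb).mpr ⟨emb_inj, hc⟩
  have key := Algebra.norm_eq_prod_embeddings F Ω x
  have h4 : ∏ τ : E →ₐ[F] Ω, τ x = ∏ i, emb i x :=
    (Fintype.prod_bijective emb emb_bij _ _ (fun i => rfl)).symm
  rw [h4] at key
  have h5 : algebraMap M Ω (ιF (Algebra.norm F x)) = algebraMap M Ω (∏ i, σ i x) := by
    rw [map_prod]
    exact key
  exact (algebraMap M Ω).injective h5

end Fermat.Agent.ES.HEQ.NormEmb19
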