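/-
Program J, chapter J3a (helper19): Hecke-equivariance of Kummer characters, abstract form.

Interface `Setup`: two function fields `F` (level `N`), `F'` (level `Nℓ`) with the two embeddings
`α β : F → F'`; a field `M` ("meromorphic functions on the upper half plane"); a group `Γ`
(`Γ₀(N)`) acting on `M` on the right through ring homomorphisms `R γ` (`h ↦ h ∘ γ`); a finite
index set `I` (`ℙ¹(𝔽_ℓ)`) with ring endomorphisms `B i` of `M` (`h ↦ h ∘ β_i`) and the double
coset data `perm`, `coc` (`β_i γ = coc γ i * β_{perm γ i}`); a realisation `an : F → M` and a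
complete family `σ i : F' → M` of embeddings over `an` (`σ i = (an' ·) ∘ γ_i`).

Main result `Witness.hecke`: if `g ^ n = an f` and `R γ g = c (χ γ) * g` for all `γ ∈ Γ`, then
`G := ∏ i, B i g` satisfies `G ^ n = an (N_α (β f))` and `R γ G = c (∏ i, χ (coc γ i)) * G`.
-/
import Fermat.Prelude.Def_AlgebraicCurve_Correspondence
import Fermat.Agent.ES.HEQ.NormEmb19

set_option autoImplicit false
set_option linter.style.haveILetI false

namespace Fermat.Agent.ES.HEQ.KummerHeckeAbs19

open scoped BigOperators
open AlgebraicCurve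

section

variable {K F F' : Type*} [Field K] [Field F] [Field F'] [Algebra K F] [Algebra K F']

/-- the norm of `F'` down to `F` along the embedding `ψ`. -/
noncomputable def normAlong (ψ : F →ₐ[K] F') (y : F') : F :=
  letI := algebraAlong ψ
  Algebra.norm F y

theorem normAlong_ne_zero (ψ : F →ₐ[K] F') (hfin : FiniteAlong K ψ) {y : F'} (hy : y ≠ 0) :
    normAlong ψ y ≠ 0 := by
  letI := algebraAlong ψ
  haveI : Module.Finite F F' := hfin
  exact Algebra.norm_ne_zero_iff.mpr hy

variable (α β : F →ₐ[K] F') {Γ : Type*} {I : Type*} [Fintype I]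
  (perm : Γ → Equiv.Perm I) (coc : Γ → I → Γ) (M : Type*) [Field M] (A : Type*) [CommGroup A]

/-- The abstract analytic interface for the Hecke correspondence `(α, β)`. -/
structure Setup where
  /-- realisation of the level `N` function field -/
  an : F →+* M
  /-- the complete family of realisations of the level `Nℓ` function field over `an` -/
  σ : I → (F' →+* M)
  /-- the right action `h ↦ h ∘ γ` -/
  R : Γ → (M →+* M)
  /-- the endomorphisms `h ↦ h ∘ β_i` -/
  B : I → (M →+* M)
  /-- the constants (roots of unity) -/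
  c : A →* M
  σ_alpha : ∀ i x, σ i (α x) = an x
  σ_beta : ∀ i x, σ i (β x) = B i (an x)
  σ_inj : Function.Injective σ
  card_eq : Fintype.card I = finrankAlong K α
  R_B : ∀ γ i h, R γ (B i h) = B (perm γ i) (R (coc γ i) h)
  R_c : ∀ γ a, R γ (c a) = c a
  B_c : ∀ i a, B i (c a) = c a

variable {α β perm coc M A}

/-- A Kummer witness: `g` is an `n`-th root of the realisation of `f`, with character `χ`. -/
structure Witness (S : Setup α β perm coc M A) (n : ℕ) (f : F) (g : M) (χ : Γ → A) : Prop where
  pow : g ^ n = S.an f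
  smul : ∀ γ : Γ, S.R γ g = S.c (χ γ) * g

/-- the `n`-th root attached to the Hecke transform. -/
noncomputable def heckeRoot (S : Setup α β perm coc M A) (g : M) : M := ∏ i, S.B i g

theorem heckeRoot_ne_zero (S : Setup α β perm coc M A) {g : M} (hg : g ≠ 0) :
    heckeRoot S g ≠ 0 :=
  Finset.prod_ne_zero_iff.mpr fun i _ => (map_ne_zero (S.B i)).mpr hg

theorem heckeRoot_pow [CharZero F] (S : Setup α β perm coc M A) (hfin : FiniteAlong K α)
    {n : ℕ} {f : F} {g : M} (h : g ^ n = S.an f) :
    heckeRoot S g ^ n = S.an (normAlong α (β f)) := by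
  classical
  letI := algebraAlong α
  haveI : Module.Finite F F' := hfin
  haveI : Algebra.IsSeparable F F' := Algebra.IsAlgebraic.isSeparable_of_perfectField
  have key := NormEmb19.norm_eq_prod_of_embeddings (F := F) (E := F') (M := M) S.an S.σ
    (fun i x => S.σ_alpha i x) S.σ_inj S.card_eq (β f)
  show heckeRoot S g ^ n = S.an (Algebra.norm F (β f))
  rw [key, heckeRoot, ← Finset.prod_pow]
  refine Finset.prod_congr rfl fun i _ => ?_
  rw [← map_pow, h, S.σ_beta]

theorem R_heckeRoot (S : Setup α β perm coc M A) {g : M} {χ : Γ → A}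
    (h : ∀ γ : Γ, S.R γ g = S.c (χ γ) * g) (γ : Γ) :
    S.R γ (heckeRoot S g) = S.c (∏ i, χ (coc γ i)) * heckeRoot S g := by
  classical
  rw [heckeRoot, map_prod, map_prod, ← Equiv.prod_comp (perm γ) (fun i => S.B i g),
    ← Finset.prod_mul_distrib]
  refine Finset.prod_congr rfl fun i _ => ?_
  rw [S.R_B, h, map_mul, S.B_c]

/-- **Abstract Hecke-equivariance of Kummer witnesses.** -/
theorem Witness.hecke [CharZero F] {S : Setup α β perm coc M A} (hfin : FiniteAlong K α)
    {n : ℕ} {f : F} {g : M} {χ : Γ → A} (w : Witness S n f g χ) :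
    Witness S n (normAlong α (β f)) (heckeRoot S g) (fun γ => ∏ i, χ (coc γ i)) :=
  ⟨heckeRoot_pow S hfin w.pow, R_heckeRoot S w.smul⟩

end

section Divisors

variable {K F F' : Type*} [Field K] [Field F] [Field F'] [Algebra K F] [Algebra K F']
  [HasPrincipalDivisors K F']

/-- If `D = div f` then `correspondence φ ψ D = div (N_ψ (φ f))`. -/
theorem correspondence_apply_eq_ord (φ ψ : F →ₐ[K] F') (hφ : φ.toRingHom.IsIntegral)
    (hψ : ψ.toRingHom.IsIntegral) (hfin : FiniteAlong K ψ) (hN : NormFormulaAlong K ψ hfin)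
    {D : Divisor K F} {f : F} (hf : f ≠ 0) (hD : ∀ v : Place K F, D v = v.ord f)
    (v : Place K F) :
    Divisor.correspondence φ ψ hφ hψ D v = v.ord (normAlong ψ (φ f)) := by
  have h1 : ∀ w : Place K F', Divisor.pullbackAlong φ hφ D w = w.ord (φ f) := by
    intro w
    letI := algebraAlong φ
    haveI := isScalarTower_along φ
    haveI := isIntegral_along φ hφ
    exact Divisor.pullback_apply_eq_ord hD w
  have hφf : φ f ≠ 0 := (map_ne_zero φ).mpr hf
  rw [Divisor.correspondence_apply]
  letI := algebraAlong ψ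
  haveI := isScalarTower_along ψ
  haveI := isIntegral_along ψ hψ
  haveI : Module.Finite F F' := hfin
  exact hN (φ f) hφf _ h1 v

end Divisors

end Fermat.Agent.ES.HEQ.KummerHeckeAbs19
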