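/-
Program J, chapter J3a (helper19): **Hecke-equivariance of the Kummer map** on `J₀(N)[n]`.

`IsKummerMap n κ`: the map `κ : J₀(N)[n] → Hom(Γ₀(N), ℂˣ)` is characterised by
"`x = [D]`, `n D = div f`, `h ^ n = an f` in `MerH` ⟹ `h ∘ γ = κ x γ · h`" (and such `h` exist).
Main theorem `kummer_hecke`: for a prime `ℓ ∤ N`,
`κ (T_ℓ x) = tdcMul (κ x)` (helper27's double coset operator on characters).
-/
import Fermat.Agent.ES.HEQ.KummerHeckeAbs19
import Fermat.Agent.ES.HEQ.RealBar19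
import Fermat.Agent.ES.HECKE.AlongDegree25
import Fermat.Agent.ES.HECKE.InputsFinal15
import Fermat.Prelude.Def_ModularCurve_HeckeOperatorTotal

set_option autoImplicit false
set_option linter.style.haveILetI false
set_option linter.unusedSectionVars false

open UpperHalfPlane hiding I
open scoped Manifold MatrixGroups
open CongruenceSubgroup AlgebraicCurve

noncomputable section

namespace Fermat.Agent.ES.HEQ.KummerHeckeMain19

open Fermat.Agent.X0 Fermat.Agent.X0.SurjPoint Fermat.Agent.ES.KUM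
open Fermat.Agent.ES.HEQ.DoubleCoset27 Fermat.Agent.ES.HEQ.BetaMer19
open Fermat.Agent.ES.HEQ.RealBar19 Fermat.Agent.ES.HEQ.KummerHeckeAbs19 ModularCurve

/-- the constants `ℂˣ → MerH`. -/
def constHom : ℂˣ →* MerH :=
  (((algebraMap HolH MerH).comp (algebraMap ℂ HolH) : ℂ →+* MerH) : ℂ →* MerH).comp
    (Units.coeHom ℂ)

theorem constHom_apply (a : ℂˣ) :
    constHom a = algebraMap HolH MerH (algebraMap ℂ HolH (a : ℂ)) := rfl

theorem constHom_injective : Function.Injective constHom := by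
  intro a b h
  apply Units.ext
  have h1 : Function.Injective ((algebraMap HolH MerH).comp (algebraMap ℂ HolH) : ℂ →+* MerH) :=
    RingHom.injective _
  exact h1 h

variable {N ℓ : ℕ} [NeZero N] [hℓ : Fact ℓ.Prime] (hℓN : ¬ ℓ ∣ N)

/-- the concrete instance of the abstract analytic interface. -/
def setup : Setup (K := Kbar) (heckeAlphaBar Kbar N ℓ) (heckeBetaBar Kbar N ℓ)
    (fun γ : Gamma0 N => (permG γ : Equiv.Perm (Option (ZMod ℓ))))
    (fun (γ : Gamma0 N) (i : Option (ZMod ℓ)) => cocG hℓN γ i) MerH ℂˣ where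
  an := anBar N
  σ := sigma hℓN
  R := fun γ => slMer (γ : SL(2, ℤ))
  B := betaMer ℓ
  c := constHom
  σ_alpha := sigma_alpha hℓN
  σ_beta := sigma_beta hℓN
  σ_inj := sigma_injective hℓN
  card_eq := by
    rw [Fermat.Agent.ES.HECKE.AlongDegree25.finrankAlong_alpha Kbar N ℓ hℓ.out hℓN,
      Fintype.card_option, ZMod.card]
  R_B := fun γ i h => slMer_betaMer (γ : SL(2, ℤ)) i h
  R_c := fun γ a => slMer_const (γ : SL(2, ℤ)) (a : ℂ)
  B_c := fun i a => betaMer_const i (a : ℂ)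

/-- The characterisation of the Kummer map on `J₀(N)[n]` (output of J1 + J2). -/
def IsKummerMap (N n : ℕ) [NeZero N]
    (κ : ↥(Pic0.torsion Kbar (FF N) n) → (↥(Gamma0 N) →* ℂˣ)) : Prop :=
  ∀ (x : ↥(Pic0.torsion Kbar (FF N) n)) (D : Divisor.degZero (K := Kbar) (F := FF N)) (f : FF N),
    Pic0.mk D = (x : Pic0 Kbar (FF N)) → f ≠ 0 →
    (∀ v : Place Kbar (FF N), ((n : ℤ) • (D : Divisor Kbar (FF N))) v = v.ord f) →
      (∃ h : MerH, h ≠ 0 ∧ h ^ n = anBar N f) ∧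
        ∀ h : MerH, h ≠ 0 → h ^ n = anBar N f →
          ∀ γ : ↥(Gamma0 N), slMer (γ : SL(2, ℤ)) h = constHom (κ x γ) * h

theorem heckeOperatorAlong_mem_torsion (n : ℕ) (x : ↥(Pic0.torsion Kbar (FF N) n)) :
    heckeOperatorAlong Kbar N ℓ (x : Pic0 Kbar (FF N)) ∈ Pic0.torsion Kbar (FF N) n := by
  rw [Pic0.mem_torsion, ← map_zsmul, Pic0.mem_torsion.mp x.2, map_zero]

/-- every torsion class has a representative `D` with `n D = div f`. -/
theorem exists_rep_div (n : ℕ) (x : ↥(Pic0.torsion Kbar (FF N) n)) :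
    ∃ (D : Divisor.degZero (K := Kbar) (F := FF N)) (f : FF N),
      Pic0.mk D = (x : Pic0 Kbar (FF N)) ∧ f ≠ 0 ∧
        ∀ v : Place Kbar (FF N), ((n : ℤ) • (D : Divisor Kbar (FF N))) v = v.ord f := by
  obtain ⟨D, hD⟩ := Pic0.mk_surjective (x : Pic0 Kbar (FF N))
  have h1 : (n : ℤ) • Pic0.mk D = 0 := by
    rw [hD]
    exact Pic0.mem_torsion.mp x.2
  have h2 : Pic0.mk ((n : ℤ) • D) = 0 := h1
  have h3 : ((n : ℤ) • D) ∈
      (Divisor.principal (K := Kbar) (F := FF N)).addSubgroupOf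
        (Divisor.degZero (K := Kbar) (F := FF N)) :=
    (QuotientAddGroup.eq_zero_iff _).mp h2
  rw [AddSubgroup.mem_addSubgroupOf] at h3
  obtain ⟨f, hf, hDf⟩ := h3
  exact ⟨D, f, hD, hf, fun v => hDf v⟩

/-- **J3a: Hecke-equivariance of the Kummer map.** -/
theorem kummer_hecke {n : ℕ} {κ : ↥(Pic0.torsion Kbar (FF N) n) → (↥(Gamma0 N) →* ℂˣ)}
    (hκ : IsKummerMap N n κ) (x : ↥(Pic0.torsion Kbar (FF N) n)) :
    κ ⟨heckeOperatorAlong Kbar N ℓ (x : Pic0 Kbar (FF N)),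
        heckeOperatorAlong_mem_torsion n x⟩ = tdcMul hℓN (κ x) := by
  classical
  obtain ⟨hα, hβ, hP, hfin, hFI, hN⟩ :=
    Fermat.Agent.ES.HECKE.InputsFinal15.heckeInputsAlong_bar N ℓ hℓ.out hℓN
  haveI := hP
  obtain ⟨D, f, hD, hf, hDf⟩ := exists_rep_div n x
  obtain ⟨⟨h, hh0, hhn⟩, hchar⟩ := hκ x D f hD hf hDf
  -- the witness at `x`
  have w : Witness (setup hℓN) n f h (fun γ => κ x γ) := ⟨hhn, fun γ => hchar h hh0 hhn γ⟩
  have w' := w.hecke hfin
  -- the Hecke transform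
  set DT : Divisor.degZero (K := Kbar) (F := FF N) :=
    Pic0.degZeroCorrespondence (heckeBetaBar Kbar N ℓ) (heckeAlphaBar Kbar N ℓ) hβ hα hFI D with hDT
  have hTx : Pic0.mk DT = heckeOperatorAlong Kbar N ℓ (x : Pic0 Kbar (FF N)) := by
    rw [heckeOperatorAlong_eq hα hβ hFI hfin hN, ← hD]
    rfl
  have hfT : normAlong (heckeAlphaBar Kbar N ℓ) (heckeBetaBar Kbar N ℓ f) ≠ 0 :=
    normAlong_ne_zero _ hfin ((map_ne_zero _).mpr hf)
  have hDTf : ∀ v : Place Kbar (FF N), ((n : ℤ) • (DT : Divisor Kbar (FF N))) v =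
      v.ord (normAlong (heckeAlphaBar Kbar N ℓ) (heckeBetaBar Kbar N ℓ f)) := by
    intro v
    have h1 : ((n : ℤ) • (DT : Divisor Kbar (FF N))) =
        Divisor.correspondence (heckeBetaBar Kbar N ℓ) (heckeAlphaBar Kbar N ℓ) hβ hα
          ((n : ℤ) • (D : Divisor Kbar (FF N))) := by
      rw [map_zsmul]
      rfl
    rw [h1]
    exact correspondence_apply_eq_ord _ _ hβ hα hfin hN hf hDf v
  obtain ⟨-, hchar'⟩ := hκ ⟨heckeOperatorAlong Kbar N ℓ (x : Pic0 Kbar (FF N)),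
    heckeOperatorAlong_mem_torsion n x⟩ DT _ hTx hfT hDTf
  have hroot0 : heckeRoot (setup hℓN) h ≠ 0 := heckeRoot_ne_zero _ hh0
  ext1 γ
  have e1 := hchar' _ hroot0 w'.pow γ
  have e2 := w'.smul γ
  have e3 : constHom (κ ⟨heckeOperatorAlong Kbar N ℓ (x : Pic0 Kbar (FF N)),
      heckeOperatorAlong_mem_torsion n x⟩ γ) = constHom (∏ i, κ x (cocG hℓN γ i)) :=
    mul_right_cancel₀ hroot0 (e1.symm.trans e2)
  rw [tdcMul_apply]
  exact constHom_injective e3

end Fermat.Agent.ES.HEQ.KummerHeckeMain19
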