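/-
Program J, chapter J3a (helper19): **the adapter**.  The Kummer map on `J₀(N)(ℚbar)[n]`
obtained from J1 (`KumInst18.kummerC`, over `ℂ`) and J2 (`DescentFinal24.torsionEquivC`)
satisfies the characterisation `KummerHeckeMain19.IsKummerMap`; hence it is Hecke-equivariant:

  `kumCharOf N n (torsionEquivC N n (T_ℓ x)) = tdcMul hℓN (kumCharOf N n (torsionEquivC N n x))`.

Also the additive form (`TateChar11.tdcX`, `heckeOperatorBar`) which is the hypothesis `hf` of
`TateChar11.KummerSystem.tateEquiv_map` / `TateCompare11.map_iota`.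
-/
import Fermat.Agent.ES.HEQ.KummerHeckeMain19
import Fermat.Agent.ES.KUM.KumInst18
import Fermat.Agent.J.DESC.DescentFinal24
import Fermat.Agent.ES.J.TateChar11
import Fermat.Prelude.Def_ModularCurve_HeckeModule

set_option autoImplicit false
set_option linter.style.haveILetI false
set_option linter.unusedSectionVars false

open UpperHalfPlane hiding I
open scoped Manifold MatrixGroups
open CongruenceSubgroup AlgebraicCurve

noncomputable section

namespace Fermat.Agent.ES.HEQ.KummerHeckeQ19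

open Fermat.Agent.X0 Fermat.Agent.X0.SurjPoint Fermat.Agent.ES.KUM
open Fermat.Agent.ES.HEQ.DoubleCoset27
open Fermat.Agent.ES.HEQ.RealBar19 Fermat.Agent.ES.HEQ.KummerHeckeMain19 ModularCurve
open Fermat.Agent.J.DESC.DescentFinal24 Fermat.Agent.J.DESC.ExtPic22
open Fermat.Agent.ES.KUM.KumInst18 Fermat.Agent.ES.KUM.KummerAbstract17
open Fermat.Agent.ES.KUM.FieldL25
open Fermat.Agent.ES.J.TateChar11

attribute [local instance] instAlgebraQbarComplex instTowerQbarComplex

section Level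

variable (N : ℕ) [NeZero N]

/-- helper24's base change `bcQC` and the realisation `anBar` of `RealBar19` agree. -/
theorem realMer_bcQC (f : FF N) : realMer N (bcQC N f) = anBar N f :=
  realMer_eq_anBar N (bcQC N f) f rfl

variable (n : ℕ) [NeZero n] [Finite (Pic0.torsion ℂ (FC N) n)]

/-- **The Kummer map on `J₀(N)(ℚbar)[n]`** (J1 ∘ J2), as a map to characters. -/
def kumQ (x : ↥(Pic0.torsion Kbar (FF N) n)) : ↥(Gamma0 N) →* ℂˣ :=
  kumCharOf N n (torsionEquivC N n x)

theorem kumQ_def (x : ↥(Pic0.torsion Kbar (FF N) n)) :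
    kumQ N n x = kumCharOf N n (torsionEquivC N n x) := rfl

/-- The same, additively: `J₀(N)(ℚbar)[n] →+ X(Γ₀(N))`. -/
def kumQAdd : ↥(Pic0.torsion Kbar (FF N) n) →+ Additive (↥(Gamma0 N) →* ℂˣ) :=
  (kummerC N n).comp (torsionEquivC N n).toAddMonoidHom

theorem toMul_kumQAdd (x : ↥(Pic0.torsion Kbar (FF N) n)) :
    Additive.toMul (kumQAdd N n x) = kumQ N n x := rfl

theorem kumQAdd_apply (x : ↥(Pic0.torsion Kbar (FF N) n)) :
    kumQAdd N n x = kummerC N n (torsionEquivC N n x) := rfl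

/-- transport of a Kummer datum over `ℚbar` to a Kummer datum over `ℂ`. -/
theorem isDatum_of_bar (x : ↥(Pic0.torsion Kbar (FF N) n))
    (D : Divisor.degZero (K := Kbar) (F := FF N)) (f : FF N)
    (hD : Pic0.mk D = (x : Pic0 Kbar (FF N))) (hf : f ≠ 0)
    (hDf : ∀ v : Place Kbar (FF N), ((n : ℤ) • (D : Divisor Kbar (FF N))) v = v.ord f)
    (h : MerH) (hh : h ^ n = anBar N f) :
    IsDatum (settingC N) n ((torsionEquivC N n x : ↥(Pic0.torsion ℂ (FC N) n)) : Pic0 ℂ (FC N))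
      (extDegZero (isConstExt_bcQC N) (isGen_jL Qb N) (isGen_jL ℂ N) D) (bcQC N f) h := by
  refine ⟨?_, bcQC_ne_zero N hf, ?_, ?_⟩
  · rw [coe_torsionEquivC_apply, ← hD, extPic0C_mk]
  · intro v
    rw [coe_extDegZeroC]
    refine extDivC_datum N (n : ℤ) hf (fun w => ?_) v
    rw [← hDf w, Finsupp.smul_apply, smul_eq_mul]
  · rw [settingC_Θ, realMer_bcQC]
    exact hh

/-- **the adapter**: the Kummer map of J1 + J2 satisfies the characterisation of
`KummerHeckeMain19`. -/
theorem isKummerMap_kumQ : IsKummerMap N n (kumQ N n) := by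
  intro x D f hD hf hDf
  refine ⟨?_, ?_⟩
  · -- existence of roots
    have hdiv : ∀ v : Place ℂ (FC N), (n : ℤ) ∣ v.ord (bcQC N f) := by
      intro v
      refine ⟨extDivC N (D : Divisor Kbar (FF N)) v, ?_⟩
      refine (extDivC_datum N (n : ℤ) hf (fun w => ?_) v).symm
      rw [← hDf w, Finsupp.smul_apply, smul_eq_mul]
    obtain ⟨h, hh⟩ := hasRootsC N n (NeZero.ne n) (bcQC N f) (bcQC_ne_zero N hf) hdiv
    rw [settingC_Θ, realMer_bcQC] at hh
    refine ⟨h, ?_, hh⟩
    rintro rfl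
    rw [zero_pow (NeZero.ne n)] at hh
    exact hf ((anBar N).injective (by rw [← hh, map_zero]))
  · intro h _ hh γ
    exact kummerC_eigen N n (torsionEquivC N n x) (isDatum_of_bar N n x D f hD hf hDf h hh) γ

end Level

section Hecke

variable {N ℓ : ℕ} [NeZero N] [hℓ : Fact ℓ.Prime] (hℓN : ¬ ℓ ∣ N)
variable (n : ℕ) [NeZero n] [Finite (Pic0.torsion ℂ (FC N) n)]

/-- **J3a, final form (HEQ)**: the Kummer map `κ_n = kumCharOf ∘ torsionEquivC` on
`J₀(N)(ℚbar)[n]` intertwines `T_ℓ` with the double coset operator `tdcMul` on characters. -/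
theorem kumQ_hecke (x : ↥(Pic0.torsion Kbar (FF N) n))
    (hx : heckeOperatorAlong Kbar N ℓ (x : Pic0 Kbar (FF N)) ∈ Pic0.torsion Kbar (FF N) n) :
    kumCharOf N n (torsionEquivC N n ⟨heckeOperatorAlong Kbar N ℓ (x : Pic0 Kbar (FF N)), hx⟩) =
      tdcMul hℓN (kumCharOf N n (torsionEquivC N n x)) :=
  kummer_hecke hℓN (isKummerMap_kumQ N n) x

/-- the same, additively (`tdcX` of `TateChar11`). -/
theorem kumQAdd_hecke (x : ↥(Pic0.torsion Kbar (FF N) n))
    (hx : heckeOperatorAlong Kbar N ℓ (x : Pic0 Kbar (FF N)) ∈ Pic0.torsion Kbar (FF N) n) :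
    kumQAdd N n ⟨heckeOperatorAlong Kbar N ℓ (x : Pic0 Kbar (FF N)), hx⟩ =
      tdcX hℓN (kumQAdd N n x) := by
  apply Additive.toMul.injective
  exact kumQ_hecke hℓN n x hx

end Hecke

section Bar

variable {N : ℕ} [NeZero N] (ℓ : Nat.Primes) (hℓN : ¬ (ℓ : ℕ) ∣ N)
variable (n : ℕ) [NeZero n] [Finite (Pic0.torsion ℂ (FC N) n)]

/-- **(HEQ) for the Prelude's `heckeOperatorBar`** on `tors (JZero N) n`: literally the hypothesis
`hf` of `TateChar11.KummerSystem.tateEquiv_map` (with `f := (heckeOperatorBar N ℓ).toAddMonoidHom`)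
for any Kummer system whose `κ k` is `kumQAdd N (p ^ k)`. -/
theorem kumQAdd_heckeOperatorBar (x : ↥(tors (JZero N) n))
    (hx : heckeOperatorBar N ℓ (x : JZero N) ∈ tors (JZero N) n) :
    haveI : Fact (ℓ : ℕ).Prime := ⟨ℓ.2⟩
    kumQAdd N n ⟨heckeOperatorBar N ℓ (x : JZero N), hx⟩ = tdcX hℓN (kumQAdd N n x) := by
  haveI : Fact (ℓ : ℕ).Prime := ⟨ℓ.2⟩
  exact kumQAdd_hecke hℓN n x hx

end Bar

end Fermat.Agent.ES.HEQ.KummerHeckeQ19
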