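/-
Program J (S30), chapter J3a (HEQ), leaf (N), helper21: **the analytic norm formula** for the Hecke
correspondence `T_ℓ = α_* β^*` (`ℓ ∤ N` prime) over `ℂ`:

  `realMer N (N_α (β f)) = ∏ i, (realMer N f) ∘ β_i = GlMer27.heckeProd ℓ (realMer N f)`,   `f : FC N`,

where `α = heckeAlphaBar ℂ N ℓ` (inclusion), `β = heckeBetaBar ℂ N ℓ` (`q ↦ q^ℓ`) are the two degeneracy
embeddings `F_N → F_{Nℓ}` and `N_α` is the norm for the algebra structure `algebraAlong α`.

* `norm_eq_prod_of_embeddings` (generic field theory): a family of `finrank`-many pairwise distinct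
  embeddings of `F'` over `F` computes the norm;
* `realMer_alpha`, `realMer_beta`: `Θ_{Nℓ} ∘ α = Θ_N`, `Θ_{Nℓ} ∘ β = (· ∘ β_∞) ∘ Θ_N`;
* `exists_rep`: for every `i ∈ P¹(𝔽_ℓ)` there is `γ ∈ Γ₀(N)` with `β_∞ γ ∈ SL(2,ℤ) β_i`;
* `realMer_norm_alpha`: `Θ_N (N_α g) = ∏ i, (Θ_{Nℓ} g) ∘ γ_i` for `g : FC (N ℓ)`;
* `realMer_norm_alpha_beta`: the formula above.
-/
import Mathlib
import Fermat.Agent.ES.HEQ.GlMer27
import Fermat.Agent.ES.KUM.CCuspSurj16
import Fermat.Agent.ES.HECKE.AlongDegree25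

set_option autoImplicit false
set_option linter.unusedSectionVars false
set_option linter.style.haveILetI false

noncomputable section

open UpperHalfPlane Matrix CongruenceSubgroup ModularCurve AlgebraicCurve HahnSeries
open scoped MatrixGroups Manifold

namespace Fermat.Agent.ES.HEQ.NormAnalytic21

open Fermat.Agent.X0 Fermat.Agent.X0.SurjPoint Fermat.Agent.X0.Analytic Fermat.Agent.ES.KUM
open Fermat.Agent.ES.HEQ.DoubleCoset27 Fermat.Agent.ES.HEQ.GlMer27

/-! ### Generic: the norm as a product over a full set of embeddings -/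

section Generic

variable {F F' M : Type*} [Field F] [Field F'] [Field M] [Algebra F F']
  [FiniteDimensional F F'] [Algebra.IsSeparable F F']

/-- If `T i : F' →+* M` (`i : ι`) are pairwise distinct, restrict to `Θ` on `F`, and
`#ι = [F' : F]`, then `Θ (N_{F'/F} g) = ∏ i, T i g`. -/
theorem norm_eq_prod_of_embeddings {ι : Type*} [Fintype ι] (Θ : F →+* M) (T : ι → (F' →+* M))
    (hT : ∀ i f, T i (algebraMap F F' f) = Θ f) (hinj : Function.Injective T)
    (hcard : Fintype.card ι = Module.finrank F F') (g : F') :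
    Θ (Algebra.norm F g) = ∏ i, T i g := by
  classical
  let E := AlgebraicClosure M
  letI : Algebra F E := ((algebraMap M E).comp Θ).toAlgebra
  have halg : ∀ x : F, algebraMap F E x = algebraMap M E (Θ x) := fun _ => rfl
  let σ : ι → (F' →ₐ[F] E) := fun i =>
    { ((algebraMap M E).comp (T i)) with
      commutes' := fun f => by
        show algebraMap M E (T i (algebraMap F F' f)) = algebraMap F E f
        rw [hT, halg] }
  have hσ : ∀ i x, σ i x = algebraMap M E (T i x) := fun _ _ => rfl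
  have hσinj : Function.Injective σ := by
    intro i k hik
    apply hinj
    ext x
    have := DFunLike.congr_fun hik x
    rw [hσ, hσ] at this
    exact (algebraMap M E).injective this
  have hbij : Function.Bijective σ := by
    rw [Fintype.bijective_iff_injective_and_card]
    exact ⟨hσinj, by rw [hcard, AlgHom.card]⟩
  have h := Algebra.norm_eq_prod_embeddings F E g
  rw [halg, ← Fintype.prod_bijective σ hbij (fun i => algebraMap M E (T i g))
    (fun τ => τ g) (fun i => (hσ i g).symm), ← map_prod] at h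
  exact (algebraMap M E).injective h

end Generic

/-! ### `realMer` is characterised by convergent `q`-expansions -/

section QExp

variable (M : ℕ) [NeZero M]

/-- If `g ∈ Hol(ℍ)` has the formal element `f ∈ F_ℂ` as its convergent `q`-expansion, then
`realMer M f = g`. -/
theorem realMer_eq_of_hasQExp {f : FC M} {g : HolH}
    (h : HasQExp ((f : FC M) : LaurentSeries ℂ) (g : ℍ → ℂ)) :
    realMer M f = algebraMap HolH MerH g := by
  obtain ⟨r, s, hs, rfl⟩ := exists_divC_ne_zero M f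
  have hs' : ((s : RC M) : FC M) ≠ 0 := fun h0 => hs (Subtype.ext h0)
  have hsM : algebraMap HolH MerH (realC M s) ≠ 0 := by
    rw [Ne, map_eq_zero_iff _ (IsFractionRing.injective HolH MerH)]
    exact fun h0 => hs ((realC_injective M) (by rw [h0, map_zero]))
  rw [map_div₀, realMer_coe, realMer_coe, div_eq_iff hsM, ← map_mul]
  congr 1
  apply Subtype.ext
  -- the series of `r` is the product of the series of `r / s` and `s`
  have hser : (((r : RC M) : FC M) : LaurentSeries ℂ) =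
      ((((r : RC M) : FC M) / ((s : RC M) : FC M) : FC M) : LaurentSeries ℂ) *
        (((s : RC M) : FC M) : LaurentSeries ℂ) := by
    have : ((r : RC M) : FC M) = ((r : RC M) : FC M) / ((s : RC M) : FC M) * ((s : RC M) : FC M) :=
      (div_mul_cancel₀ _ hs').symm
    exact congrArg (fun y : FC M => (y : LaurentSeries ℂ)) this
  have h1 := hasQExp_realC M r
  rw [hser] at h1
  exact h1.unique_right (h.mul (hasQExp_realC M s))

end QExp

/-! ### The two degeneracy embeddings, analytically -/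

section Degeneracy

variable (N ℓ : ℕ) [NeZero N] [NeZero ℓ]

/-- `Θ_{Nℓ} ∘ α = Θ_N`: the inclusion `F_N ⊆ F_{Nℓ}` is the identity on functions. -/
theorem realMer_alpha (f : FC N) :
    realMer (N * ℓ) (heckeAlphaBar ℂ N ℓ f) = realMer N f := by
  have key : (realMer (N * ℓ)).comp (heckeAlphaBar ℂ N ℓ).toRingHom = realMer N := by
    apply CCusp16.ringHom_ext_RC
    intro u
    rw [RingHom.comp_apply, realMer_coe]
    apply realMer_eq_of_hasQExp
    show HasQExp ((heckeAlphaBar ℂ N ℓ (u : FC N) : FC (N * ℓ)) : LaurentSeries ℂ) _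
    rw [coe_heckeAlphaBar]
    exact hasQExp_realC N u
  exact DFunLike.congr_fun key f

variable [hℓ : Fact ℓ.Prime]

/-- `β_∞ • z = ℓ z`. -/
theorem glBeta_none_smul (z : ℍ) : glBeta ℓ none • z = scaleH ℓ z := by
  apply UpperHalfPlane.ext
  rw [glBeta_none, ModularForm.coe_heckeDiagMatrix_smul hℓ.out.ne_zero, coe_scaleH]

/-- `Θ_{Nℓ} ∘ β = (· ∘ β_∞) ∘ Θ_N`: the embedding `q ↦ q^ℓ` is `g ↦ g(ℓ z)` on functions. -/
theorem realMer_beta (f : FC N) :
    realMer (N * ℓ) (heckeBetaBar ℂ N ℓ f) = betaMer ℓ none (realMer N f) := by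
  have key : (realMer (N * ℓ)).comp (heckeBetaBar ℂ N ℓ).toRingHom =
      (betaMer ℓ none).comp (realMer N) := by
    apply CCusp16.ringHom_ext_RC
    intro u
    rw [RingHom.comp_apply, RingHom.comp_apply, realMer_coe, betaMer_algebraMap]
    apply realMer_eq_of_hasQExp
    show HasQExp ((heckeBetaBar ℂ N ℓ (u : FC N) : FC (N * ℓ)) : LaurentSeries ℂ) _
    rw [coe_heckeBetaBar]
    have h := (hasQExp_realC N u).qExpand ℓ
    have hfun : ((compGLHom (betaPos ℓ none) (realC N u) : HolH) : ℍ → ℂ) =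
        fun z => ((realC N u : HolH) : ℍ → ℂ) (scaleH ℓ z) := by
      funext z
      rw [coe_compGLHom, compGL_apply, coe_betaPos, glBeta_none_smul]
    rw [hfun]
    exact h
  exact DFunLike.congr_fun key f

end Degeneracy

/-! ### Representatives of `Γ₀(Nℓ) \ Γ₀(N)` -/

section Reps

variable {ℓ : ℕ} [hℓ : Fact ℓ.Prime]

/-- elements of `Γ₀(ℓ)` fix the point `∞ ∈ P¹(𝔽_ℓ)`: `β_∞ δ ∈ SL(2,ℤ) β_∞`. -/
theorem perm_none_of_dvd (δ : SL(2, ℤ)) (h : (ℓ : ℤ) ∣ δ 1 0) :
    perm (p := ℓ) δ none = none := by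
  obtain ⟨c', hc'⟩ := h
  have hdet : δ 0 0 * δ 1 1 - δ 0 1 * δ 1 0 = 1 := by
    have := δ.2
    rwa [Matrix.det_fin_two] at this
  let g : SL(2, ℤ) := ⟨!![δ 0 0, (ℓ : ℤ) * δ 0 1; c', δ 1 1], by
    rw [Matrix.det_fin_two_of]
    rw [hc'] at hdet
    linear_combination hdet⟩
  refine (eq_of_beta_mul (p := ℓ) (γ := δ) (i := none) (k := none) (g := g) ?_).1
  ext a b
  fin_cases a <;> fin_cases b <;>
    simp [g, beta, Matrix.mul_apply, Fin.sum_univ_two, hc', mul_comm]

/-- **Transitivity**: for every `i ∈ P¹(𝔽_ℓ)` there is `γ ∈ Γ₀(N)` with `β_∞ γ ∈ SL(2,ℤ) β_i`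
(`ℓ ∤ N`). -/
theorem exists_rep {N : ℕ} (hℓN : ¬ ℓ ∣ N) (i : Option (ZMod ℓ)) :
    ∃ γ : SL(2, ℤ), γ ∈ Gamma0 N ∧ perm (p := ℓ) γ none = i := by
  cases i with
  | none => exact ⟨1, one_mem _, perm_one none⟩
  | some k =>
    have hcop : IsCoprime (ℓ : ℤ) (N : ℤ) :=
      Nat.isCoprime_iff_coprime.mpr ((Nat.Prime.coprime_iff_not_dvd hℓ.out).mpr hℓN)
    have hcop' : IsCoprime ((ℓ : ℤ) + (N : ℤ) * (k.val : ℤ)) (N : ℤ) :=
      IsCoprime.add_mul_left_left hcop _
    obtain ⟨a, b, hab⟩ := hcop'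
    let γ : SL(2, ℤ) := ⟨!![a, -b; (N : ℤ), (ℓ : ℤ) + (N : ℤ) * (k.val : ℤ)], by
      rw [Matrix.det_fin_two_of]
      linear_combination hab⟩
    let g : SL(2, ℤ) := ⟨!![(ℓ : ℤ) * a, -b - (k.val : ℤ) * a; (N : ℤ), 1], by
      rw [Matrix.det_fin_two_of]
      linear_combination hab⟩
    refine ⟨γ, ?_, (eq_of_beta_mul (p := ℓ) (γ := γ) (i := none) (k := some k) (g := g) ?_).1⟩
    · rw [Gamma0_mem]
      simp [γ]
    · ext x y
      fin_cases x <;> fin_cases y <;>
        simp [γ, g, beta, Matrix.mul_apply, Fin.sum_univ_two, -ZMod.natCast_val] <;> ring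

end Reps

/-! ### The analytic norm formula -/

section Main

variable (N ℓ : ℕ) [NeZero N] [NeZero ℓ] [hℓ : Fact ℓ.Prime] (hℓN : ¬ ℓ ∣ N)

/-- chosen representatives `γ_i ∈ Γ₀(N)` with `β_∞ γ_i ∈ SL(2,ℤ) β_i`. -/
def rep (i : Option (ZMod ℓ)) : SL(2, ℤ) := (exists_rep hℓN i).choose

theorem rep_mem (i : Option (ZMod ℓ)) : rep N ℓ hℓN i ∈ Gamma0 N :=
  (exists_rep hℓN i).choose_spec.1

theorem perm_rep (i : Option (ZMod ℓ)) : perm (p := ℓ) (rep N ℓ hℓN i) none = i :=
  (exists_rep hℓN i).choose_spec.2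

/-- the `ℓ + 1` embeddings `g ↦ (Θ_{Nℓ} g) ∘ γ_i` of `F_{Nℓ}` into `Mer(ℍ)` over `F_N`. -/
def emb (i : Option (ZMod ℓ)) : FC (N * ℓ) →+* MerH :=
  (slMer (rep N ℓ hℓN i)).comp (realMer (N * ℓ))

theorem emb_apply (i : Option (ZMod ℓ)) (g : FC (N * ℓ)) :
    emb N ℓ hℓN i g = slMer (rep N ℓ hℓN i) (realMer (N * ℓ) g) := rfl

/-- the embeddings restrict to `Θ_N` on `α(F_N)`. -/
theorem emb_alpha (i : Option (ZMod ℓ)) (f : FC N) :
    emb N ℓ hℓN i (heckeAlphaBar ℂ N ℓ f) = realMer N f := by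
  rw [emb_apply, realMer_alpha, slMer_realMer_of_mem N _ (rep_mem N ℓ hℓN i)]

/-- on `β(F_N)` the `i`-th embedding is `f ↦ (Θ_N f) ∘ β_i`. -/
theorem emb_beta (i : Option (ZMod ℓ)) (f : FC N) :
    emb N ℓ hℓN i (heckeBetaBar ℂ N ℓ f) = betaMer ℓ i (realMer N f) := by
  rw [emb_apply, realMer_beta, slMer_betaMer, perm_rep,
    slMer_realMer_of_mem N _ (coc_mem_Gamma0 hℓN (rep_mem N ℓ hℓN i) none)]

/-- equality of two of the embeddings forces equality of the cusp expansions. -/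
theorem cuspEmbC_eq_of_slMer_eq (M : ℕ) [NeZero M] (γ γ' : SL(2, ℤ))
    (h : ∀ u : RC M, slMer γ (realMer M (u : FC M)) = slMer γ' (realMer M (u : FC M))) :
    CCusp16.cuspEmbC M γ = CCusp16.cuspEmbC M γ' := by
  apply CCusp16.ringHom_ext_RC
  intro u
  obtain ⟨m, P, hP, hT⟩ := CCusp16.cuspEmbC_spec M γ u
  rw [hT]
  symm
  apply CCusp16.cuspEmbC_eq_of_isQExp
  have h1 := h u
  rw [realMer_coe, slMer_algebraMap, slMer_algebraMap] at h1
  have h2 : compSLHom γ (realC M u) = compSLHom γ' (realC M u) :=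
    IsFractionRing.injective HolH MerH h1
  have h3 : compSL ((realC M u : HolH) : ℍ → ℂ) γ = compSL ((realC M u : HolH) : ℍ → ℂ) γ' :=
    congrArg (fun F : HolH => (F : ℍ → ℂ)) h2
  rw [← h3]
  exact hP

/-- the embeddings are pairwise distinct. -/
theorem emb_injective : Function.Injective (emb N ℓ hℓN) := by
  intro i k hik
  have hc : CCusp16.cuspEmbC (N * ℓ) (rep N ℓ hℓN i) = CCusp16.cuspEmbC (N * ℓ) (rep N ℓ hℓN k) :=
    cuspEmbC_eq_of_slMer_eq (N * ℓ) _ _ fun u => DFunLike.congr_fun hik (u : FC (N * ℓ))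
  have hmem := CCusp16.mem_Gamma0_of_cuspEmbC_eq (N * ℓ) _ _ hc
  set δ : SL(2, ℤ) := rep N ℓ hℓN k * (rep N ℓ hℓN i)⁻¹ with hδ
  have hdvd : (ℓ : ℤ) ∣ δ 1 0 := by
    rw [Gamma0_mem, ZMod.intCast_zmod_eq_zero_iff_dvd] at hmem
    exact (Dvd.intro_left (N : ℤ) (by push_cast; ring)).trans hmem
  have hk : rep N ℓ hℓN k = δ * rep N ℓ hℓN i := by
    rw [hδ, inv_mul_cancel_right]
  have := perm_rep N ℓ hℓN k
  rw [hk, perm_mul, perm_none_of_dvd δ hdvd, perm_rep] at this
  exact this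

/-- **Relative analytic norm formula**: `Θ_N (N_α g) = ∏ i, (Θ_{Nℓ} g) ∘ γ_i`. -/
theorem realMer_norm_alpha (g : FC (N * ℓ)) :
    realMer N (letI := algebraAlong (heckeAlphaBar ℂ N ℓ); Algebra.norm (FC N) g) =
      ∏ i : Option (ZMod ℓ), emb N ℓ hℓN i g := by
  letI := algebraAlong (heckeAlphaBar ℂ N ℓ)
  haveI : FiniteDimensional (FC N) (FC (N * ℓ)) :=
    Fermat.Agent.ES.HECKE.AlongDegree25.finiteAlong_alpha ℂ N ℓ hℓ.out hℓN
  haveI : CharZero (FC N) := charZero_of_injective_algebraMap (algebraMap ℂ (FC N)).injective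
  have hcard : Fintype.card (Option (ZMod ℓ)) = Module.finrank (FC N) (FC (N * ℓ)) := by
    rw [Fintype.card_option, ZMod.card]
    exact (Fermat.Agent.ES.HECKE.AlongDegree25.finrankAlong_alpha ℂ N ℓ hℓ.out hℓN).symm
  exact norm_eq_prod_of_embeddings (realMer N) (emb N ℓ hℓN) (emb_alpha N ℓ hℓN)
    (emb_injective N ℓ hℓN) hcard g

include hℓN in
/-- **(N) The analytic norm formula for `T_ℓ`**:
`Θ_N (N_α (β f)) = ∏ i, (Θ_N f) ∘ β_i = heckeProd ℓ (Θ_N f)`. -/
theorem realMer_norm_alpha_beta (f : FC N) :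
    realMer N (letI := algebraAlong (heckeAlphaBar ℂ N ℓ)
      Algebra.norm (FC N) (heckeBetaBar ℂ N ℓ f)) = heckeProd ℓ (realMer N f) := by
  rw [realMer_norm_alpha N ℓ hℓN, heckeProd]
  exact Finset.prod_congr rfl fun i _ => emb_beta N ℓ hℓN i f

end Main

end Fermat.Agent.ES.HEQ.NormAnalytic21
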