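/-
Program J, chapter J3a (helper19): Laurent expansions of meromorphic functions on `ℍ`.

`HasQExpMer x h`: the element `h` of `MerH = Frac HolH` is a quotient `a / b` of holomorphic
functions with convergent `q`-expansions `fa`, `fb` such that `x * fb = fa`.  The expansion
determines `h`; `realMer N y` has the expansion `y`; `h ∘ (z ↦ ℓ z)` has the expansion
`qExpand ℓ x`.
-/
import Fermat.Agent.ES.HEQ.BetaMer19

set_option autoImplicit false
set_option linter.style.haveILetI false

open UpperHalfPlane hiding I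
open scoped Manifold MatrixGroups

noncomputable section

namespace Fermat.Agent.ES.HEQ.QExpMer19

open Fermat.Agent.X0 Fermat.Agent.X0.Analytic Fermat.Agent.X0.SurjPoint Fermat.Agent.ES.KUM
open Fermat.Agent.ES.HEQ.DoubleCoset27 Fermat.Agent.ES.HEQ.BetaMer19 ModularCurve

/-- `h ∈ MerH` has the Laurent expansion `x ∈ ℂ((q))`. -/
def HasQExpMer (x : LaurentSeries ℂ) (h : MerH) : Prop :=
  ∃ (a b : HolH) (fa fb : LaurentSeries ℂ), fb ≠ 0 ∧ HasQExp fa a.1 ∧ HasQExp fb b.1 ∧
    x * fb = fa ∧ h * algebraMap HolH MerH b = algebraMap HolH MerH a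

theorem hasQExp_zero : HasQExp (0 : LaurentSeries ℂ) (0 : ℍ → ℂ) := by
  have h := HasQExp.const 0
  rw [map_zero] at h
  exact h

theorem hasQExp_one : HasQExp (1 : LaurentSeries ℂ) (1 : ℍ → ℂ) := by
  have h := HasQExp.const 1
  rw [map_one] at h
  exact h

theorem ne_zero_of_hasQExp {f : LaurentSeries ℂ} {b : HolH} (hf : f ≠ 0) (h : HasQExp f b.1) :
    b ≠ 0 := by
  rintro rfl
  exact hf (h.unique_left hasQExp_zero)

/-- the expansion determines the meromorphic function. -/
theorem HasQExpMer.unique {x : LaurentSeries ℂ} {h h' : MerH} (H : HasQExpMer x h)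
    (H' : HasQExpMer x h') : h = h' := by
  obtain ⟨a, b, fa, fb, hfb, ha, hb, hx, hh⟩ := H
  obtain ⟨a', b', fa', fb', hfb', ha', hb', hx', hh'⟩ := H'
  have hb0 : b ≠ 0 := ne_zero_of_hasQExp hfb hb
  have hb0' : b' ≠ 0 := ne_zero_of_hasQExp hfb' hb'
  have e1 : fa * fb' = fa' * fb := by
    rw [← hx, ← hx']
    ring
  have e2 : a.1 * b'.1 = a'.1 * b.1 := by
    have h1 : HasQExp (fa * fb') (a.1 * b'.1) := ha.mul hb'
    have h2 : HasQExp (fa' * fb) (a'.1 * b.1) := ha'.mul hb
    rw [e1] at h1
    exact h1.unique_right h2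
  have e3 : a * b' = a' * b := Subtype.ext e2
  have hι : ∀ c : HolH, c ≠ 0 → algebraMap HolH MerH c ≠ 0 := fun c hc =>
    (map_ne_zero_iff _ (IsFractionRing.injective HolH MerH)).mpr hc
  have e4 : h * (algebraMap HolH MerH b * algebraMap HolH MerH b') =
      h' * (algebraMap HolH MerH b * algebraMap HolH MerH b') := by
    calc h * (algebraMap HolH MerH b * algebraMap HolH MerH b')
        = (h * algebraMap HolH MerH b) * algebraMap HolH MerH b' := by ring
      _ = algebraMap HolH MerH (a * b') := by rw [hh, map_mul]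
      _ = algebraMap HolH MerH (a' * b) := by rw [e3]
      _ = (h' * algebraMap HolH MerH b') * algebraMap HolH MerH b := by rw [hh', map_mul]
      _ = h' * (algebraMap HolH MerH b * algebraMap HolH MerH b') := by ring
  exact mul_right_cancel₀ (mul_ne_zero (hι b hb0) (hι b' hb0')) e4

/-- a holomorphic function with a `q`-expansion. -/
theorem hasQExpMer_of_hasQExp {x : LaurentSeries ℂ} {a : HolH} (h : HasQExp x a.1) :
    HasQExpMer x (algebraMap HolH MerH a) :=
  ⟨a, 1, x, 1, one_ne_zero, h, hasQExp_one, mul_one x, by rw [map_one, mul_one]⟩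

variable (N : ℕ) [NeZero N]

/-- `realMer N y` has the Laurent expansion `y`. -/
theorem hasQExpMer_realMer (y : FC N) : HasQExpMer (y : LaurentSeries ℂ) (realMer N y) := by
  obtain ⟨r, s, hs, rfl⟩ := exists_divC_ne_zero N y
  have hs' : (s : FC N) ≠ 0 := fun h => hs (Subtype.ext h)
  refine ⟨realC N r, realC N s, ((r : FC N) : LaurentSeries ℂ), ((s : FC N) : LaurentSeries ℂ),
    ?_, hasQExp_realC N r, hasQExp_realC N s, ?_, ?_⟩
  · intro h
    exact hs' (Subtype.ext h)
  · have h1 : ((r : FC N) / (s : FC N)) * (s : FC N) = (r : FC N) := div_mul_cancel₀ _ hs'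
    exact congrArg (Subtype.val) h1
  · rw [map_div₀, realMer_coe, realMer_coe]
    have h2 : algebraMap HolH MerH (realC N s) ≠ 0 :=
      (map_ne_zero_iff _ (IsFractionRing.injective HolH MerH)).mpr
        ((map_ne_zero_iff _ (realC_injective N)).mpr hs)
    exact div_mul_cancel₀ _ h2

/-- two elements of function fields of (possibly) different levels with the same Laurent series
have the same realisation. -/
theorem realMer_eq_of_coe_eq {N' : ℕ} [NeZero N'] {y : FC N} {y' : FC N'}
    (h : (y : LaurentSeries ℂ) = (y' : LaurentSeries ℂ)) : realMer N y = realMer N' y' := by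
  have h1 := hasQExpMer_realMer N y
  rw [h] at h1
  exact h1.unique (hasQExpMer_realMer N' y')

variable {p : ℕ} [hp : Fact p.Prime]

theorem glBeta_none_smul (z : ℍ) :
    haveI : NeZero p := ⟨hp.out.ne_zero⟩
    glBeta p none • z = scaleH p z := by
  haveI : NeZero p := ⟨hp.out.ne_zero⟩
  apply UpperHalfPlane.ext
  rw [UpperHalfPlane.coe_smul_of_det_pos (det_glBeta_pos none), coe_scaleH]
  simp [UpperHalfPlane.num, UpperHalfPlane.denom, glBeta_none,
    ModularForm.val_heckeDiagMatrix hp.out.ne_zero]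

/-- `h ∘ (z ↦ p z)` has the expansion `qExpand p x`. -/
theorem HasQExpMer.betaMer_none {x : LaurentSeries ℂ} {h : MerH} (H : HasQExpMer x h) :
    haveI : NeZero p := ⟨hp.out.ne_zero⟩
    HasQExpMer (qExpand ℂ p x) (betaMer p none h) := by
  haveI : NeZero p := ⟨hp.out.ne_zero⟩
  obtain ⟨a, b, fa, fb, hfb, ha, hb, hx, hh⟩ := H
  refine ⟨glHom (glBeta p none) (det_glBeta_pos none) a,
    glHom (glBeta p none) (det_glBeta_pos none) b, qExpand ℂ p fa, qExpand ℂ p fb, ?_, ?_, ?_, ?_, ?_⟩
  · exact (map_ne_zero_iff _ (qExpand ℂ p).injective).mpr hfb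
  · have h1 := ha.qExpand p
    have h2 : (fun z => a.1 (scaleH p z)) =
        ((glHom (glBeta p none) (det_glBeta_pos none) a : HolH) : ℍ → ℂ) := by
      funext z
      rw [coe_glHom, glBeta_none_smul]
    rwa [h2] at h1
  · have h1 := hb.qExpand p
    have h2 : (fun z => b.1 (scaleH p z)) =
        ((glHom (glBeta p none) (det_glBeta_pos none) b : HolH) : ℍ → ℂ) := by
      funext z
      rw [coe_glHom, glBeta_none_smul]
    rwa [h2] at h1
  · rw [← map_mul, hx]
  · unfold betaMer
    rw [← glMer_algebraMap, ← glMer_algebraMap, ← map_mul, hh]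

end Fermat.Agent.ES.HEQ.QExpMer19
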