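/-
Program J, chapter J3a (helper19): `Γ₀(N)` is transitive on the Hecke representatives
(`p ∤ N`), and the stabiliser of `∞` contains `Γ₀(p)`.
-/
import Fermat.Agent.ES.HEQ.DoubleCoset27

set_option autoImplicit false

open scoped MatrixGroups
open CongruenceSubgroup

namespace Fermat.Agent.ES.HEQ.RepGamma19

open Fermat.Agent.ES.HEQ.DoubleCoset27

variable {p : ℕ} [hp : Fact p.Prime]

/-- elements of `Γ₀(p)` fix the index `∞`. -/
theorem perm_none_of_dvd (g : SL(2, ℤ)) (h : (p : ℤ) ∣ g 1 0) :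
    perm g (none : Option (ZMod p)) = none := by
  obtain ⟨c, hc⟩ := h
  have hdet : g 0 0 * g 1 1 - g 0 1 * g 1 0 = 1 := by
    have := g.2
    rwa [Matrix.det_fin_two] at this
  let g' : SL(2, ℤ) := ⟨!![g 0 0, (p : ℤ) * g 0 1; c, g 1 1], by
    rw [Matrix.det_fin_two_of]
    rw [hc] at hdet
    linear_combination hdet⟩
  have key : beta p none * (g : Matrix (Fin 2) (Fin 2) ℤ)
      = (g' : Matrix (Fin 2) (Fin 2) ℤ) * beta p none := by
    ext a b
    fin_cases a <;> fin_cases b <;>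
      simp [g', beta_none, Matrix.mul_apply, Fin.sum_univ_two, hc] <;> ring
  exact (eq_of_beta_mul key).1

theorem perm_none_of_mem_Gamma0 {M : ℕ} (g : SL(2, ℤ)) (h : g ∈ Gamma0 (M * p)) :
    perm g (none : Option (ZMod p)) = none := by
  apply perm_none_of_dvd
  rw [Gamma0_mem, ZMod.intCast_zmod_eq_zero_iff_dvd] at h
  exact dvd_trans (by push_cast; exact dvd_mul_left _ _) h

/-- `Γ₀(N)` acts transitively on the indices (`p ∤ N`). -/
theorem exists_rep {N : ℕ} (hpN : ¬ p ∣ N) (i : Option (ZMod p)) :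
    ∃ γ : SL(2, ℤ), γ ∈ Gamma0 N ∧ perm γ (none : Option (ZMod p)) = i := by
  cases i with
  | none => exact ⟨1, one_mem _, perm_one _⟩
  | some j =>
    have hcop : IsCoprime (N : ℤ) ((N : ℤ) * (j.val : ℤ) + (p : ℤ)) := by
      have h1 : IsCoprime (N : ℤ) (p : ℤ) := by
        rw [Int.isCoprime_iff_gcd_eq_one, Int.gcd_natCast_natCast]
        exact (Nat.Coprime.symm ((Nat.Prime.coprime_iff_not_dvd hp.out).mpr hpN))
      have h2 := IsCoprime.add_mul_left_right h1 (j.val : ℤ)
      rwa [add_comm] at h2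
    obtain ⟨u, v, huv⟩ := hcop
    let γ : SL(2, ℤ) := ⟨!![v, -u; (N : ℤ), (N : ℤ) * (j.val : ℤ) + (p : ℤ)], by
      rw [Matrix.det_fin_two_of]
      linear_combination huv⟩
    let g : SL(2, ℤ) := ⟨!![(p : ℤ) * v, -u - v * (j.val : ℤ); (N : ℤ), 1], by
      rw [Matrix.det_fin_two_of]
      linear_combination huv⟩
    refine ⟨γ, ?_, ?_⟩
    · rw [Gamma0_mem]
      simp [γ]
    · have key : beta p none * (γ : Matrix (Fin 2) (Fin 2) ℤ)
          = (g : Matrix (Fin 2) (Fin 2) ℤ) * beta p (some j) := by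
        ext a b
        fin_cases a <;> fin_cases b <;>
          simp [γ, g, beta_none, beta_some, Matrix.mul_apply, Fin.sum_univ_two] <;> ring
      exact (eq_of_beta_mul key).1

end Fermat.Agent.ES.HEQ.RepGamma19
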