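/-
Program J, chapter J3a (helper19): the realisation of `F̄_N = ℚbar(j_d : d ∣ N)` in the field of
meromorphic functions on `ℍ` (through the coefficientwise base change to `ℂ` and helper5's
`realMer`), its compatibility with the two degeneracy embeddings `α, β : F̄_N → F̄_{Nℓ}`, and the
complete family of embeddings of `F̄_{Nℓ}` over `F̄_N`.
-/
import Fermat.Agent.ES.HEQ.QExpMer19
import Fermat.Agent.ES.HEQ.RepGamma19
import Fermat.Agent.RED.DESC.CoeffDescent1
import Fermat.Agent.X0.Degree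
import Fermat.Agent.X0.CuspExpand
import Fermat.Prelude.Def_ModularCurve_HeckeOperator

set_option autoImplicit false
set_option linter.style.haveILetI false
set_option linter.unnecessarySeqFocus false
set_option linter.unusedSectionVars false

open UpperHalfPlane hiding I
open scoped Manifold MatrixGroups
open CongruenceSubgroup

noncomputable section

namespace Fermat.Agent.ES.HEQ.RealBar19

open Fermat.Agent.X0 Fermat.Agent.X0.Analytic Fermat.Agent.X0.SurjPoint Fermat.Agent.ES.KUM
open Fermat.Agent.ES.HEQ.DoubleCoset27 Fermat.Agent.ES.HEQ.BetaMer19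
open Fermat.Agent.ES.HEQ.QExpMer19 Fermat.Agent.ES.HEQ.RepGamma19 ModularCurve
open Fermat.Agent.RED.DESC

section Level

variable (N : ℕ) [NeZero N]

/-- coefficientwise base change `F̄_N → F_ℂ` along `ι : ℚbar → ℂ`. -/
def bcBar : FF N →+* FC N :=
  RingHom.codRestrict ((coeffMap iotaK).comp (modularFunctionFieldBar N).val.toRingHom)
    (laurentBaseChange ℂ (modularFunctionFieldFull N))
    (fun f => CoeffDescent1.coeffMap_mem_laurentBaseChange_of_algHom iotaK
      (modularFunctionFieldFull N) f.2)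

@[simp] theorem coe_bcBar (f : FF N) :
    ((bcBar N f : FC N) : LaurentSeries ℂ) = toC (f : LaurentSeries Kbar) := rfl

/-- the realisation of `F̄_N` in `MerH`. -/
def anBar : FF N →+* MerH := (realMer N).comp (bcBar N)

theorem anBar_apply (f : FF N) : anBar N f = realMer N (bcBar N f) := rfl

theorem hasQExpMer_anBar (f : FF N) : HasQExpMer (toC (f : LaurentSeries Kbar)) (anBar N f) :=
  hasQExpMer_realMer N (bcBar N f)

/-- any other base change map gives the same realisation. -/
theorem realMer_eq_anBar (y : FC N) (f : FF N)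
    (h : (y : LaurentSeries ℂ) = toC (f : LaurentSeries Kbar)) : realMer N y = anBar N f :=
  realMer_eq_of_coe_eq N h

theorem slMer_anBar_of_mem (γ : SL(2, ℤ)) (hγ : γ ∈ Gamma0 N) (f : FF N) :
    slMer γ (anBar N f) = anBar N f :=
  slMer_realMer_of_mem N γ hγ _

/-- on `R = ℚbar[j_d]` the realisation is the one of `X0/Analytic`. -/
theorem anBar_coe (u : Rsub N) :
    anBar N (u : FF N) = algebraMap HolH MerH ⟨realize N u, realize_mem_HolH N u⟩ :=
  (hasQExpMer_anBar N (u : FF N)).unique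
    (hasQExpMer_of_hasQExp (a := ⟨realize N u, realize_mem_HolH N u⟩) (hasQExp_realize N u))

theorem anBar_algebraMap (c : Kbar) :
    anBar N (algebraMap Kbar (FF N) c) = algebraMap HolH MerH (algebraMap ℂ HolH (iotaK c)) := by
  have h : algebraMap Kbar (FF N) c = ((algebraMap Kbar (Rsub N) c : Rsub N) : FF N) := rfl
  rw [h, anBar_coe]
  congr 1
  apply Subtype.ext
  exact realize_algebraMap N c

end Level

section Hecke

variable (N ℓ : ℕ) [NeZero N] [hℓ : Fact ℓ.Prime]

/-- `an' ∘ α = an`. -/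
theorem anBar_alpha (f : FF N) : anBar (N * ℓ) (heckeAlphaBar Kbar N ℓ f) = anBar N f := by
  have h1 := hasQExpMer_anBar (N * ℓ) (heckeAlphaBar Kbar N ℓ f)
  rw [coe_heckeAlphaBar] at h1
  exact h1.unique (hasQExpMer_anBar N f)

/-- `an' ∘ β = (· ∘ (z ↦ ℓ z)) ∘ an`. -/
theorem anBar_beta (f : FF N) :
    anBar (N * ℓ) (heckeBetaBar Kbar N ℓ f) = betaMer ℓ none (anBar N f) := by
  have h1 := hasQExpMer_anBar (N * ℓ) (heckeBetaBar Kbar N ℓ f)
  rw [coe_heckeBetaBar, toC, Analytic.coeffMap_qExpand] at h1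
  exact h1.unique (hasQExpMer_anBar N f).betaMer_none

variable {N ℓ} (hℓN : ¬ ℓ ∣ N)

/-- a representative `γ_i ∈ Γ₀(N)` with `β_∞ γ_i ∈ SL(2,ℤ) β_i`. -/
def rep (i : Option (ZMod ℓ)) : SL(2, ℤ) := (exists_rep hℓN i).choose

theorem rep_mem (i : Option (ZMod ℓ)) : rep hℓN i ∈ Gamma0 N := (exists_rep hℓN i).choose_spec.1

theorem perm_rep (i : Option (ZMod ℓ)) : perm (rep hℓN i) (none : Option (ZMod ℓ)) = i :=
  (exists_rep hℓN i).choose_spec.2

/-- the complete family of embeddings `F̄_{Nℓ} → MerH` over `an`. -/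
def sigma (i : Option (ZMod ℓ)) : FF (N * ℓ) →+* MerH :=
  (slMer (rep hℓN i)).comp (anBar (N * ℓ))

theorem sigma_apply (i : Option (ZMod ℓ)) (y : FF (N * ℓ)) :
    sigma hℓN i y = slMer (rep hℓN i) (anBar (N * ℓ) y) := rfl

theorem sigma_alpha (i : Option (ZMod ℓ)) (f : FF N) :
    sigma hℓN i (heckeAlphaBar Kbar N ℓ f) = anBar N f := by
  rw [sigma_apply, anBar_alpha, slMer_anBar_of_mem N _ (rep_mem hℓN i)]

theorem sigma_beta (i : Option (ZMod ℓ)) (f : FF N) :
    sigma hℓN i (heckeBetaBar Kbar N ℓ f) = betaMer ℓ i (anBar N f) := by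
  rw [sigma_apply, anBar_beta, slMer_betaMer, perm_rep,
    slMer_anBar_of_mem N _ (coc_mem_Gamma0 hℓN (rep_mem hℓN i) none)]

theorem sigma_injective : Function.Injective (sigma (N := N) hℓN) := by
  intro i k h
  -- the two translates agree on `R_{Nℓ}`
  have h1 : ∀ u : Rsub (N * ℓ), compSL ((realizeData (N * ℓ)).Θ u) (rep hℓN i) =
      compSL ((realizeData (N * ℓ)).Θ u) (rep hℓN k) := by
    intro u
    have h2 := DFunLike.congr_fun h (u : FF (N * ℓ))
    rw [sigma_apply, sigma_apply, anBar_coe, slMer_algebraMap, slMer_algebraMap] at h2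
    have h3 := IsFractionRing.injective HolH MerH h2
    exact congrArg Subtype.val h3
  have h4 : rep hℓN k * (rep hℓN i)⁻¹ ∈ Gamma0 (N * ℓ) :=
    Degree.mem_Gamma0_of_compSL_eq (N * ℓ) (realizeData (N * ℓ)) (cuspData (N * ℓ)) _ _ h1
  have h5 : perm (rep hℓN k * (rep hℓN i)⁻¹) (none : Option (ZMod ℓ)) = none :=
    perm_none_of_mem_Gamma0 _ h4
  have h6 : rep hℓN k = (rep hℓN k * (rep hℓN i)⁻¹) * rep hℓN i := by
    rw [inv_mul_cancel_right]
  have h7 : perm (rep hℓN k) (none : Option (ZMod ℓ)) = perm (rep hℓN i) none := by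
    conv_lhs => rw [h6, perm_mul, h5]
  rw [perm_rep, perm_rep] at h7
  exact h7.symm

end Hecke

end Fermat.Agent.ES.HEQ.RealBar19
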